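import Fermat.Agent.CAR.BK.CIC
import Fermat.Agent.GAL.KLC.ValArch
import Fermat.Agent.GAL.KLC.ValThm
import Fermat.Agent.GAL.KLB.IntRed
import Fermat.Agent.GAL.KL.ONBasis
import Fermat.Agent.GAL.KL.Lattice

/-!
# CAR / BK : package RL-2 : (BL) a function of `B_u ∩ O_v` has its `Q`-expansion coefficients in `A`
-/

set_option autoImplicit false

open Polynomial ModularCurve AlgebraicCurve

noncomputable section

namespace Fermat.Agent.CAR.BK

open Fermat.Agent.GR Fermat.Agent.GAL Fermat.Agent.GAL.KL Fermat.Agent.GAL.KLC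

/-- rank one (`KLC.ValArch.exists_pow_lt` for `v = A.valuation`; `a ∉ A ↔ 1 < A.valuation a`). -/
theorem rank_one {ℓ : ℕ} (hℓ : ℓ.Prime) (A : ValuationSubring Qb) (hA : A.LiesOverPrime ℓ)
    (a : Qb) (ha : a ∉ A) (b : Qb) (hb : b ≠ 0) : ∃ r : ℕ, b * a ^ r ∉ A := by
  have : Algebra.IsAlgebraic ℚ Qb := AlgebraicClosure.isAlgebraic ℚ
  have hv : A.valuation (ℓ : Qb) < 1 := A.mem_nonunits_iff.1 hA
  have ha0 : a ≠ 0 := fun e => ha (by rw [e]; exact A.zero_mem)
  have ha1 : 1 < A.valuation a := by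
    rw [← not_le, A.valuation_le_one_iff]
    exact ha
  have hva0 : 0 < A.valuation a := lt_trans zero_lt_one ha1
  have ha2 : A.valuation a⁻¹ < 1 := by
    rw [map_inv₀]
    exact inv_lt_one_of_one_lt₀ ha1
  obtain ⟨m, hm⟩ := ValArch.exists_pow_lt (v := A.valuation) hℓ hv ha2 hb
  refine ⟨m, ?_⟩
  rw [← A.valuation_le_one_iff, not_le, map_mul, map_pow]
  rw [map_inv₀, inv_pow] at hm
  have hpos : 0 < A.valuation a ^ m := pow_pos hva0 m
  rwa [inv_lt_iff_one_lt_mul₀ hpos] at hm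

/-- the subring of the series with coefficients in `A`. -/
def blS (A : ValuationSubring Qb) : Subring (LaurentSeries Qb) := (coeffMap A.subtype).range

theorem bl_mem_S_iff (A : ValuationSubring Qb) {x : LaurentSeries Qb} :
    x ∈ blS A ↔ ∀ n, x.coeff n ∈ A := by
  constructor
  · rintro ⟨y, rfl⟩ n
    rw [coeffMap_coeff]
    exact (y.coeff n).2
  · intro h
    obtain ⟨y, hy⟩ := exists_int_of_coeff_mem A x h
    exact ⟨y, hy⟩

theorem bl_C_mem_S (A : ValuationSubring Qb) {a : Qb} (ha : a ∈ A) :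
    (HahnSeries.C a : LaurentSeries Qb) ∈ blS A := by
  rw [bl_mem_S_iff]
  intro n
  rw [HahnSeries.C_apply, HahnSeries.coeff_single]
  split_ifs
  · exact ha
  · exact A.zero_mem

theorem bl_mem_of_vG_le (A : ValuationSubring Qb) (M : ℕ) {a : Qb}
    (h : vG A M (algebraMap Qb (FL Qb M) a) ≤ 1) : a ∈ A := by
  obtain ⟨zb, hzb⟩ := (ValThm_le_one_iff A M).1 h
  rw [ValThm_coe_algebraMap] at hzb
  exact ValThm_mem_of_hasRed_C A hzb

theorem bl_aeval_mem_S (A : ValuationSubring Qb) (M : ℕ) {u : FL Qb M}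
    (hu : (u : LaurentSeries Qb) ∈ blS A) (P : Qb[X]) (hP : ∀ n, P.coeff n ∈ A) :
    ((aeval u P : FL Qb M) : LaurentSeries Qb) ∈ blS A := by
  rw [aeval_eq_sum_range]
  have h1 : ((∑ i ∈ Finset.range (P.natDegree + 1), P.coeff i • u ^ i : FL Qb M) :
      LaurentSeries Qb) = ∑ i ∈ Finset.range (P.natDegree + 1),
        HahnSeries.C (P.coeff i) * (u : LaurentSeries Qb) ^ i := by
    rw [← IntermediateField.coe_val, map_sum]
    refine Finset.sum_congr rfl fun i _ => ?_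
    rw [Algebra.smul_def, map_mul, map_pow, IntermediateField.coe_val, ValThm_coe_algebraMap]
  rw [h1]
  exact Subring.sum_mem _ fun i _ => Subring.mul_mem _ (bl_C_mem_S A (hP i)) (Subring.pow_mem _ hu i)

/-- **RL-2 (BL).**  `u` with coefficients in `A`, `(β)` an orthonormal `ℚ̄(u)`-basis.  If `z` is integral over `ℚ̄[u]` and `|z| ≤ 1` then all
`Q`-expansion coefficients of `z` lie in `A`.
PROOF.  As in `KLB.isInt_rho` (file `GAL/KLB/IntRed.lean`): `exists_basis_BB` + `exists_ON_basis` give an orthonormal `ℚ̄[u]`-basis `e` of `BB ℚ̄ u`;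
`z e_j = ∑_i P_ji(u) e_i`, `1 = ∑_i p_i(u) e_i` with `|P_ji(u)|, |p_i(u)| ≤ 1`, so (Gauss) all coefficients of `P_ji`, `p_i` have `vG ≤ 1`, i.e. lie in `A`
(`ValThm_mem_of_hasRed_C`, `mem_integer_iff`).  Let `S ⊆ ℚ̄((Q))` be the subring of series with coefficients in `A` (`= range (coeffMap A.subtype)`,
`GR.exists_int_of_coeff_mem`), `N := ∑_j S e_j`.  `u ∈ S`, so `P_ji(u), p_i(u) ∈ S`; hence `1 ∈ N`, `z N ⊆ N`, `S N ⊆ N`, so `(z - s)^r ∈ N` for `s ∈ S`.
Each `e_j` has `|e_j| ≤ 1`: `HasRed` gives `Q_j ∈ S`, `Q_j ≠ 0`, `e_j Q_j ∈ S`.  `d := ∏_j Q_j` satisfies `d N ⊆ S`.  Apply `coeff_mem_of_forall_pow`. -/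
theorem coeff_mem_of_isInt {ℓ : ℕ} (hℓ : ℓ.Prime) (A : ValuationSubring Qb) (hA : A.LiesOverPrime ℓ)
    (M : ℕ) {u : FL Qb M} (hu : ∀ n, (u : LaurentSeries Qb).coeff n ∈ A)
    (hG : Gauss Qb (vG A M) u) {d : ℕ} (β : Fin d → FL Qb M) (hβ : ON Qb (vG A M) u β)
    (hβs : Spans Qb u β) {z : FL Qb M} (hz : IsInt Qb u z) (hv : vG A M z ≤ 1) :
    ∀ n, (z : LaurentSeries Qb).coeff n ∈ A := by
  classical
  obtain ⟨b, hb⟩ := exists_basis_BB hG.inj β (ON.inj hG hβ) hβs
  obtain ⟨e, he, hON⟩ := exists_ON_basis hG β hβ hβs (BB Qb u) b hb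
  have huS : (u : LaurentSeries Qb) ∈ blS A := (bl_mem_S_iff A).2 hu
  have hemem : ∀ j, IsInt Qb u (e j) := fun j =>
    (he.2 (e j)).2 ⟨Pi.single j 1, by rw [comb_single, map_one, one_mul]⟩
  -- an element of `B_u ∩ O_v` is an `S`-combination of the `e_j`
  have hcomb : ∀ x : FL Qb M, IsInt Qb u x → vG A M x ≤ 1 →
      ∃ c : Fin d → LaurentSeries Qb, (∀ i, c i ∈ blS A) ∧
        (x : LaurentSeries Qb) = ∑ i, c i * (e i : LaurentSeries Qb) := by
    intro x hx hvx
    obtain ⟨P, hP⟩ := (he.2 x).1 hx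
    refine ⟨fun i => ((aeval u (P i) : FL Qb M) : LaurentSeries Qb), fun i => ?_, ?_⟩
    · refine bl_aeval_mem_S A M huS (P i) fun n => bl_mem_of_vG_le A M ?_
      refine (hG (P i) 1).1 ?_ n
      refine (hON P 1).1 ?_ i
      rw [← hP]
      exact hvx
    · rw [hP, comb, ← IntermediateField.coe_val, map_sum]
      rfl
  -- the module `N`
  let E : Fin d → LaurentSeries Qb := fun j => (e j : LaurentSeries Qb)
  let N : Submodule (blS A) (LaurentSeries Qb) := Submodule.span (blS A) (Set.range E)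
  have hN_of : ∀ c : Fin d → LaurentSeries Qb, (∀ i, c i ∈ blS A) → ∑ i, c i * E i ∈ N := by
    intro c hc
    refine Submodule.sum_mem _ fun i _ => ?_
    exact N.smul_mem (⟨c i, hc i⟩ : blS A) (Submodule.subset_span ⟨i, rfl⟩)
  have h1N : (1 : LaurentSeries Qb) ∈ N := by
    obtain ⟨c, hc, h⟩ := hcomb 1 IsInt.one (by rw [map_one])
    have h' : (1 : LaurentSeries Qb) = ∑ i, c i * E i := h
    rw [h']
    exact hN_of c hc
  have hsN : ∀ s ∈ blS A, ∀ x ∈ N, s * x ∈ N := fun s hs x hx => N.smul_mem (⟨s, hs⟩ : blS A) hx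
  have hzN : ∀ x ∈ N, (z : LaurentSeries Qb) * x ∈ N := by
    intro x hx
    induction hx using Submodule.span_induction with
    | mem x hx =>
      obtain ⟨j, rfl⟩ := hx
      obtain ⟨c, hc, h⟩ := hcomb (z * e j) (hz.mul (hemem j))
        (by rw [map_mul, hON.v_eq_one j, mul_one]; exact hv)
      have h' : (z : LaurentSeries Qb) * E j = ∑ i, c i * E i := h
      rw [h']
      exact hN_of c hc
    | zero => rw [mul_zero]; exact N.zero_mem
    | add x y _ _ hx hy => rw [mul_add]; exact N.add_mem hx hy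
    | smul a x _ hx =>
      have h' : (z : LaurentSeries Qb) * (a • x) = a • ((z : LaurentSeries Qb) * x) := by
        rw [Subring.smul_def, Subring.smul_def, smul_eq_mul, smul_eq_mul]
        ring
      rw [h']
      exact N.smul_mem a hx
  have hpowN : ∀ s ∈ blS A, ∀ r : ℕ, ((z : LaurentSeries Qb) - s) ^ r ∈ N := by
    intro s hs r
    induction r with
    | zero => rw [pow_zero]; exact h1N
    | succ r ih =>
      rw [pow_succ', sub_mul]
      exact N.sub_mem (hzN _ ih) (hsN s hs _ ih)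
  -- the denominators
  have hQ : ∀ j, ∃ Q : LaurentSeries Qb, Q ∈ blS A ∧ Q ≠ 0 ∧ Q * E j ∈ blS A := by
    intro j
    obtain ⟨zb, P, Q, hQ, -, hx⟩ := (ValThm_le_one_iff A M).1 (le_of_eq (hON.v_eq_one j))
    refine ⟨coeffMap A.subtype Q, ⟨Q, rfl⟩, ?_, ?_⟩
    · intro h0
      apply hQ
      have : Q = 0 := incl_injective (A := A) (by rw [h0, map_zero])
      rw [this, map_zero]
    · rw [mul_comm]
      exact ⟨P, hx.symm⟩
  choose Q hQS hQ0 hQE using hQ
  have hD0 : (∏ j, Q j) ≠ 0 := Finset.prod_ne_zero_iff.2 fun j _ => hQ0 j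
  have hDN : ∀ x ∈ N, (∏ j, Q j) * x ∈ blS A := by
    intro x hx
    induction hx using Submodule.span_induction with
    | mem x hx =>
      obtain ⟨j, rfl⟩ := hx
      rw [← Finset.prod_erase_mul Finset.univ Q (Finset.mem_univ j), mul_assoc]
      exact Subring.mul_mem _ (Subring.prod_mem _ fun i _ => hQS i) (hQE j)
    | zero => rw [mul_zero]; exact Subring.zero_mem _
    | add x y _ _ hx hy => rw [mul_add]; exact Subring.add_mem _ hx hy
    | smul a x _ hx =>
      have h' : (∏ j, Q j) * (a • x) = (a : LaurentSeries Qb) * ((∏ j, Q j) * x) := by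
        rw [Subring.smul_def, smul_eq_mul]
        ring
      rw [h']
      exact Subring.mul_mem _ a.2 hx
  refine coeff_mem_of_forall_pow A (rank_one hℓ A hA) hD0 fun s hs r n => ?_
  exact (bl_mem_S_iff A).1 (hDN _ (hpowN s ((bl_mem_S_iff A).2 hs) r)) n

/-- consequence: a nonzero element of `B_u` has a coefficient of maximal absolute value
(`ValArch.exists_const` / `exists_hasRed_C_mul_of_mem_FL`: `HasRed A (C a * z) ζ`, `ζ ≠ 0`; `C a * z` has coefficients in `A` by (BL), its reduction is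
coefficientwise (`HasRed.of_int`, `HasRed.unique`), so one coefficient is a unit). -/
theorem exists_max_coeff_of_isInt {ℓ : ℕ} (hℓ : ℓ.Prime) (A : ValuationSubring Qb)
    (hA : A.LiesOverPrime ℓ) (M : ℕ) {u : FL Qb M} (hu : ∀ n, (u : LaurentSeries Qb).coeff n ∈ A)
    (hG : Gauss Qb (vG A M) u) {d : ℕ} (β : Fin d → FL Qb M) (hβ : ON Qb (vG A M) u β)
    (hβs : Spans Qb u β) {z : FL Qb M} (hz : IsInt Qb u z) (hz0 : z ≠ 0) :
    ∃ n₀ : ℤ, (z : LaurentSeries Qb).coeff n₀ ≠ 0 ∧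
      ∀ n, (z : LaurentSeries Qb).coeff n / (z : LaurentSeries Qb).coeff n₀ ∈ A := by
  have hz' : (z : LaurentSeries Qb) ≠ 0 := fun h => hz0 (Subtype.ext h)
  obtain ⟨c, hc, zb, hzb, h⟩ := exists_hasRed_C_mul_of_mem_FL A M z.2 hz'
  have e1 : ((algebraMap Qb (FL Qb M) c * z : FL Qb M) : LaurentSeries Qb)
      = HahnSeries.C c * (z : LaurentSeries Qb) := by
    rw [← ValThm_coe_algebraMap M c]; rfl
  have hv : vG A M (algebraMap Qb (FL Qb M) c * z) ≤ 1 :=
    (ValThm_le_one_iff A M).2 ⟨zb, by rw [e1]; exact h⟩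
  have hcoef := coeff_mem_of_isInt hℓ A hA M hu hG β hβ hβs ((IsInt.algebraMap c).mul hz) hv
  rw [e1] at hcoef
  obtain ⟨y, hy⟩ := exists_int_of_coeff_mem A _ hcoef
  rw [← hy] at h
  have hyb := h.eq_of_int
  have hne : coeffMap (IsLocalRing.residue A) y ≠ 0 := by rw [hyb]; exact hzb
  obtain ⟨n₀, hn₀⟩ : ∃ n₀, (coeffMap (IsLocalRing.residue A) y).coeff n₀ ≠ 0 := by
    by_contra hcon
    push Not at hcon
    exact hne (HahnSeries.ext (funext hcon))
  rw [coeffMap_coeff, Ne, IsLocalRing.residue_eq_zero_iff, IsLocalRing.mem_maximalIdeal,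
    mem_nonunits_iff, not_not] at hn₀
  have hyc : ∀ n, ((y.coeff n : A) : Qb) = c * (z : LaurentSeries Qb).coeff n := by
    intro n
    have := congrArg (fun f => HahnSeries.coeff f n) hy
    simp only [coeffMap_coeff, HahnSeries.C_mul_eq_smul, HahnSeries.coeff_smul, smul_eq_mul] at this
    exact this
  obtain ⟨w, hw⟩ := hn₀
  have hw1 : ((w⁻¹ : Aˣ) : A) * y.coeff n₀ = 1 := by rw [← hw]; simp
  have hw2 : (((w⁻¹ : Aˣ) : A) : Qb) * (c * (z : LaurentSeries Qb).coeff n₀) = 1 := by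
    rw [← hyc n₀]
    exact congrArg Subtype.val hw1
  have hzn0 : (z : LaurentSeries Qb).coeff n₀ ≠ 0 := by
    intro h0
    rw [h0, mul_zero, mul_zero] at hw2
    exact zero_ne_one hw2
  refine ⟨n₀, hzn0, fun n => ?_⟩
  have h3 : (z : LaurentSeries Qb).coeff n / (z : LaurentSeries Qb).coeff n₀ =
      ((y.coeff n * ((w⁻¹ : Aˣ) : A) : A) : Qb) := by
    have h4 : ((y.coeff n * ((w⁻¹ : Aˣ) : A) : A) : Qb) =
        (c * (z : LaurentSeries Qb).coeff n) * (((w⁻¹ : Aˣ) : A) : Qb) := by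
      rw [← hyc n]; rfl
    rw [h4, div_eq_iff hzn0]
    calc (z : LaurentSeries Qb).coeff n
        = (z : LaurentSeries Qb).coeff n *
            ((((w⁻¹ : Aˣ) : A) : Qb) * (c * (z : LaurentSeries Qb).coeff n₀)) := by
          rw [hw2, mul_one]
      _ = _ := by ring
  rw [h3]
  exact (y.coeff n * ((w⁻¹ : Aˣ) : A) : A).2

end Fermat.Agent.CAR.BK
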