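import Fermat.Agent.CAR.BK.Defs
import Fermat.Agent.CAR.FQ2C.Main
import Fermat.Agent.CAR.DESC.EF
import Fermat.Agent.CAR.BKP.Conc
import Fermat.Agent.TOR.T1C.Semi
import Fermat.Agent.ORD.P1.Inertia
import Fermat.Agent.S13.Inertia

/-!
# CAR / BK / ConcRat : the concrete fields `E₀ = FN(M')^I`, `E = FN(q²M')^I` and the rationality fields of `ChartK`
(`αE`, `γE`, `u₀E`, `mdc`)
-/

set_option autoImplicit false

open ModularCurve AlgebraicCurve

noncomputable section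

namespace Fermat.Agent.CAR.BK

open Fermat.Agent.GR Fermat.Agent.GAL Fermat.Agent.GAL.KL Fermat.Agent.GAL.KLC Fermat.Agent.S24
open Fermat.Agent.S28 Fermat.Agent.GR.HeckeField Fermat.Agent.TOR Fermat.Agent.TOR.GB
open Fermat.Agent.CAR.FQ2V Fermat.Agent.CAR.FQ2E Fermat.Agent.CAR.FQ2C Fermat.Agent.CAR.ON
open Fermat.Agent.CAR.DESC

/-- the inertia group. -/
abbrev IA (A : ValuationSubring Qb) : Subgroup GQ := A.inertiaSubgroupIn ℚ

/-- `E(N) = FN(N)^I` (`= DESC.EF I N`). -/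
abbrev EC (A : ValuationSubring Qb) (N : ℕ) : Subfield (FN N) := EF (IA A) N

variable {M' q : ℕ} [NeZero M'] [NeZero q] (A : ValuationSubring Qb) (ζ : Qbˣ)

theorem mem_EC {N : ℕ} {z : FN N} :
    z ∈ EC A N ↔ ∀ τ ∈ A.inertiaSubgroupIn ℚ, galS τ (z : LaurentSeries Qb) = z := Iff.rfl

theorem mem_EC_iff_galF {N : ℕ} {z : FN N} :
    z ∈ EC A N ↔ ∀ τ ∈ A.inertiaSubgroupIn ℚ, galF N τ z = z :=
  ⟨fun h τ hτ => Subtype.ext (h τ hτ), fun h τ hτ => congrArg Subtype.val (h τ hτ)⟩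

/-- `BKP.tC` and `FQ2C.tC` are the same element. -/
theorem tC_eq_tC : FQ2C.tC M' q = BKP.tC M' q := rfl

theorem al_eq_alC : al M' q = BKP.alC M' q := rfl

theorem ga_eq_gaC : ga M' q = BKP.gaC M' q := rfl

theorem ConcRat_alp_mem {N : ℕ} [NeZero N] {y : FN N} (hy : y ∈ EC A N) :
    alp N q y ∈ EC A (N * q) := by
  rw [mem_EC_iff_galF] at hy ⊢
  intro τ hτ
  rw [galF_alp, hy τ hτ]

theorem ConcRat_bet_mem {N : ℕ} [NeZero N] {y : FN N} (hy : y ∈ EC A N) :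
    bet N q y ∈ EC A (N * q) := by
  rw [mem_EC_iff_galF] at hy ⊢
  intro τ hτ
  rw [galF_bet, hy τ hτ]

/-- (`galF_alp` twice.) -/
theorem al_mem_EC {c : FN M'} (hc : c ∈ EC A M') : al M' q c ∈ EC A (M' * q * q) := by
  rw [al_apply]
  exact ConcRat_alp_mem A (ConcRat_alp_mem A hc)

/-- (`galF_bet` twice.) -/
theorem ga_mem_EC {c : FN M'} (hc : c ∈ EC A M') : ga M' q c ∈ EC A (M' * q * q) := by
  rw [ga_apply]
  exact ConcRat_bet_mem A (ConcRat_bet_mem A hc)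

theorem be_mem_EC {c : FN M'} (hc : c ∈ EC A M') : be M' q c ∈ EC A (M' * q * q) := by
  rw [be_apply]
  exact ConcRat_alp_mem A (ConcRat_bet_mem A hc)

/-- level `q M'` → level `q² M'`. -/
theorem alp_mem_EC {y : FN (M' * q)} (hy : y ∈ EC A (M' * q)) :
    alp (M' * q) q y ∈ EC A (M' * q * q) :=
  ConcRat_alp_mem A hy

theorem bet_mem_EC {y : FN (M' * q)} (hy : y ∈ EC A (M' * q)) :
    bet (M' * q) q y ∈ EC A (M' * q * q) :=
  ConcRat_bet_mem A hy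

/-- `x` has integer coefficients (`DESC.FixS.intS`; `coe (xF M) = xR Qb M = intS Qb (XZ M)`: see how `T1C`/`BK.Lift.exists_fixed_lift_xF` prove
`galF M σ (xF M) = xF M`). -/
theorem xF_mem_EC (M : ℕ) [NeZero M] : xF M ∈ EC A M := by
  rw [mem_EC]
  intro τ _
  show galS τ (coeffMap (Int.castRingHom Qb) (XZ M)) = coeffMap (Int.castRingHom Qb) (XZ M)
  ext n
  rw [DESC.galS_coeff, coeffMap_coeff]
  exact map_intCast τ _

theorem tC_mem_EC : FQ2C.tC M' q ∈ EC A (M' * q * q) :=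
  mul_mem (al_mem_EC A (xF_mem_EC A M')) (ga_mem_EC A (xF_mem_EC A M'))

/-- constants of `K = ℚ̄^I`. -/
theorem algebraMap_mem_EC (N : ℕ) {a : Qb} (ha : ∀ τ ∈ A.inertiaSubgroupIn ℚ, τ a = a) :
    algebraMap Qb (FN N) a ∈ EC A N :=
  algebraMap_mem_EF (DSC.mem_EH.2 ha)

/-- an element of the inertia group moving the middle index `i` to `j`. -/
theorem ConcRat_exists_inertia (hq : q.Prime) (hqM : ¬ q ∣ M') (hA : A.LiesOverPrime q)
    (hζ : IsPrimitiveRoot ζ q) (i j : (ZMod q)ˣ) :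
    ∃ τ ∈ A.inertiaSubgroupIn ℚ, ∀ z : FN (M' * q * q),
      galS τ (eMidC M' q ζ i z) = eMidC M' q ζ j (galF (M' * q * q) τ z) := by
  have hnd : ¬ q ∣ ((j * i⁻¹ : (ZMod q)ˣ) : ZMod q).val :=
    Nat.not_dvd_of_pos_of_lt (Idx_val_pos hq _) (ZMod.val_lt _)
  obtain ⟨τ, hτ, hpow⟩ := ORD.P1.exists_inertia_pow A hq hA 1 _ hnd
  refine ⟨τ, hτ, fun z => ?_⟩
  have ha : Units.map ((τ : Qb →+* Qb) : Qb →* Qb) ζ = zpw q ζ (j * i⁻¹) := by
    apply Units.ext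
    have h1 : (ζ : Qb) ^ q ^ 1 = 1 := by
      rw [pow_one, ← Units.val_pow_eq_pow_val, hζ.pow_eq_one, Units.val_one]
    have h2 := hpow (ζ : Qb) h1
    unfold zpw
    rw [Units.val_pow_eq_pow_val, ← h2]
    rfl
  rw [galS_eMidC hq hqM hζ τ (j * i⁻¹) ha i z, inv_mul_cancel_right]

/-- **`mdc`.**  On `E` the reduction at a middle index does not depend on the index.
PROOF.  `rd_md_iff`.  Put `a := j * i⁻¹ : (ZMod q)ˣ`.  `ORD.P1.exists_inertia_pow A hq hA 1 a.val.val (…)` gives `τ ∈ I` with `τ ξ = ξ ^ a.val` for all `ξ ^ q = 1`;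
so `Units.map τ ζ = zpw q ζ a` (`Units.ext`).  `galS_eMidC hq hqM hζ τ a _ i z : galS τ (eMidC ζ i z) = eMidC ζ (a * i) (galF τ z)`, `galF τ z = z`
(`mem_EC_iff_galF`), `a * i = j`; conclude with `T1C.hasRed_galS_inertia hτ`. -/
theorem mdcC (hq : q.Prime) (hqM : ¬ q ∣ M') (hA : A.LiesOverPrime q) (hζ : IsPrimitiveRoot ζ q)
    {z : FN (M' * q * q)} (hz : z ∈ EC A (M' * q * q)) (i j : (ZMod q)ˣ)
    (φ : LaurentSeries (kA A)) (h : T1.Rd (rhoC M' q A ζ (md i)) z φ) :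
    T1.Rd (rhoC M' q A ζ (md j)) z φ := by
  rw [rd_md_iff] at h ⊢
  obtain ⟨τ, hτ, hgal⟩ := ConcRat_exists_inertia A ζ hq hqM hA hζ i j
  have h1 := T1C.hasRed_galS_inertia hτ h
  rwa [hgal, (mem_EC_iff_galF A).1 hz τ hτ] at h1

/-- the inertia group preserves the valuation of the constants. -/
theorem ConcRat_vU_cU_inertia {τ : GQ} (hτ : τ ∈ A.inertiaSubgroupIn ℚ) (c : Qb) :
    vU A (cU (τ c)) = vU A (cU c) := by
  by_cases hc : c = 0
  · rw [hc, map_zero]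
  have hval : A.valuation (τ c) = A.valuation c :=
    (S13.isInertial_of_mem_inertia A τ hτ).map_val c
  have hτc : τ c ≠ 0 := (map_ne_zero τ).2 hc
  have hle : ∀ d : Qb, A.valuation d ≤ 1 → vU A (cU d) ≤ 1 := by
    intro d hd
    rw [vU_le_one_iff]
    exact ⟨_, hasRed_C A ⟨d, (A.valuation_le_one_iff d).1 hd⟩⟩
  have h1 : vU A (cU (τ c / c)) ≤ 1 := hle _ (by
    rw [map_div₀, hval, div_self ((map_ne_zero _).2 hc)])
  have h2 : vU A (cU (c / τ c)) ≤ 1 := hle _ (by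
    rw [map_div₀, hval, div_self ((map_ne_zero _).2 hc)])
  have hc' : vU A (cU c) ≠ 0 := (map_ne_zero _).2 ((map_ne_zero _).2 hc)
  have hτc' : vU A (cU (τ c)) ≠ 0 := (map_ne_zero _).2 ((map_ne_zero _).2 hτc)
  rw [map_div₀, map_div₀, div_le_one₀ (zero_lt_iff.2 hc')] at h1
  rw [map_div₀, map_div₀, div_le_one₀ (zero_lt_iff.2 hτc')] at h2
  exact le_antisymm h1 h2

/-- same for the valuations (`exists_rd`-free: `vC_le…`; or: for `z ≠ 0` choose a constant `a` with `vC (md i) (a z) = 1`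
(`IsRed`/`FQ2V` normalisation `exists_const`), apply `mdcC`… SIMPLER: `vC (md i) z = vOf A (eMidG ..) z` and `vOf` is invariant under `galS τ`, `τ ∈ I`:
`FQ2C.vOf_eq_of_hasRed` with `f := id`/the identity of `FN`, whose hypothesis "nonzero reductions are preserved" is `mdcC`-like). -/
theorem vC_md_eq (hq : q.Prime) (hqM : ¬ q ∣ M') (hA : A.LiesOverPrime q) (hζ : IsPrimitiveRoot ζ q)
    {z : FN (M' * q * q)} (hz : z ∈ EC A (M' * q * q)) (i j : (ZMod q)ˣ) :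
    vC M' q A ζ (md i) z = vC M' q A ζ (md j) z := by
  by_cases hz0 : z = 0
  · rw [hz0, map_zero, map_zero]
  obtain ⟨τ, hτ, hgal⟩ := ConcRat_exists_inertia A ζ hq hqM hA hζ i j
  have hz' : (famC M' q ζ (md i)).hom z ≠ 0 := (_root_.map_ne_zero _).2 hz0
  obtain ⟨c, hc0, φ, hφ, hr⟩ := exists_hasRed_C_mul A ((famC M' q ζ (md i)).mem z) hz'
  have hr2 := T1C.hasRed_galS_inertia hτ hr
  rw [map_mul, DESC.galS_C, famC_md_hom, hgal, (mem_EC_iff_galF A).1 hz τ hτ] at hr2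
  have e1 : (famC M' q ζ (md i)).hom (algebraMap Qb (FN (M' * q * q)) c * z)
      = HahnSeries.C c * (famC M' q ζ (md i)).hom z := by
    rw [map_mul, (famC M' q ζ (md i)).const]
  have e2 : (famC M' q ζ (md j)).hom (algebraMap Qb (FN (M' * q * q)) (τ c) * z)
      = HahnSeries.C (τ c) * eMidC M' q ζ j z := by
    rw [map_mul, (famC M' q ζ (md j)).const, famC_md_hom]
  rw [← e1] at hr
  rw [← e2] at hr2
  have h2 := vOf_eq_one_of_hasRed A _ hr hφ
  have h3 := vOf_eq_one_of_hasRed A _ hr2 hφ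
  rw [map_mul, vOf_algebraMap] at h2 h3
  rw [ConcRat_vU_cU_inertia A hτ] at h3
  have h4 : vU A (cU c) ≠ 0 := by
    intro h0
    rw [h0, zero_mul] at h2
    exact zero_ne_one h2
  rw [vC_apply, vC_apply]
  exact mul_left_cancel₀ h4 (h2.trans h3.symm)

end Fermat.Agent.CAR.BK
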