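import Mathlib
import Fermat.Prelude.Def_ModularCurve_ArithmeticGalois

/-!
# CAR / BK : package RL-3 : integral pivot bases of finite dimensional spaces of Laurent series
-/

set_option autoImplicit false

open ModularCurve

noncomputable section

namespace Fermat.Agent.CAR.BK

/-- the coefficient at `m` as a linear form. -/
def pivotCoeff {L : Type*} [Field L] (m : ℤ) : LaurentSeries L →ₗ[L] L where
  toFun := fun g => g.coeff m
  map_add' := fun _ _ => HahnSeries.coeff_add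
  map_smul' := fun _ _ => HahnSeries.coeff_smul

theorem pivot_coeff_sum {L : Type*} [Field L] {ι : Type*} (s : Finset ι) (a : ι → L)
    (f : ι → LaurentSeries L) (m : ℤ) :
    (∑ i ∈ s, a i • f i).coeff m = ∑ i ∈ s, a i * (f i).coeff m := by
  have := map_sum (pivotCoeff (L := L) m) (fun i => a i • f i) s
  simpa [pivotCoeff] using this

theorem pivot_aux {L : Type*} [Field L] (A : ValuationSubring L) (d : ℕ) :
    ∀ (V : Submodule L (LaurentSeries L)) [FiniteDimensional L V], Module.finrank L V = d →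
    (∀ c ∈ V, c ≠ 0 → ∃ n₀ : ℤ, c.coeff n₀ ≠ 0 ∧ ∀ n, c.coeff n / c.coeff n₀ ∈ A) →
    ∃ (D : ℕ) (n : Fin D → ℤ) (f : Fin D → LaurentSeries L), (∀ i, f i ∈ V) ∧
      (∀ i m, (f i).coeff m ∈ A) ∧ (∀ i j, (f i).coeff (n j) = if i = j then 1 else 0) ∧
      ∀ g ∈ V, g = ∑ i, g.coeff (n i) • f i := by
  induction d using Nat.strong_induction_on with
  | _ d ih =>
  intro V _ hd hmax
  by_cases hV : V = ⊥
  · refine ⟨0, Fin.elim0, Fin.elim0, fun i => i.elim0, fun i => i.elim0, fun i => i.elim0, ?_⟩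
    intro g hg
    rw [hV, Submodule.mem_bot] at hg
    simp [hg]
  obtain ⟨c, hc, hc0⟩ := Submodule.exists_mem_ne_zero_of_ne_bot hV
  obtain ⟨n₁, hn₁, hA⟩ := hmax c hc hc0
  set f₁ : LaurentSeries L := (c.coeff n₁)⁻¹ • c with hf₁
  have hf₁V : f₁ ∈ V := V.smul_mem _ hc
  have hf₁c : ∀ m, f₁.coeff m = c.coeff m / c.coeff n₁ := by
    intro m
    rw [hf₁, HahnSeries.coeff_smul, smul_eq_mul, div_eq_inv_mul]
  have hf₁A : ∀ m, f₁.coeff m ∈ A := fun m => by rw [hf₁c]; exact hA m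
  have hf₁1 : f₁.coeff n₁ = 1 := by rw [hf₁c, div_self hn₁]
  set V' : Submodule L (LaurentSeries L) := V ⊓ LinearMap.ker (pivotCoeff n₁) with hV'
  have hV'le : V' ≤ V := inf_le_left
  have hmemV' : ∀ g, g ∈ V' ↔ g ∈ V ∧ g.coeff n₁ = 0 := by
    intro g
    rw [hV', Submodule.mem_inf, LinearMap.mem_ker]
    rfl
  have hlt : V' < V := by
    refine lt_of_le_of_ne hV'le fun h => ?_
    have : f₁ ∈ V' := by rw [h]; exact hf₁V
    rw [hmemV', hf₁1] at this
    exact one_ne_zero this.2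
  haveI : FiniteDimensional L V' := Submodule.finiteDimensional_of_le hV'le
  have hrk : Module.finrank L V' < d := by
    rw [← hd]
    exact Submodule.finrank_lt_finrank_of_lt hlt
  obtain ⟨D, n', f', hf'V, hf'A, hδ', hexp'⟩ := ih _ hrk V' rfl
    fun c hc hc0 => hmax c (hV'le hc) hc0
  have hf'0 : ∀ j, (f' j).coeff n₁ = 0 := fun j => ((hmemV' _).mp (hf'V j)).2
  set f₀ : LaurentSeries L := f₁ - ∑ j, f₁.coeff (n' j) • f' j with hf₀
  have hf₀c : ∀ m, f₀.coeff m = f₁.coeff m - ∑ j, f₁.coeff (n' j) * (f' j).coeff m := by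
    intro m
    rw [hf₀, HahnSeries.coeff_sub, pivot_coeff_sum]
  have hf₀V : f₀ ∈ V :=
    V.sub_mem hf₁V (V.sum_mem fun j _ => V.smul_mem _ (hV'le (hf'V j)))
  have hf₀A : ∀ m, f₀.coeff m ∈ A := by
    intro m
    rw [hf₀c]
    exact A.sub_mem (hf₁A m) (A.toSubring.sum_mem fun j _ => A.mul_mem _ _ (hf₁A _) (hf'A j m))
  have hf₀1 : f₀.coeff n₁ = 1 := by
    rw [hf₀c, hf₁1]
    simp [hf'0]
  have hf₀0 : ∀ l, f₀.coeff (n' l) = 0 := by
    intro l
    rw [hf₀c]
    simp [hδ']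
  refine ⟨D + 1, Fin.cons n₁ n', Fin.cons f₀ f', ?_, ?_, ?_, ?_⟩
  · intro i
    refine Fin.cases ?_ (fun j => ?_) i
    · simpa using hf₀V
    · simpa using hV'le (hf'V j)
  · intro i m
    refine Fin.cases ?_ (fun j => ?_) i
    · simpa using hf₀A m
    · simpa using hf'A j m
  · intro i j
    refine Fin.cases ?_ (fun i' => ?_) i
    · refine Fin.cases ?_ (fun j' => ?_) j
      · simpa using hf₀1
      · simpa [Fin.succ_ne_zero, (Fin.succ_ne_zero _).symm] using hf₀0 j'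
    · refine Fin.cases ?_ (fun j' => ?_) j
      · simpa [Fin.succ_ne_zero] using hf'0 i'
      · simpa [Fin.succ_inj] using hδ' i' j'
  · intro g hg
    have hg' : g - g.coeff n₁ • f₀ ∈ V' := by
      rw [hmemV']
      refine ⟨V.sub_mem hg (V.smul_mem _ hf₀V), ?_⟩
      rw [HahnSeries.coeff_sub, HahnSeries.coeff_smul, hf₀1, smul_eq_mul, mul_one, sub_self]
    have h1 := hexp' _ hg'
    have h2 : ∀ j, (g - g.coeff n₁ • f₀).coeff (n' j) = g.coeff (n' j) := by
      intro j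
      rw [HahnSeries.coeff_sub, HahnSeries.coeff_smul, hf₀0, smul_zero, sub_zero]
    simp only [h2] at h1
    rw [Fin.sum_univ_succ]
    simp only [Fin.cons_zero, Fin.cons_succ]
    rw [← h1]
    abel

/-- **RL-3a.**  `V ⊆ L((Q))` finite dimensional, every `c ≠ 0` in `V` has a coefficient of maximal absolute value.  Then there are
positions `n j` and a basis `f j` of `V` with coefficients in `A`, `(f i).coeff (n j) = δ_ij`.
PROOF.  Induction on `finrank L V` (generalise `V`).  `V = ⊥`: `D = 0`.  Otherwise pick `c ≠ 0`, `n₁` from `hmax`, `f₁ := (c.coeff n₁)⁻¹ • c`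
(coefficients in `A`, coefficient `1` at `n₁`).  `V' := {g ∈ V | g.coeff n₁ = 0}` has smaller finrank (`f₁ ∉ V'`), satisfies `hmax`; induction gives
`(n_j, f_j)`.  Replace `f₁` by `f₁ - ∑_j f₁.coeff (n_j) • f_j`.  Index by `Fin (D + 1)` with `Fin.cons`.  For `g ∈ V`:
`g - g.coeff n₁ • f₁' ∈ V'`, expand. -/
theorem exists_pivots_val {L : Type*} [Field L] (A : ValuationSubring L)
    (V : Submodule L (LaurentSeries L)) [FiniteDimensional L V]
    (hmax : ∀ c ∈ V, c ≠ 0 → ∃ n₀ : ℤ, c.coeff n₀ ≠ 0 ∧ ∀ n, c.coeff n / c.coeff n₀ ∈ A) :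
    ∃ (D : ℕ) (n : Fin D → ℤ) (f : Fin D → LaurentSeries L), (∀ i, f i ∈ V) ∧
      (∀ i m, (f i).coeff m ∈ A) ∧ (∀ i j, (f i).coeff (n j) = if i = j then 1 else 0) ∧
      ∀ g ∈ V, g = ∑ i, g.coeff (n i) • f i :=
  pivot_aux A _ V rfl hmax

/-- **RL-3b.**  A pivot basis is fixed by every coefficientwise ring endomorphism preserving `V`
(`g := coeffMap σ (f i) ∈ V` has the coefficients `σ δ_ij = δ_ij` at the pivots; expand `g`). -/
theorem coeffMap_eq_of_pivots {L : Type*} [Field L] (V : Submodule L (LaurentSeries L)) {D : ℕ}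
    (n : Fin D → ℤ) (f : Fin D → LaurentSeries L) (hf : ∀ i, f i ∈ V)
    (hδ : ∀ i j, (f i).coeff (n j) = if i = j then 1 else 0)
    (hexp : ∀ g ∈ V, g = ∑ i, g.coeff (n i) • f i)
    (σ : L →+* L) (hσ : ∀ c ∈ V, coeffMap σ c ∈ V) (i : Fin D) : coeffMap σ (f i) = f i := by
  have h1 := hexp _ (hσ _ (hf i))
  rw [h1]
  have h2 : ∀ j, (coeffMap σ (f i)).coeff (n j) = if i = j then 1 else 0 := by
    intro j
    rw [coeffMap_coeff, hδ]
    split_ifs <;> simp
  simp only [h2]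
  simp

end Fermat.Agent.CAR.BK
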