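import Fermat.Agent.CAR.BK.BL
import Fermat.Agent.CAR.BK.Pivot
import Fermat.Agent.TOR.GB.W
import Fermat.Agent.DSC.Teich
import Fermat.Agent.GAL.KLC.LLeqL
import Fermat.Agent.GAL.KLC.MainOf

/-!
# CAR / BK : package RL-4 : inertia-fixed INTEGRAL lifts (`B'_K → R'` is onto)
-/

set_option autoImplicit false

open Polynomial ModularCurve AlgebraicCurve

noncomputable section

namespace Fermat.Agent.CAR.BK

open Fermat.Agent.GR Fermat.Agent.GAL Fermat.Agent.GAL.KL Fermat.Agent.GAL.KLC Fermat.Agent.S24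
open Fermat.Agent.TOR.GB

/-- the Galois action preserves integrality over `ℚ̄[u]` if it fixes `u`
(apply `σ` to the coefficients of the monic equation; cf. `T1.frobLike_inertia` / `TOR/T1/Phi.lean`, `T1C.galF_algebraMap`). -/
theorem isInt_galF (M : ℕ) (σ : GQ) {u z : FL Qb M} (hu : galF M σ u = u) (hz : IsInt Qb u z) :
    IsInt Qb u (galF M σ z) := by
  obtain ⟨P, hP, hPz⟩ := hz
  have key : ((galF M σ : FL Qb M ≃+* FL Qb M) : FL Qb M →+* FL Qb M).comp
      ((aeval u : Qb[X] →ₐ[Qb] FL Qb M) : Qb[X] →+* FL Qb M)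
      = ((aeval u : Qb[X] →ₐ[Qb] FL Qb M) : Qb[X] →+* FL Qb M).comp
        (Polynomial.mapRingHom (σ : Qb →+* Qb)) := by
    apply Polynomial.ringHom_ext
    · intro a
      simp only [RingHom.comp_apply, RingHom.coe_coe, aeval_C, coe_mapRingHom, map_C]
      exact arithmeticRingAut_algebraMap (modularFunctionFieldFull M) σ a
    · simp only [RingHom.comp_apply, RingHom.coe_coe, aeval_X, coe_mapRingHom, map_X]
      exact hu
  refine ⟨P.map (Polynomial.mapRingHom (σ : Qb →+* Qb)), hP.map _, ?_⟩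
  rw [eval₂_map, ← key]
  have := Polynomial.hom_eval₂ P ((aeval u : Qb[X] →ₐ[Qb] FL Qb M) : Qb[X] →+* FL Qb M)
    ((galF M σ : FL Qb M ≃+* FL Qb M) : FL Qb M →+* FL Qb M) z
  rw [hPz, map_zero] at this
  exact this.symm

theorem Lift_galS_smul (τ : GQ) (a : Qb) (x : LaurentSeries Qb) :
    galS τ (a • x) = τ a • galS τ x := by
  ext m
  rw [DSC.galS_coeff, HahnSeries.coeff_smul, HahnSeries.coeff_smul, DSC.galS_coeff, smul_eq_mul,
    smul_eq_mul, map_mul]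

theorem Lift_cRed_sum {A : ValuationSubring Qb} {ι : Type*} (s : Finset ι) (x : ι → Qb)
    (h : ∀ i ∈ s, ORD.P2.CRed A (x i) 0) : ORD.P2.CRed A (∑ i ∈ s, x i) 0 := by
  classical
  induction s using Finset.induction_on with
  | empty => rw [Finset.sum_empty]; exact ORD.P2.CRed.zero
  | insert a s ha ih =>
    rw [Finset.sum_insert ha]
    have := (h a (Finset.mem_insert_self a s)).add (ih fun i hi => h i (Finset.mem_insert_of_mem hi))
    rwa [add_zero] at this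

/-- **RL-4a (linear algebra + Teichmüller).**  `V ⊆ ℚ̄((Q))` finite dimensional, stable under the inertia group, every nonzero element has a
coefficient of maximal absolute value.  Every `c ∈ V` with coefficients in `A` is congruent mod `𝔪_A` to an inertia-fixed `c' ∈ V` with coefficients in `A`.
PROOF.  `exists_pivots_val` gives `(n_i, f_i)`, fixed by inertia by `coeffMap_eq_of_pivots` (`galS τ = coeffMap τ`).  `c = ∑ c.coeff (n_i) • f_i`; choose
`a_i ∈ EH I`, `CRed A a_i (residue (c.coeff (n_i)))` (`DSC.exists_lift_EH_inertia`); `c' := ∑ a_i • f_i`. -/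
theorem exists_fixed_congr {ℓ : ℕ} (hℓ : ℓ.Prime) (A : ValuationSubring Qb) (hA : A.LiesOverPrime ℓ)
    (V : Submodule Qb (LaurentSeries Qb)) [FiniteDimensional Qb V]
    (hI : ∀ τ ∈ A.inertiaSubgroupIn ℚ, ∀ c ∈ V, galS τ c ∈ V)
    (hmax : ∀ c ∈ V, c ≠ 0 → ∃ n₀ : ℤ, c.coeff n₀ ≠ 0 ∧ ∀ n, c.coeff n / c.coeff n₀ ∈ A)
    {c : LaurentSeries Qb} (hc : c ∈ V) (hcA : ∀ n, c.coeff n ∈ A) :
    ∃ c' ∈ V, (∀ τ ∈ A.inertiaSubgroupIn ℚ, galS τ c' = c') ∧ (∀ n, c'.coeff n ∈ A) ∧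
      ∀ n, c.coeff n - c'.coeff n ∈ A.nonunits := by
  obtain ⟨D, n, f, hfV, hfA, hδ, hexp⟩ := exists_pivots_val A V hmax
  have hfix : ∀ τ ∈ A.inertiaSubgroupIn ℚ, ∀ i, galS τ (f i) = f i := fun τ hτ i =>
    coeffMap_eq_of_pivots V n f hfV hδ hexp (τ : Qb →+* Qb) (hI τ hτ) i
  choose a haE haR using fun i : Fin D =>
    DSC.exists_lift_EH_inertia hℓ hA (IsLocalRing.residue A ⟨c.coeff (n i), hcA (n i)⟩)
  have hcoeff : ∀ m, (∑ i, a i • f i).coeff m = ∑ i, a i * (f i).coeff m := by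
    intro m
    rw [HahnSeries.coeff_sum]
    refine Finset.sum_congr rfl fun i _ => ?_
    rw [HahnSeries.coeff_smul, smul_eq_mul]
  refine ⟨∑ i, a i • f i, V.sum_mem fun i _ => V.smul_mem _ (hfV i), ?_, ?_, ?_⟩
  · intro τ hτ
    rw [map_sum]
    refine Finset.sum_congr rfl fun i _ => ?_
    rw [Lift_galS_smul, hfix τ hτ, DSC.mem_EH.mp (haE i) τ hτ]
  · intro m
    rw [hcoeff]
    exact A.toSubring.sum_mem fun i _ => A.mul_mem _ _ (haR i).mem (hfA i m)
  · intro m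
    rw [hcoeff]
    have h1 : c.coeff m = ∑ i, c.coeff (n i) * (f i).coeff m := by
      conv_lhs => rw [hexp c hc]
      rw [HahnSeries.coeff_sum]
      refine Finset.sum_congr rfl fun i _ => ?_
      rw [HahnSeries.coeff_smul, smul_eq_mul]
    rw [h1, ← Finset.sum_sub_distrib]
    apply ORD.P2.cRed_zero_iff.mp
    apply Lift_cRed_sum
    intro i _
    rw [← sub_mul]
    have h2 : ORD.P2.CRed A (c.coeff (n i) - a i) 0 := by
      have := (ORD.P2.CRed.mk (A := A) ⟨c.coeff (n i), hcA (n i)⟩).sub (haR i)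
      rwa [sub_self] at this
    have h3 := h2.mul (ORD.P2.CRed.mk (A := A) ⟨(f i).coeff m, hfA i m⟩)
    rwa [zero_mul] at h3

/-- the inclusion `FL ℚ̄ M → ℚ̄((Q))`, linear for the `HahnSeries` module structure. -/
def Lift_incl (M : ℕ) : FL Qb M →ₗ[Qb] LaurentSeries Qb where
  toFun z := (z : LaurentSeries Qb)
  map_add' _ _ := rfl
  map_smul' c z := by
    show ((c • z : FL Qb M) : LaurentSeries Qb) = c • (z : LaurentSeries Qb)
    rw [Algebra.smul_def, ← HahnSeries.C_mul_eq_smul]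
    show algebraMap Qb (LaurentSeries Qb) c * (z : LaurentSeries Qb) = _
    rw [ModularCurve.algebraMap_laurentSeries_eq_single]
    rfl

theorem Lift_hasRed_zero {A : ValuationSubring Qb} {x : LaurentSeries Qb}
    (h : ∀ n, x.coeff n ∈ A.nonunits) : HasRed A x 0 := by
  obtain ⟨y, hy⟩ := exists_int_of_coeff_mem A x fun n => A.nonunits_subset (h n)
  have h1 := HasRed.of_int y
  rw [hy] at h1
  have h2 : coeffMap (IsLocalRing.residue A) y = 0 := by
    ext n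
    rw [coeffMap_coeff, HahnSeries.coeff_zero]
    obtain ⟨h3, h4⟩ := ORD.P2.cRed_zero_iff.mpr (h n)
    have h5 : y.coeff n = ⟨x.coeff n, h3⟩ := Subtype.ext (by
      show ((y.coeff n : A) : Qb) = x.coeff n
      rw [← hy, coeffMap_coeff]; rfl)
    rw [h5, h4]
  rwa [h2] at h1

/-- **RL-4.**  Inertia-fixed integral lifts on the chart `u`.
PROOF.  `z ∈ LL ℚ̄ u a` for some `a` (`IsInt.shift` applied to `t := u⁻¹`… : `IsInt ℚ̄ u z → ∃ a, IsInt ℚ̄ u⁻¹ (u⁻¹ ^ a * z)`).  `V := (LL ℚ̄ u a).map (subtype)`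
is finite dimensional (`KLC.LL_eq_L` + finite dimensionality of Riemann-Roch spaces in `S24/FF`), inertia stable (`isInt_galF` for `u` and `u⁻¹`), `hmax` by
`exists_max_coeff_of_isInt`, `hcA` by `coeff_mem_of_isInt`.  `exists_fixed_congr` gives `c'`; `z - c'` has coefficients in `𝔪_A`, so `HasRed A (z - c') 0`
(`GR.exists_int_of_coeff_mem`, `HasRed.of_int`), so `HasRed A c' φ`. -/
theorem exists_fixed_lift {ℓ : ℕ} (hℓ : ℓ.Prime) (A : ValuationSubring Qb) (hA : A.LiesOverPrime ℓ)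
    (M : ℕ) [NeZero M] {u : FL Qb M} (hu : ∀ n, (u : LaurentSeries Qb).coeff n ∈ A)
    (hfix : ∀ σ : GQ, galF M σ u = u) (htr : Transcendental Qb u)
    (hG : Gauss Qb (vG A M) u) {d : ℕ} (β : Fin d → FL Qb M) (hβ : ON Qb (vG A M) u β)
    (hβs : Spans Qb u β) {z : FL Qb M} (hz : IsInt Qb u z) {φ : LaurentSeries (kA A)}
    (h : HasRed A (z : LaurentSeries Qb) φ) :
    ∃ z' : FL Qb M, (∀ τ ∈ A.inertiaSubgroupIn ℚ, galF M τ z' = z') ∧ IsInt Qb u z' ∧
      HasRed A (z' : LaurentSeries Qb) φ := by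
  have hu0 : u ≠ 0 := fun h0 => htr (h0 ▸ isAlgebraic_zero)
  -- `z ∈ LL ℚ̄ u a`
  obtain ⟨a, ha⟩ : ∃ a : ℕ, z ∈ LL Qb u a := by
    have hz' : IsInt Qb (u⁻¹)⁻¹ z := by rwa [inv_inv]
    obtain ⟨m₀, hm₀⟩ := IsInt.shift (inv_ne_zero hu0) hz'
    exact ⟨m₀, hz, hm₀ m₀ le_rfl⟩
  have hfin : FiniteDimensional Qb (LL Qb u a) := by
    rw [LL_eq_L htr a]
    infer_instance
  have hfixi : ∀ σ : GQ, galF M σ u⁻¹ = u⁻¹ := fun σ => by rw [map_inv₀, hfix]
  have hstab : ∀ (τ : GQ) (w : FL Qb M), w ∈ LL Qb u a → galF M τ w ∈ LL Qb u a := by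
    intro τ w hw
    refine ⟨isInt_galF M τ (hfix τ) hw.1, ?_⟩
    have := isInt_galF M τ (hfixi τ) hw.2
    rwa [map_mul, map_pow, hfixi] at this
  have hv : vG A M z ≤ 1 := (Valuation.mem_integer_iff _ _).1 ((mem_integer_iff A M).2 ⟨φ, h⟩)
  obtain ⟨c', hc'V, hc'fix, -, hc'cong⟩ := exists_fixed_congr hℓ A hA ((LL Qb u a).map (Lift_incl M))
    (by
      rintro τ - _ ⟨w, hw, rfl⟩
      exact ⟨galF M τ w, hstab τ w hw, rfl⟩)
    (by
      rintro _ ⟨w, hw, rfl⟩ hw0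
      exact exists_max_coeff_of_isInt hℓ A hA M hu hG β hβ hβs hw.1
        (fun e => hw0 (by rw [e]; rfl)))
    (c := (z : LaurentSeries Qb)) ⟨z, ha, rfl⟩
    (coeff_mem_of_isInt hℓ A hA M hu hG β hβ hβs hz hv)
  obtain ⟨z', hz', rfl⟩ := hc'V
  refine ⟨z', fun τ hτ => Subtype.ext (hc'fix τ hτ), hz'.1, ?_⟩
  have h1 : HasRed A ((z : LaurentSeries Qb) - (z' : LaurentSeries Qb)) 0 :=
    Lift_hasRed_zero fun n => by
      rw [HahnSeries.coeff_sub]
      exact hc'cong n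
  have h2 := ORD.P2.hasRed_sub' h h1
  rwa [sub_sub_cancel, sub_zero] at h2

theorem Lift_coeff_int_mem (A : ValuationSubring Qb) (Y : LaurentSeries ℤ) (n : ℤ) :
    (coeffMap (Int.castRingHom Qb) Y).coeff n ∈ A := by
  rw [coeffMap_coeff]
  exact intCast_mem A _

theorem Lift_galF_xF (M : ℕ) [NeZero M] (σ : GQ) : galF M σ (xF M) = xF M := by
  apply Subtype.ext
  rw [coe_galF]
  show galS σ (coeffMap (Int.castRingHom Qb) (XZ M)) = coeffMap (Int.castRingHom Qb) (XZ M)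
  ext n
  rw [DSC.galS_coeff, coeffMap_coeff]
  exact map_intCast σ _

/-- `x⁻¹` has integer coefficients. -/
theorem Lift_exists_inv_XZ (M : ℕ) [NeZero M] : ∃ Y : LaurentSeries ℤ, XZ M * Y = 1 := by
  obtain ⟨u, hu, hX⟩ := XZ_eq M
  have hunit : IsUnit u := by
    rw [PowerSeries.isUnit_iff_constantCoeff, hu]
    exact isUnit_one
  obtain ⟨w, hw⟩ := hunit.exists_right_inv
  refine ⟨HahnSeries.single (mX M : ℤ) 1 * HahnSeries.ofPowerSeries ℤ ℤ w, ?_⟩
  rw [hX, mul_mul_mul_comm, ← map_mul, hw, map_one (HahnSeries.ofPowerSeries ℤ ℤ), mul_one,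
    HahnSeries.single_mul_single, neg_add_cancel, mul_one]
  rfl

/-- the chart `x`. -/
theorem exists_fixed_lift_xF {ℓ : ℕ} (hℓ : ℓ.Prime) (A : ValuationSubring Qb)
    (hA : A.LiesOverPrime ℓ) (M : ℕ) [NeZero M] (hSp : SpansStatement M) {z : FL Qb M}
    (hz : IsInt Qb (xF M) z) {φ : LaurentSeries (kA A)} (h : HasRed A (z : LaurentSeries Qb) φ) :
    ∃ z' : FL Qb M, (∀ τ ∈ A.inertiaSubgroupIn ℚ, galF M τ z' = z') ∧ IsInt Qb (xF M) z' ∧
      HasRed A (z' : LaurentSeries Qb) φ :=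
  exists_fixed_lift hℓ A hA M (fun n => Lift_coeff_int_mem A (XZ M) n) (Lift_galF_xF M)
    (transcendental_xF M) (gauss_xF M A) _ (on_xF M A) hSp hz h

/-- the chart `x⁻¹` (`Gauss.inv`, `ON.inv`, `Spans.inv`; `x⁻¹` has integer coefficients: `XZ M = Q^(-m) (1 + …)`, `KLC.XZ_eq`). -/
theorem exists_fixed_lift_xF_inv {ℓ : ℕ} (hℓ : ℓ.Prime) (A : ValuationSubring Qb)
    (hA : A.LiesOverPrime ℓ) (M : ℕ) [NeZero M] (hSp : SpansStatement M) {z : FL Qb M}
    (hz : IsInt Qb (xF M)⁻¹ z) {φ : LaurentSeries (kA A)} (h : HasRed A (z : LaurentSeries Qb) φ) :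
    ∃ z' : FL Qb M, (∀ τ ∈ A.inertiaSubgroupIn ℚ, galF M τ z' = z') ∧ IsInt Qb (xF M)⁻¹ z' ∧
      HasRed A (z' : LaurentSeries Qb) φ := by
  have htr := transcendental_xF M
  have hx0 : xF M ≠ 0 := fun h0 => htr (h0 ▸ isAlgebraic_zero)
  obtain ⟨Y, hY⟩ := Lift_exists_inv_XZ M
  have hinv : (((xF M)⁻¹ : FL Qb M) : LaurentSeries Qb) = coeffMap (Int.castRingHom Qb) Y := by
    show ((xF M : FL Qb M) : LaurentSeries Qb)⁻¹ = _
    apply inv_eq_of_mul_eq_one_right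
    show coeffMap (Int.castRingHom Qb) (XZ M) * _ = 1
    rw [← map_mul, hY, map_one]
  exact exists_fixed_lift hℓ A hA M (fun n => by rw [hinv]; exact Lift_coeff_int_mem A Y n)
    (fun σ => by rw [map_inv₀, Lift_galF_xF]) (S24.FF.transcendental_inv htr) (gauss_xF M A).inv _
    ((on_xF M A).inv (gauss_xF M A)) (Spans.inv hx0 hSp) hz h

end Fermat.Agent.CAR.BK
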