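import Fermat.Agent.CAR.BK.BL
import Fermat.Agent.CAR.BK.Lift
import Fermat.Agent.CAR.BK.ConcRat
import Fermat.Agent.CAR.KLm.ONBasis

/-!
# CAR / BK : package RL-5 : (BL) at level `q² M'` for the `(q+1)`-family: an element of `B_t` (all `vC i z ≤ 1`) has its
`Q`-expansion coefficients in `A`
-/

set_option autoImplicit false

open Polynomial ModularCurve AlgebraicCurve

noncomputable section

namespace Fermat.Agent.CAR.BK

open Fermat.Agent.GR Fermat.Agent.GAL Fermat.Agent.GAL.KL Fermat.Agent.GAL.KLC Fermat.Agent.S24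
open Fermat.Agent.S28 Fermat.Agent.GR.HeckeField Fermat.Agent.TOR Fermat.Agent.TOR.GB
open Fermat.Agent.CAR.FQ2V Fermat.Agent.CAR.FQ2E Fermat.Agent.CAR.FQ2C Fermat.Agent.CAR.ON
open Fermat.Agent.CAR.KLm

variable {M' q : ℕ} [NeZero M'] [NeZero q] (A : ValuationSubring Qb) (ζ : Qbˣ)

/-- `t = x(Q) x(Q^{q²})` has integer coefficients.
(`BKP.coe_alC`, `BKP.coe_gaC` (`al_eq_alC`, `ga_eq_gaC`: rfl); `coe (xF M') = coeffMap (Int.castRingHom Qb) (XZ M')` is `rfl` (see `Lift.lean`);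
`coeffMap_qExpand`-type lemma: `qExpand Qb q (coeffMap f y) = coeffMap f (qExpand ℤ q y)`; `Lift_coeff_int_mem A Y n`; `blS A` is a subring: `bl_mem_S_iff`.) -/
theorem coeff_tC_mem (n : ℤ) : ((FQ2C.tC M' q : FN (M' * q * q)) : LaurentSeries Qb).coeff n ∈ A := by
  have hx : ((xF M' : FN M') : LaurentSeries Qb) = coeffMap (Int.castRingHom Qb) (XZ M') := rfl
  have h1 : ((FQ2C.tC M' q : FN (M' * q * q)) : LaurentSeries Qb)
      = ((BKP.alC M' q (xF M') : FN (M' * q * q)) : LaurentSeries Qb)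
        * ((BKP.gaC M' q (xF M') : FN (M' * q * q)) : LaurentSeries Qb) := rfl
  rw [h1, BKP.coe_alC, BKP.coe_gaC, hx, ← GR.coeffMap_qExpand, ← GR.coeffMap_qExpand, ← map_mul]
  exact Lift_coeff_int_mem A _ n

/-- constants: (`vC_le_one_iff A ζ oo`, `famC_oo_hom`, `ValThm_coe_algebraMap`, `ValThm_mem_of_hasRed_C`: as `bl_mem_of_vG_le`.) -/
theorem mem_of_vC_le {a : Qb} (h : vC M' q A ζ oo (algebraMap Qb (FN (M' * q * q)) a) ≤ 1) : a ∈ A := by
  obtain ⟨zb, hzb⟩ := (vC_le_one_iff A ζ oo).1 h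
  rw [famC_oo_hom] at hzb
  have e : ((algebraMap Qb (FN (M' * q * q)) a : FN (M' * q * q)) : LaurentSeries Qb)
      = HahnSeries.C a := ValThm_coe_algebraMap (M' * q * q) a
  rw [e] at hzb
  exact ValThm_mem_of_hasRed_C A hzb

/-- **RL-5.**  PROOF = `BL.coeff_mem_of_isInt` (file `BK/BL.lean`), line by line, with
`hG := (setupC ..).G oo`, `exists_basisC` (gives `β`, `ONm`, `Spans`), `exists_basis_BB hG.inj β (hβ.inj S) hβs`,
`KLm.exists_ONm_basis S β hβ hβs (BB Qb t) b hb` instead of `exists_ON_basis`; `hON P 1 : NN v (comb ..) ≤ 1 ↔ ∀ j, v oo (aeval t (P j)) ≤ 1`, `NN_le_iff`,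
`NN_mul_le`, `hON.NN_eq_one j`, `le_NN oo (e j)` (see `FQ2/IntRed.lean` for these steps); `bl_aeval_mem_S A (M'*q*q)`;
denominators: `(vC_le_one_iff A ζ oo).1` gives `HasRed A (coe (e j)) _` = `⟨P, Q, …⟩` as in `BL`. -/
theorem coeff_mem_of_isInt_C (hM : AdmLevel M') (hq : q.Prime) (hqM : ¬ q ∣ M')
    (hA : A.LiesOverPrime q) (hζ : IsPrimitiveRoot ζ q) {z : FN (M' * q * q)}
    (hz : IsInt Qb (FQ2C.tC M' q) z) (hv : ∀ i, vC M' q A ζ i z ≤ 1) :
    ∀ n, (z : LaurentSeries Qb).coeff n ∈ A := by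
  classical
  have S := setupC A ζ hM hq hqM hA hζ
  have hG := S.G oo
  obtain ⟨Em, -, hβ, hβs⟩ := exists_basisC A ζ hM hq hqM hA hζ
  obtain ⟨b, hb⟩ := exists_basis_BB hG.inj _ (hβ.inj S) hβs
  obtain ⟨e, he, hON⟩ := KLm.exists_ONm_basis S _ hβ hβs (BB Qb (FQ2C.tC M' q)) b hb
  have huS : ((FQ2C.tC M' q : FN (M' * q * q)) : LaurentSeries Qb) ∈ blS A :=
    (bl_mem_S_iff A).2 (coeff_tC_mem A)
  have hemem : ∀ j, IsInt Qb (FQ2C.tC M' q) (e j) := fun j =>
    (he.2 (e j)).2 ⟨Pi.single j 1, by rw [comb_single, map_one, one_mul]⟩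
  -- an element of `B_t` with all norms `≤ 1` is an `S`-combination of the `e_j`
  have hcomb : ∀ x : FN (M' * q * q), IsInt Qb (FQ2C.tC M' q) x → NN (vC M' q A ζ) x ≤ 1 →
      ∃ c : _ → LaurentSeries Qb, (∀ i, c i ∈ blS A) ∧
        (x : LaurentSeries Qb) = ∑ i, c i * (e i : LaurentSeries Qb) := by
    intro x hx hvx
    obtain ⟨P, hP⟩ := (he.2 x).1 hx
    refine ⟨fun i => ((aeval (FQ2C.tC M' q) (P i) : FN (M' * q * q)) : LaurentSeries Qb),
      fun i => ?_, ?_⟩
    · refine bl_aeval_mem_S A (M' * q * q) huS (P i) fun n => mem_of_vC_le (M' := M') (q := q) A ζ ?_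
      refine (hG (P i) 1).1 ?_ n
      refine (hON P 1).1 ?_ i
      rw [← hP]
      exact hvx
    · rw [hP, comb, ← IntermediateField.coe_val, map_sum]
      rfl
  -- the module `N`
  let E : _ → LaurentSeries Qb := fun j => (e j : LaurentSeries Qb)
  let N : Submodule (blS A) (LaurentSeries Qb) := Submodule.span (blS A) (Set.range E)
  have hN_of : ∀ c : _ → LaurentSeries Qb, (∀ i, c i ∈ blS A) → ∑ i, c i * E i ∈ N := by
    intro c hc
    refine Submodule.sum_mem _ fun i _ => ?_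
    exact N.smul_mem (⟨c i, hc i⟩ : blS A) (Submodule.subset_span ⟨i, rfl⟩)
  have h1N : (1 : LaurentSeries Qb) ∈ N := by
    obtain ⟨c, hc, h⟩ := hcomb 1 IsInt.one (NN_le_iff.2 fun i => by rw [map_one])
    have h' : (1 : LaurentSeries Qb) = ∑ i, c i * E i := h
    rw [h']
    exact hN_of c hc
  have hsN : ∀ s ∈ blS A, ∀ x ∈ N, s * x ∈ N := fun s hs x hx => N.smul_mem (⟨s, hs⟩ : blS A) hx
  have hzN : ∀ x ∈ N, (z : LaurentSeries Qb) * x ∈ N := by
    intro x hx
    induction hx using Submodule.span_induction with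
    | mem x hx =>
      obtain ⟨j, rfl⟩ := hx
      obtain ⟨c, hc, h⟩ := hcomb (z * e j) (hz.mul (hemem j))
        ((NN_mul_le z (e j)).trans (by
          rw [hON.NN_eq_one j, mul_one]
          exact NN_le_iff.2 hv))
      have h' : (z : LaurentSeries Qb) * E j = ∑ i, c i * E i := h
      rw [h']
      exact hN_of c hc
    | zero => rw [mul_zero]; exact N.zero_mem
    | add x y _ _ hx hy => rw [mul_add]; exact N.add_mem hx hy
    | smul a x _ hx =>
      have h' : (z : LaurentSeries Qb) * (a • x) = a • ((z : LaurentSeries Qb) * x) := by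
        rw [Subring.smul_def, Subring.smul_def, smul_eq_mul, smul_eq_mul]
        ring
      rw [h']
      exact N.smul_mem a hx
  have hpowN : ∀ s ∈ blS A, ∀ r : ℕ, ((z : LaurentSeries Qb) - s) ^ r ∈ N := by
    intro s hs r
    induction r with
    | zero => rw [pow_zero]; exact h1N
    | succ r ih =>
      rw [pow_succ', sub_mul]
      exact N.sub_mem (hzN _ ih) (hsN s hs _ ih)
  -- the denominators
  have hQ : ∀ j, ∃ Q : LaurentSeries Qb, Q ∈ blS A ∧ Q ≠ 0 ∧ Q * E j ∈ blS A := by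
    intro j
    obtain ⟨zb, P, Q, hQ, -, hx⟩ := (vC_le_one_iff A ζ oo).1
      ((le_NN oo (e j)).trans (le_of_eq (hON.NN_eq_one j)))
    rw [famC_oo_hom] at hx
    refine ⟨coeffMap A.subtype Q, ⟨Q, rfl⟩, ?_, ?_⟩
    · intro h0
      apply hQ
      have : Q = 0 := incl_injective (A := A) (by rw [h0, map_zero])
      rw [this, map_zero]
    · rw [mul_comm]
      exact ⟨P, hx.symm⟩
  choose Q hQS hQ0 hQE using hQ
  have hD0 : (∏ j, Q j) ≠ 0 := Finset.prod_ne_zero_iff.2 fun j _ => hQ0 j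
  have hDN : ∀ x ∈ N, (∏ j, Q j) * x ∈ blS A := by
    intro x hx
    induction hx using Submodule.span_induction with
    | mem x hx =>
      obtain ⟨j, rfl⟩ := hx
      rw [← Finset.prod_erase_mul Finset.univ Q (Finset.mem_univ j), mul_assoc]
      exact Subring.mul_mem _ (Subring.prod_mem _ fun i _ => hQS i) (hQE j)
    | zero => rw [mul_zero]; exact Subring.zero_mem _
    | add x y _ _ hx hy => rw [mul_add]; exact Subring.add_mem _ hx hy
    | smul a x _ hx =>
      have h' : (∏ j, Q j) * (a • x) = (a : LaurentSeries Qb) * ((∏ j, Q j) * x) := by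
        rw [Subring.smul_def, smul_eq_mul]
        ring
      rw [h']
      exact Subring.mul_mem _ a.2 hx
  refine coeff_mem_of_forall_pow A (rank_one hq A hA) hD0 fun s hs r n => ?_
  exact (bl_mem_S_iff A).1 (hDN _ (hpowN s ((bl_mem_S_iff A).2 hs) r)) n

end Fermat.Agent.CAR.BK
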