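import Mathlib

/-!
# CAR / BK : package RL-1 : `A((Q))` is "completely integrally closed" in `L((Q))` (`A` a rank one valuation ring)
-/

set_option autoImplicit false

noncomputable section

namespace Fermat.Agent.CAR.BK

/-- truncation of a Laurent series: the terms of degree `< n₀`. -/
def truncLT {L : Type*} [Field L] (y : LaurentSeries L) (n₀ : ℤ) : LaurentSeries L where
  coeff n := if n < n₀ then y.coeff n else 0
  isPWO_support' := y.isPWO_support.mono fun n hn => by
    simp only [Function.mem_support, ne_eq, ite_eq_right_iff, Classical.not_imp] at hn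
    exact hn.2

theorem CIC_leadingCoeff_pow {L : Type*} [Field L] (z : LaurentSeries L) (r : ℕ) :
    (z ^ r).leadingCoeff = z.leadingCoeff ^ r := by
  induction r with
  | zero => simp
  | succ r ih => rw [pow_succ, HahnSeries.leadingCoeff_mul, ih, pow_succ]

/-- **RL-1.**  `A` a valuation subring of `L` of rank one.  If `d ≠ 0` and `d (y - s)^r` has coefficients in `A` for all `r` and all
`s` with coefficients in `A`, then `y` has coefficients in `A`.
PROOF.  Otherwise let `n₀` be the least `n` with `y.coeff n ∉ A` (the set of such `n` is contained in the support of `y`, which is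
well-founded: `HahnSeries.isWF_support`, `Set.IsWF.min`).  `s := truncLT y n₀` has coefficients in `A`; `y - s ≠ 0` has order `n₀` and leading
coefficient `a := y.coeff n₀ ∉ A`.  The coefficient of `d (y-s)^r` at `d.order + r n₀` is `d.leadingCoeff * a^r`
(`HahnSeries.coeff_mul_order_add_order`, `HahnSeries.order_pow`, `HahnSeries.leadingCoeff_pow`), which is not in `A` for a suitable `r` by `hA`. -/
theorem coeff_mem_of_forall_pow {L : Type*} [Field L] (A : ValuationSubring L)
    (hA : ∀ a : L, a ∉ A → ∀ b : L, b ≠ 0 → ∃ r : ℕ, b * a ^ r ∉ A)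
    {y d : LaurentSeries L} (hd : d ≠ 0)
    (h : ∀ s : LaurentSeries L, (∀ n, s.coeff n ∈ A) → ∀ (r : ℕ) (n : ℤ),
      (d * (y - s) ^ r).coeff n ∈ A) :
    ∀ n, y.coeff n ∈ A := by
  by_contra hcon
  push Not at hcon
  obtain ⟨n₁, hn₁⟩ := hcon
  set S : Set ℤ := {n | y.coeff n ∉ A} with hS
  have hSsub : S ⊆ y.support := fun n hn h0 => hn (by
    have h1 : y.coeff n = 0 := h0
    rw [h1]; exact A.zero_mem)
  have hWF : S.IsWF := y.isWF_support.mono hSsub
  have hne : S.Nonempty := ⟨n₁, hn₁⟩
  set n₀ := hWF.min hne with hn₀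
  have hmem : y.coeff n₀ ∉ A := hWF.min_mem hne
  have hlt : ∀ n, n < n₀ → y.coeff n ∈ A := by
    intro n hn
    by_contra hnA
    exact hWF.not_lt_min hne hnA hn
  have hs : ∀ n, (truncLT y n₀).coeff n ∈ A := by
    intro n
    show (if n < n₀ then y.coeff n else 0) ∈ A
    split_ifs with hn
    · exact hlt n hn
    · exact A.zero_mem
  set z := y - truncLT y n₀ with hz
  have hzc : ∀ n, z.coeff n = if n < n₀ then 0 else y.coeff n := by
    intro n
    rw [hz, HahnSeries.coeff_sub]
    show y.coeff n - (if n < n₀ then y.coeff n else 0) = _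
    split_ifs with hn
    · exact sub_self _
    · exact sub_zero _
  have hz0 : z.coeff n₀ = y.coeff n₀ := by rw [hzc, if_neg (lt_irrefl _)]
  have ha0 : y.coeff n₀ ≠ 0 := fun h0 => hmem (by rw [h0]; exact A.zero_mem)
  have hzne : z ≠ 0 := by
    intro h0
    rw [h0] at hz0
    exact ha0 hz0.symm
  have hord : z.order = n₀ := by
    refine le_antisymm (HahnSeries.order_le_of_coeff_ne_zero (by rw [hz0]; exact ha0)) ?_
    rw [HahnSeries.le_order_iff_forall hzne]
    intro j hj
    rw [hzc, if_pos hj]
  have hlead : z.leadingCoeff = y.coeff n₀ := by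
    rw [HahnSeries.leadingCoeff_eq, hord, hz0]
  obtain ⟨r, hr⟩ := hA _ hmem d.leadingCoeff (HahnSeries.leadingCoeff_ne_zero.mpr hd)
  apply hr
  have h1 := h (truncLT y n₀) hs r (d.order + (z ^ r).order)
  rw [HahnSeries.coeff_mul_order_add_order, CIC_leadingCoeff_pow, hlead] at h1
  exact h1

end Fermat.Agent.CAR.BK
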