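import Fermat.Agent.CAR.BK.Defs
import Fermat.Agent.CAR.ON.ResMd
import Fermat.Agent.CAR.FQ2.IntRed
import Fermat.Agent.TOR.T1.IntTransfer

/-!
# CAR / BK : [BK-4] : the two charts `(x, t, ξ)` and `(x⁻¹, t⁻¹, ξ⁻¹)` satisfy `BK.ChartK`
-/

set_option autoImplicit false

open Polynomial ModularCurve AlgebraicCurve

noncomputable section

namespace Fermat.Agent.CAR.BK

open Fermat.Agent.GAL.KL Fermat.Agent.GAL.KLC Fermat.Agent.TOR.T1 Fermat.Agent.CAR.ON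
open Fermat.Agent.CAR.KLm Fermat.Agent.S24.FF Fermat.Agent.GAL

variable {K F₀ F k Γ' Γ₀ I : Type*} [Field K] [Field F₀] [Field F] [Algebra K F₀]
  [Algebra K F] [Field k] [LinearOrderedCommGroupWithZero Γ'] [LinearOrderedCommGroupWithZero Γ₀]
  {v₀ : Valuation F₀ Γ'} {ρ₀ : v₀.integer →+* LaurentSeries k}
  {v : Idx I → Valuation F Γ₀} {ρ : ∀ i, (v i).integer →+* LaurentSeries k}
  {α β γ : F₀ →ₐ[K] F} {q : ℕ} [NeZero q] {x x' : F₀} {ξ ξ' : LaurentSeries k} {m : ℕ}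
  {δ : F} {ψ : LaurentSeries k} {cc : I → k}

/-- the exponent `N_i` with `red_i t = ξ ^ N_i`. -/
def expT (q : ℕ) : Idx I → ℕ
  | none => q * q + 1
  | some none => q * q + 1
  | some (some _) => 1 + 1

theorem rd_tt_all (H : Lvl2 K ρ₀ v ρ α β γ q) (X : XDat K ρ₀ x x' ξ ξ' m q) (i : Idx I) :
    Rd (ρ i) (tt α γ x) (ξ ^ expT q i) := by
  rcases i with _ | _ | i
  · exact rd_tt_oo H X
  · exact rd_tt_zr H X
  · exact rd_tt_md H X i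

section

variable [Fintype I] [IsAlgClosed K] [CharZero K] [IsFF1 K F]
  (H : Lvl2 K ρ₀ v ρ α β γ q) (X : XDat K ρ₀ x x' ξ ξ' m q) (hq : 2 ≤ q)
  (hA : ∀ i, Arch (v i)) (Dl : Del v ρ δ ψ cc) (hI : q - 1 ≤ Fintype.card I)
  (hα : finrankAlong K α = q * (q + 1)) (hγ : finrankAlong K γ = q * (q + 1))
include H X hq hA Dl hI hα hγ

/-- the residue fields of `E`. -/
theorem res_all {E : Subfield F}
    (mdc : ∀ z ∈ E, ∀ (i j : I) (φ : LaurentSeries k), Rd (ρ (md i)) z φ → Rd (ρ (md j)) z φ)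
    (z : F) (hz : z ∈ E) (i : Idx I) (φ : LaurentSeries k) (h : Rd (ρ i) z φ) :
    ∃ c, Rd ρ₀ c φ := by
  rcases i with _ | _ | i
  · exact res_oo H X hq hA Dl hI hα hγ h
  · exact res_zr H X hq hA Dl hI hα hγ h
  · exact res_md H X hq hA Dl hI hα hγ fun j => mdc z hz i j φ h

/-- integrality passes to the reductions, chart `t`. -/
theorem ir_t (z : F) (i : Idx I) (φ : LaurentSeries k) (hz : IsInt K (tt α γ x) z)
    (hv : ∀ j, v j z ≤ 1) (hr : Rd (ρ i) z φ) : IsInt k ξ φ := by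
  obtain ⟨Em, -, hON, hSp⟩ := exists_basis H X hq hA Dl hI hα hγ
  exact isInt_of_isInt_pow (expT q i)
    (FQ2.isInt_rdm (ON.setup H X) _ hON hSp i (H.red i) (rd_tt_all H X i) hz hr (NN_le_iff.2 hv))

/-- integrality passes to the reductions, chart `t⁻¹`. -/
theorem ir_t_inv (z : F) (i : Idx I) (φ : LaurentSeries k) (hz : IsInt K (tt α γ x)⁻¹ z)
    (hv : ∀ j, v j z ≤ 1) (hr : Rd (ρ i) z φ) : IsInt k ξ⁻¹ φ := by
  obtain ⟨Em, -, hON, hSp⟩ := exists_basis H X hq hA Dl hI hα hγ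
  have S := ON.setup H X
  have h3 : Rd (ρ i) (tt α γ x)⁻¹ (ξ⁻¹ ^ expT q i) := by
    rw [inv_pow]
    exact (rd_tt_all H X i).inv (H.red i) (pow_ne_zero _ (ON.xi_ne_zero X))
  exact isInt_of_isInt_pow (expT q i)
    (FQ2.isInt_rdm S.inv _ (hON.inv S) (hSp.inv (S.G oo).ne_zero) i (H.red i) h3 hz hr
      (NN_le_iff.2 hv))

variable [IsFF1 K F₀] {E₀ : Subfield F₀} {E : Subfield F}
  (αE : ∀ c ∈ E₀, α c ∈ E) (γE : ∀ c ∈ E₀, γ c ∈ E) (xE : x ∈ E₀)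
  (mdc : ∀ z ∈ E, ∀ (i j : I) (φ : LaurentSeries k), Rd (ρ (md i)) z φ → Rd (ρ (md j)) z φ)
  (hpol : ∀ P : Place K F, P.ord (α x) < 0 ↔ P.ord (γ x) < 0)
include αE γE xE mdc hpol

/-- **the chart `t`.** -/
theorem chartK_t
    (lift : ∀ c φ, Rd ρ₀ c φ → IsInt k ξ φ → ∃ c' ∈ E₀, IsInt K x c' ∧ Rd ρ₀ c' φ)
    (fr : ∀ c φ, Rd ρ₀ c φ → ∃ b s : LaurentSeries k, s ≠ 0 ∧ (∃ c', Rd ρ₀ c' b) ∧ IsInt k ξ b ∧
      (∃ c', Rd ρ₀ c' s) ∧ IsInt k ξ s ∧ s * φ = b) :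
    ChartK K ρ₀ ρ α γ E₀ E q x (tt α γ x) ξ where
  αE := αE
  γE := γE
  u₀E := xE
  ru := X.rx
  Vη := X.Vx
  oη := by
    rw [X.ox]
    have := X.m_pos
    omega
  mdc := mdc
  res := res_all H X hq hA Dl hI hα hγ mdc
  ir := ir_t H X hq hA Dl hI hα hγ
  lift := lift
  fr := fr
  intα := fun _ hc => isInt_α (ON.transcendental_tt H X) hpol hc
  intγ := fun _ hc => by
    have e : tt α γ x = tt γ α x := mul_comm _ _
    have ht := ON.transcendental_tt H X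
    rw [e] at ht ⊢
    exact isInt_α ht (fun P => (hpol P).symm) hc

/-- **the chart `t⁻¹`.** -/
theorem chartK_t_inv
    (lift : ∀ c φ, Rd ρ₀ c φ → IsInt k ξ⁻¹ φ → ∃ c' ∈ E₀, IsInt K x⁻¹ c' ∧ Rd ρ₀ c' φ)
    (fr : ∀ c φ, Rd ρ₀ c φ → ∃ b s : LaurentSeries k, s ≠ 0 ∧ (∃ c', Rd ρ₀ c' b) ∧ IsInt k ξ⁻¹ b ∧
      (∃ c', Rd ρ₀ c' s) ∧ IsInt k ξ⁻¹ s ∧ s * φ = b) :
    ChartK K ρ₀ ρ α γ E₀ E q x⁻¹ (tt α γ x)⁻¹ ξ⁻¹ where
  αE := αE
  γE := γE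
  u₀E := E₀.inv_mem xE
  ru := X.rx.inv H.red₀ (ON.xi_ne_zero X)
  Vη := by rw [map_inv₀, X.Vx, inv_pow]
  oη := by
    have hξ := ON.xi_ne_zero X
    have h1 : (ξ * ξ⁻¹).order = ξ.order + (ξ⁻¹).order :=
      HahnSeries.order_mul hξ (inv_ne_zero hξ)
    rw [mul_inv_cancel₀ hξ, HahnSeries.order_one, X.ox] at h1
    have := X.m_pos
    omega
  mdc := mdc
  res := res_all H X hq hA Dl hI hα hγ mdc
  ir := ir_t_inv H X hq hA Dl hI hα hγ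
  lift := lift
  fr := fr
  intα := fun _ hc => isInt_α_inv (ON.transcendental_tt H X) hpol hc
  intγ := fun _ hc => by
    have e : tt α γ x = tt γ α x := mul_comm _ _
    have ht := ON.transcendental_tt H X
    rw [e] at ht ⊢
    exact isInt_α_inv ht (fun P => (hpol P).symm) hc

end

end Fermat.Agent.CAR.BK
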