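import Fermat.Agent.CAR.BK.Red
import Fermat.Agent.CAR.BK.Chart
import Fermat.Agent.CAR.P1F.Defs
import Fermat.Agent.GAL.KLB.Ord

/-!
# CAR / BK / Cnt : the BK-side inputs of THE COUNT (`P1F.Ok`: `ro rm rz so sm sz`; `P1.Dat`: `into intm intz surjm surjz polo polm polz`),
elementwise, in the abstract BK language (`H : ON.Lvl2`, `X : XDat`, `Ct`, `Ci : BK.ChartK`).
-/

set_option autoImplicit false

open Polynomial ModularCurve AlgebraicCurve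

noncomputable section

namespace Fermat.Agent.CAR.BK

open Fermat.Agent.GAL.KL Fermat.Agent.GAL.KLC Fermat.Agent.TOR.T1 Fermat.Agent.CAR.ON
open Fermat.Agent.GAL

variable {K F₀ F k Γ' Γ₀ I : Type*} [Field K] [Field F₀] [Field F] [Algebra K F₀]
  [Algebra K F] [Field k] [LinearOrderedCommGroupWithZero Γ'] [LinearOrderedCommGroupWithZero Γ₀]
  {v₀ : Valuation F₀ Γ'} {ρ₀ : v₀.integer →+* LaurentSeries k}
  {v : Idx I → Valuation F Γ₀} {ρ : ∀ i, (v i).integer →+* LaurentSeries k}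
  {α β γ : F₀ →ₐ[K] F} {q : ℕ} [NeZero q] {E₀ : Subfield F₀} {E : Subfield F}
  {u₀ : F₀} {u : F} {η : LaurentSeries k} {x x' : F₀} {ξ ξ' : LaurentSeries k} {m : ℕ}

/-- on `E` the whole family is controlled by the three valuations `oo`, `md i₀`, `zr`. -/
theorem le_one_of3 (C : ChartK K ρ₀ ρ α γ E₀ E q u₀ u η) (i₀ : I) {z : F} (hz : z ∈ E)
    (ho : v oo z ≤ 1) (hm : v (md i₀) z ≤ 1) (hzr : v zr z ≤ 1) (i : Idx I) : v i z ≤ 1 := by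
  rcases i with _ | _ | i
  · exact ho
  · exact hzr
  · exact md_le_one C hz i₀ i hm

/-- **`into`, `intm`, `intz`**: the reductions of `B_u` lie in the reduced chart ring. -/
theorem cnt_mem_RR (H : Lvl2 K ρ₀ v ρ α β γ q) (C : ChartK K ρ₀ ρ α γ E₀ E q u₀ u η) (i₀ : I)
    {z : F} (hz : z ∈ E) (hi : IsInt K u z) (ho : v oo z ≤ 1) (hm : v (md i₀) z ≤ 1)
    (hzr : v zr z ≤ 1) (i : Idx I) {φ : LaurentSeries k} (h : Rd (ρ i) z φ) :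
    φ ∈ RP.RR (CTV.Fbar H.red₀) η := by
  rw [RP.mem_RR]
  exact ⟨(mem_Fbar_iff H.red₀).2 (C.res z hz i φ h),
    C.ir z i φ hi (le_one_of3 C i₀ hz ho hm hzr) h⟩

/-- **`so`, `sm`, `sz`** (`surjm`, `surjz`): the reductions `B_u → R'` are onto. -/
theorem cnt_surj (H : Lvl2 K ρ₀ v ρ α β γ q) (C : ChartK K ρ₀ ρ α γ E₀ E q u₀ u η) (i₀ : I)
    (j : Idx Unit) {φ : LaurentSeries k} (hφ : φ ∈ RP.RR (CTV.Fbar H.red₀) η) :
    ∃ z : F, z ∈ E ∧ IsInt K u z ∧ (∀ i, v i z ≤ 1) ∧ Rd (ρ (l3 i₀ j)) z φ := by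
  obtain ⟨z, hz⟩ := rK_surj H C i₀ j hφ
  refine ⟨((z : E) : F), (z : E).2, z.2.1, z.2.2, ?_⟩
  rw [← hz]
  exact rd_rK E ρ u i₀ j z

/-- **`polo`, `polm`, `polz`**: the reductions of `B_{1/t}` have no pole at `Q = 0`. -/
theorem cnt_pol (X : XDat K ρ₀ x x' ξ ξ' m q)
    (Ci : ChartK K ρ₀ ρ α γ E₀ E q x⁻¹ (tt α γ x)⁻¹ ξ⁻¹) (i₀ : I) {z : F} (hz : z ∈ E)
    (hi : IsInt K (tt α γ x)⁻¹ z) (ho : v oo z ≤ 1) (hm : v (md i₀) z ≤ 1) (hzr : v zr z ≤ 1)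
    (i : Idx I) {φ : LaurentSeries k} (h : Rd (ρ i) z φ) : ∀ n : ℤ, n < 0 → φ.coeff n = 0 := by
  have h1 : IsInt k ξ⁻¹ φ := Ci.ir z i φ hi (le_one_of3 Ci i₀ hz ho hm hzr) h
  have h2 := KLB.coeff_eq_zero_of_isInt_inv X.ox X.m_pos 0 (φ := φ) (by rwa [pow_zero, one_mul])
  intro n hn
  exact h2 n (by simpa using hn)

/-- **the pole bound**: the reduction at `i` of `z ∈ L(a (t)_∞) ∩ B` has a pole of order `≤ a N_i m` (`N_i = expT q i`: `q² + 1`, `2`, `q² + 1`). -/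
theorem cnt_cut (H : Lvl2 K ρ₀ v ρ α β γ q) (X : XDat K ρ₀ x x' ξ ξ' m q)
    (Ci : ChartK K ρ₀ ρ α γ E₀ E q x⁻¹ (tt α γ x)⁻¹ ξ⁻¹) (i₀ : I) {a : ℕ} {z : F} (hz : z ∈ E)
    (hL : z ∈ LL K (tt α γ x) a) (ho : v oo z ≤ 1) (hm : v (md i₀) z ≤ 1) (hzr : v zr z ≤ 1)
    (i : Idx I) {φ : LaurentSeries k} (h : Rd (ρ i) z φ) :
    φ ∈ DEG.Cut k ((a * (expT q i * m) : ℕ) : ℤ) := by
  have hξ := ON.xi_ne_zero X
  have hall := le_one_of3 Ci i₀ hz ho hm hzr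
  have h3 : ∀ j, Rd (ρ j) ((tt α γ x)⁻¹ ^ a) (ξ⁻¹ ^ (expT q j * a)) := by
    intro j
    rw [pow_mul, inv_pow ξ]
    exact ((rd_tt_all H X j).inv (H.red j) (pow_ne_zero _ hξ)).pow a
  have h4 : IsInt k ξ⁻¹ (ξ⁻¹ ^ (expT q i * a) * φ) := by
    refine Ci.ir _ i _ hL.2 (fun j => ?_) ((h3 i).mul h)
    rw [map_mul]
    exact mul_le_one' (h3 j).le_one (hall j)
  have h5 := KLB.coeff_eq_zero_of_isInt_inv X.ox X.m_pos _ h4
  rw [DEG.mem_Cut]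
  intro n hn
  refine h5 n ?_
  have e : expT q i * a * m = a * (expT q i * m) := by ring
  rw [e]
  exact hn

end Fermat.Agent.CAR.BK
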