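import Fermat.Agent.CAR.BK.ConcRat
import Fermat.Agent.CAR.BK.Lift
import Fermat.Agent.CAR.RP.Conc

/-!
# CAR / BK / ConcLift : the fields `lift`, `fr`, `intα`, `intγ` of `ChartK` at the concrete level (both charts)
-/

set_option autoImplicit false

open ModularCurve AlgebraicCurve

noncomputable section

namespace Fermat.Agent.CAR.BK

open Fermat.Agent.GR Fermat.Agent.GAL Fermat.Agent.GAL.KL Fermat.Agent.GAL.KLC Fermat.Agent.S24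
open Fermat.Agent.S28 Fermat.Agent.GR.HeckeField Fermat.Agent.TOR Fermat.Agent.TOR.GB
open Fermat.Agent.CAR.FQ2V Fermat.Agent.CAR.FQ2E Fermat.Agent.CAR.FQ2C Fermat.Agent.CAR.ON
open Fermat.Agent.CAR.DESC

theorem ConcLift_mem_Fbar_iff {K F k Γ₀ : Type*} [Field K] [Field F] [Algebra K F] [Field k]
    [LinearOrderedCommGroupWithZero Γ₀] {v : Valuation F Γ₀} {ρ : v.integer →+* LaurentSeries k}
    (h : IsRed K v ρ) {φ : LaurentSeries k} : φ ∈ CTV.Fbar h ↔ ∃ c, T1.Rd ρ c φ := by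
  rw [CTV.mem_Fbar]
  constructor
  · rintro ⟨z, hz⟩
    exact ⟨z.1, z.2, hz⟩
  · rintro ⟨c, hc, h'⟩
    exact ⟨⟨c, hc⟩, h'⟩

/-- every element of the residue field is a quotient of elements of the chart ring (version of `RP.exists_mul_mem_RR`
WITHOUT the hypothesis that `ρ x'` is integral over `k[ρ x]`: `KL.exists_mul_isInt` in the field `Fbar`). -/
theorem ConcLift_exists_mul_mem_RR {K F k Γ₀ : Type*} [Field K] [Field F] [Algebra K F] [Field k]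
    [LinearOrderedCommGroupWithZero Γ₀] {v : Valuation F Γ₀} {ρ : v.integer →+* LaurentSeries k}
    (hρ : IsRed K v ρ) {x x' : F} (hx : x ∈ v.integer) (hx' : x' ∈ v.integer)
    {m : ℕ} (hm : 0 < m) (hxo : (ρ ⟨x, hx⟩).order = -(m : ℤ))
    (hxo' : (ρ ⟨x', hx'⟩).order = -(m : ℤ) + 1)
    (hSp : Spans K x (fun i : Fin m => x' ^ (i : ℕ))) {φ : LaurentSeries k}
    (hφ : φ ∈ CTV.Fbar hρ) :
    ∃ b ∈ RP.RR (CTV.Fbar hρ) (ρ ⟨x, hx⟩), b ≠ 0 ∧ b * φ ∈ RP.RR (CTV.Fbar hρ) (ρ ⟨x, hx⟩) := by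
  have hξm : ρ ⟨x, hx⟩ ∈ CTV.Fbar hρ := CTV.rho_mem_Fbar hρ _
  have hξneg : (ρ ⟨x, hx⟩).order < 0 := by rw [hxo]; omega
  have htr := CTV.transcendental_of_order_neg (ρ ⟨x, hx⟩) hξneg
  have hcoe : ∀ r : Polynomial k,
      ((Polynomial.aeval (⟨ρ ⟨x, hx⟩, hξm⟩ : CTV.Fbar hρ) r : CTV.Fbar hρ) : LaurentSeries k)
        = Polynomial.aeval (ρ ⟨x, hx⟩) r := fun r =>
    (Polynomial.aeval_algHom_apply (CTV.Fbar hρ).val (⟨ρ ⟨x, hx⟩, hξm⟩ : CTV.Fbar hρ) r).symm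
  have hinj : ∀ r : Polynomial k,
      Polynomial.aeval (⟨ρ ⟨x, hx⟩, hξm⟩ : CTV.Fbar hρ) r = 0 → r = 0 := by
    intro r hr
    apply (transcendental_iff.mp htr) r
    rw [← hcoe, hr]
    rfl
  have hsp : Spans k (⟨ρ ⟨x, hx⟩, hξm⟩ : CTV.Fbar hρ) (fun i : Fin m =>
      ((⟨ρ ⟨x', hx'⟩, CTV.rho_mem_Fbar hρ _⟩ : CTV.Fbar hρ) *
        (⟨ρ ⟨x, hx⟩, hξm⟩ : CTV.Fbar hρ)⁻¹) ^ (i : ℕ)) := by
    intro z
    obtain ⟨d, p, hd, h⟩ := CTV.hspan_Fbar hρ hx hx' hm hxo hxo' hSp z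
    exact ⟨d, p, hd, h⟩
  obtain ⟨r, hr, hint⟩ := exists_mul_isInt hinj _ hsp (⟨φ, hφ⟩ : CTV.Fbar hρ)
  refine ⟨Polynomial.aeval (ρ ⟨x, hx⟩) r, RP.dimD6_aeval_mem_RR hξm r, ?_, ?_, ?_⟩
  · exact fun h0 => hr ((transcendental_iff.mp htr) r h0)
  · exact (CTV.Fbar hρ).mul_mem (RP.dimD6_aeval_mem_RR hξm r).1 hφ
  · have := (RP.isInt_coe_iff (CTV.Fbar hρ) _ _).2 hint
    rw [MulMemClass.coe_mul, hcoe] at this
    exact this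

variable {M' q : ℕ} [NeZero M'] [NeZero q] (A : ValuationSubring Qb) (ζ : Qbˣ)
  (hM : AdmLevel M') (hq : q.Prime) (hqM : ¬ q ∣ M') (hA : A.LiesOverPrime q)
include hM hq hqM hA

/-- **`lift`, chart `x`.**  (`(xDatC A hM hq hqM hA).lift` gives an integral lift `c₁`; `exists_fixed_lift_xF hq A hA M' (spansStatement M') hc₁ (T1C.rd_iff.1 ..)`
makes it inertia-fixed; `mem_EC_iff_galF`, `T1C.rd_iff`.) -/
theorem liftC (c : FN M') (φ : LaurentSeries (kA A)) (h : T1.Rd (rho A M') c φ)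
    (hφ : IsInt (kA A) (xR (kA A) M') φ) :
    ∃ c' ∈ EC A M', IsInt Qb (xF M') c' ∧ T1.Rd (rho A M') c' φ := by
  obtain ⟨c₁, hc₁, hr₁⟩ := (xDatC A hM hq hqM hA).lift c φ h hφ
  obtain ⟨c', hfix, hint, hred⟩ :=
    exists_fixed_lift_xF hq A hA M' (spansStatement M') hc₁ ((T1C.rd_iff M' A).1 hr₁)
  exact ⟨c', (mem_EC_iff_galF A).2 hfix, hint, (T1C.rd_iff M' A).2 hred⟩

/-- **`lift`, chart `x⁻¹`.**  (`XDat.lift'`, `exists_fixed_lift_xF_inv`.) -/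
theorem liftC_inv (c : FN M') (φ : LaurentSeries (kA A)) (h : T1.Rd (rho A M') c φ)
    (hφ : IsInt (kA A) (xR (kA A) M')⁻¹ φ) :
    ∃ c' ∈ EC A M', IsInt Qb (xF M')⁻¹ c' ∧ T1.Rd (rho A M') c' φ := by
  obtain ⟨c₁, hc₁, hr₁⟩ := (xDatC A hM hq hqM hA).lift' c φ h hφ
  obtain ⟨c', hfix, hint, hred⟩ :=
    exists_fixed_lift_xF_inv hq A hA M' (spansStatement M') hc₁ ((T1C.rd_iff M' A).1 hr₁)
  exact ⟨c', (mem_EC_iff_galF A).2 hfix, hint, (T1C.rd_iff M' A).2 hred⟩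

/-- **`fr`, chart `x`.**  (`RP.exists_mul_mem_RR (isRed A M') (xF_mem_integer M' A) (xF'_mem_integer M' A) (mX_pos M') (order_rho_xF M' A) (order_rho_xF' M' A)
(spansStatement M') (riStatement M' ..)`, `rho_xF`: see `RP/Conc.lean` for the way these arguments are supplied; `BK.mem_Fbar_iff` (file `BK/Red.lean`) or
`CTV.Fbar` membership `↔ ∃ c, Rd ρ₀ c φ`.) -/
theorem frC (c : FN M') (φ : LaurentSeries (kA A)) (h : T1.Rd (rho A M') c φ) :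
    ∃ b s : LaurentSeries (kA A), s ≠ 0 ∧ (∃ c', T1.Rd (rho A M') c' b) ∧
      IsInt (kA A) (xR (kA A) M') b ∧ (∃ c', T1.Rd (rho A M') c' s) ∧
      IsInt (kA A) (xR (kA A) M') s ∧ s * φ = b := by
  have hφ : φ ∈ CTV.Fbar (isRed A M') := (ConcLift_mem_Fbar_iff (isRed A M')).2 ⟨c, h⟩
  obtain ⟨s, hs, hs0, hb⟩ := ConcLift_exists_mul_mem_RR (isRed A M') (xF_mem_integer M' A)
    (xF'_mem_integer M' A) (mX_pos M') (order_rho_xF M' A) (order_rho_xF' M' A)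
    (spansStatement M') hφ
  rw [rho_xF] at hs hb
  exact ⟨s * φ, s, hs0, (ConcLift_mem_Fbar_iff (isRed A M')).1 hb.1, hb.2,
    (ConcLift_mem_Fbar_iff (isRed A M')).1 hs.1, hs.2, rfl⟩

/-- **`fr`, chart `x⁻¹`.**  From `frC`: `IsInt.shift` (with `t := ξ⁻¹`, `inv_inv`) gives `a`, `a'` with `IsInt k ξ⁻¹ ((ξ⁻¹)^a * b)`, `IsInt k ξ⁻¹ ((ξ⁻¹)^a' * s)`;
multiply both by `(ξ⁻¹)^(a + a')` (`(ξ⁻¹)^j` is integral over `k[ξ⁻¹]`; it is the reduction of `(x⁻¹)^j`: `Rd.inv`, `Rd.pow`). -/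
theorem frC_inv (c : FN M') (φ : LaurentSeries (kA A)) (h : T1.Rd (rho A M') c φ) :
    ∃ b s : LaurentSeries (kA A), s ≠ 0 ∧ (∃ c', T1.Rd (rho A M') c' b) ∧
      IsInt (kA A) (xR (kA A) M')⁻¹ b ∧ (∃ c', T1.Rd (rho A M') c' s) ∧
      IsInt (kA A) (xR (kA A) M')⁻¹ s ∧ s * φ = b := by
  obtain ⟨b, s, hs0, ⟨cb, hcb⟩, hb, ⟨cs, hcs⟩, hs, hsφ⟩ := frC A hM hq hqM hA c φ h
  have hξ : T1.Rd (rho A M') (xF M') (xR (kA A) M') := (xDatC A hM hq hqM hA).rx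
  have hξ0 : xR (kA A) M' ≠ 0 := by
    intro h0
    have h1 := (xDatC A hM hq hqM hA).ox
    have h2 := (xDatC A hM hq hqM hA).m_pos
    rw [h0, HahnSeries.order_zero] at h1
    omega
  have hξi : T1.Rd (rho A M') (xF M')⁻¹ (xR (kA A) M')⁻¹ := hξ.inv (isRed A M') hξ0
  have hi0 : (xR (kA A) M')⁻¹ ≠ 0 := inv_ne_zero hξ0
  have hb' : IsInt (kA A) ((xR (kA A) M')⁻¹)⁻¹ b := by rwa [inv_inv]
  have hs' : IsInt (kA A) ((xR (kA A) M')⁻¹)⁻¹ s := by rwa [inv_inv]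
  obtain ⟨a, ha⟩ := IsInt.shift hi0 hb'
  obtain ⟨a', ha'⟩ := IsInt.shift hi0 hs'
  refine ⟨(xR (kA A) M')⁻¹ ^ (a + a') * b, (xR (kA A) M')⁻¹ ^ (a + a') * s,
    mul_ne_zero (pow_ne_zero _ hi0) hs0, ⟨_, (hξi.pow _).mul hcb⟩, ha _ (Nat.le_add_right a a'),
    ⟨_, (hξi.pow _).mul hcs⟩, ha' _ (Nat.le_add_left a' a), ?_⟩
  rw [mul_assoc, hsφ]

/-- (`BKP.isInt_alC hM hq hqM A hA h`; `al`, `FQ2C.tC` are defeq to `BKP.alC`, `BKP.tC`: `tC_eq_tC`, `al_eq_alC`.) -/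
theorem intαC (c : FN M') (h : IsInt Qb (xF M') c) : IsInt Qb (FQ2C.tC M' q) (al M' q c) :=
  BKP.isInt_alC hM hq hqM A hA h

theorem intγC (c : FN M') (h : IsInt Qb (xF M') c) : IsInt Qb (FQ2C.tC M' q) (ga M' q c) :=
  BKP.isInt_gaC hM hq hqM A hA h

theorem intαC_inv (c : FN M') (h : IsInt Qb (xF M')⁻¹ c) :
    IsInt Qb (FQ2C.tC M' q)⁻¹ (al M' q c) :=
  BKP.isInt_alC_inv hM hq hqM A hA h

theorem intγC_inv (c : FN M') (h : IsInt Qb (xF M')⁻¹ c) :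
    IsInt Qb (FQ2C.tC M' q)⁻¹ (ga M' q c) :=
  BKP.isInt_gaC_inv hM hq hqM A hA h

end Fermat.Agent.CAR.BK
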