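import Fermat.Agent.CAR.BK.Quot

/-!
# CAR / BK : package BK-3 : the instance of `NS.Vert` for `B_u ⊆ E`
-/

set_option autoImplicit false

open Polynomial ModularCurve AlgebraicCurve

noncomputable section

namespace Fermat.Agent.CAR.BK

open Fermat.Agent.GAL.KL Fermat.Agent.GAL.KLC Fermat.Agent.TOR.T1 Fermat.Agent.CAR.ON
open Fermat.Agent.GAL Fermat.Agent.CAR

variable {K F₀ F k Γ' Γ₀ I : Type*} [Field K] [Field F₀] [Field F] [Algebra K F₀]
  [Algebra K F] [Field k] [LinearOrderedCommGroupWithZero Γ'] [LinearOrderedCommGroupWithZero Γ₀]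
  {v₀ : Valuation F₀ Γ'} {ρ₀ : v₀.integer →+* LaurentSeries k}
  {v : Idx I → Valuation F Γ₀} {ρ : ∀ i, (v i).integer →+* LaurentSeries k}
  {α β γ : F₀ →ₐ[K] F} {q : ℕ} [NeZero q] {E₀ : Subfield F₀} {E : Subfield F}
  {u₀ : F₀} {u : F} {η : LaurentSeries k}

/-- transitivity of integrality, for ring homs. -/
theorem Vert_isIntegralElem_trans {R R' L : Type*} [CommRing R] [CommRing R'] [CommRing L]
    (f : R →+* L) (g : R' →+* L)
    (hg : ∀ r, f.IsIntegralElem (g r)) {x : L} (hx : g.IsIntegralElem x) :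
    f.IsIntegralElem x := by
  let _ := f.toAlgebra
  let B := integralClosure R L
  let g' : R' →+* B := g.codRestrict B.toSubring (fun r => hg r)
  obtain ⟨p, hp, h⟩ := hx
  have hxB : IsIntegral B x := by
    refine ⟨p.map g', hp.map _, ?_⟩
    rw [Polynomial.eval₂_map]
    exact h
  exact isIntegral_trans (R := R) (A := B) x hxB

/-- the three indices. -/
theorem Vert_idx_cases (j : Idx Unit) : j = oo ∨ j = md () ∨ j = zr := by
  rcases j with _ | _ | ⟨⟩
  · exact Or.inl rfl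
  · exact Or.inr (Or.inr rfl)
  · exact Or.inr (Or.inl rfl)

/-- `B_u` is integrally closed in `E`.  PROOF: `x` integral over `B_u`: (a) `(x : F)` is integral over the subring
`{z : F | IsInt K u z}` = integral closure of the range of `aeval u`, hence `IsInt K u x` (transitivity:
`isIntegral_trans` / `IsIntegral.trans`-type lemma, cf. `RP.isInt_of_isIntegral` in `CAR/RP/Closed.lean` and `KL.IsInt` API in
`GAL/KL/BasicInt.lean`); (b) `v i x ≤ 1`: the valuation ring `(v i).integer` (`Valuation.valuationSubring`) is integrally closed: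
from `x^N = -∑_{s<N} b_s x^s`, `v b_s ≤ 1`, `v x > 1` is impossible. -/
theorem ic (x : E) (hx : IsIntegral (Bu K E v u) x) : x ∈ Bu K E v u := by
  obtain ⟨p, hp, hpx⟩ := hx
  let g : Bu K E v u →+* F := E.subtype.comp (Bu K E v u).subtype
  have hg : eval₂ g (x : F) p = 0 := by
    have h1 := congrArg E.subtype hpx
    rw [Polynomial.hom_eval₂, map_zero] at h1
    exact h1
  refine ⟨?_, fun i => ?_⟩
  · exact Vert_isIntegralElem_trans _ g (fun r => r.2.1) ⟨p, hp, hg⟩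
  · let g' : Bu K E v u →+* (v i).integer := g.codRestrict (v i).integer (fun r => r.2.2 i)
    have h2 : IsIntegral (v i).integer (x : F) := by
      refine ⟨p.map g', hp.map _, ?_⟩
      rw [Polynomial.eval₂_map]
      exact hg
    exact (Valuation.integer.integers (v i)).mem_of_integral h2

/-- `V² η = η^(q²) ≠ η`, `η^(q⁴) ≠ η` (orders; `C.Vη`, `C.oη`). -/
theorem eta_facts (C : ChartK K ρ₀ ρ α γ E₀ E q u₀ u η) (hq : 2 ≤ q) :
    qExpand k q (qExpand k q η) = η ^ (q * q) ∧ η ^ (q * q) - η ≠ 0 ∧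
      (η ^ (q * q)) ^ (q * q) - η ≠ 0 := by
  have key : ∀ N : ℕ, 2 ≤ N → η ^ N - η ≠ 0 := by
    intro N hN h
    have h1 := congrArg HahnSeries.order (sub_eq_zero.mp h)
    rw [HahnSeries.order_pow, nsmul_eq_mul] at h1
    have h2 : ((N : ℤ) - 1) * η.order = 0 := by linear_combination h1
    rcases mul_eq_zero.mp h2 with h3 | h3
    · have : (2 : ℤ) ≤ N := by exact_mod_cast hN
      omega
    · exact C.oη h3
  have hqq : 2 ≤ q * q := by nlinarith
  refine ⟨by rw [C.Vη, map_pow, C.Vη, ← pow_mul], key _ hqq, ?_⟩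
  rw [← pow_mul]
  exact key _ (by nlinarith)

/-- separating elements.  With `a = α u₀`, `c = γ u₀ ∈ B_u` (`exists_α`, `exists_γ`), reductions at `(oo, md, zr)`:
`a ≡ (η, η, η^(q²))`, `c ≡ (η^(q²), η, η)`.  `j = md`: `a - c`;  `j = oo`: `a^(q²) - c`;  `j = zr`: `c^(q²) - a`. -/
theorem exists_sep (H : Lvl2 K ρ₀ v ρ α β γ q) (C : ChartK K ρ₀ ρ α γ E₀ E q u₀ u η) (hq : 2 ≤ q)
    (i₀ : I) (i j : Idx Unit) (hij : i ≠ j) :
    ∃ z : Bu K E v u, z ∈ pK K E v u i₀ j ∧ z ∉ pK K E v u i₀ i := by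
  obtain ⟨hV, h1, h2⟩ := eta_facts C hq
  have hint : IsInt K u₀ u₀ := by simpa using IsInt.aeval (L := K) (t := u₀) X
  obtain ⟨a, -, ao, am, az⟩ := exists_α H C i₀ C.u₀E hint C.ru
  obtain ⟨c, -, co, cm, cz⟩ := exists_γ H C i₀ C.u₀E hint C.ru
  rw [hV] at az co
  have h1' : η - η ^ (q * q) ≠ 0 := fun h => h1 (by rw [← neg_sub, h, neg_zero])
  simp only [← rK_eq_zero_iff H]
  rcases Vert_idx_cases j with rfl | rfl | rfl
  · refine ⟨a ^ (q * q) - c, by rw [map_sub, map_pow, ao, co, sub_self], ?_⟩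
    rcases Vert_idx_cases i with rfl | rfl | rfl
    · exact absurd rfl hij
    · rw [map_sub, map_pow, am, cm]; exact h1
    · rw [map_sub, map_pow, az, cz]; exact h2
  · refine ⟨a - c, by rw [map_sub, am, cm, sub_self], ?_⟩
    rcases Vert_idx_cases i with rfl | rfl | rfl
    · rw [map_sub, ao, co]; exact h1'
    · exact absurd rfl hij
    · rw [map_sub, az, cz]; exact h1
  · refine ⟨c ^ (q * q) - a, by rw [map_sub, map_pow, cz, az, sub_self], ?_⟩
    rcases Vert_idx_cases i with rfl | rfl | rfl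
    · rw [map_sub, map_pow, co, ao]; exact h2
    · rw [map_sub, map_pow, cm, am]; exact h1
    · exact absurd rfl hij

/-- the residue field of `v3 j` is the fraction field of `B_u / pK j`
(`C.res`, `C.fr`, `rK_surj`, `Rd.sub_lt`). -/
theorem frac (H : Lvl2 K ρ₀ v ρ α β γ q) (C : ChartK K ρ₀ ρ α γ E₀ E q u₀ u η) (i₀ : I)
    (j : Idx Unit) (x : E) (hx : v3 E v i₀ j x ≤ 1) :
    ∃ b s : Bu K E v u, s ∉ pK K E v u i₀ j ∧ v3 E v i₀ j (((s : E)) * x - (b : E)) < 1 := by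
  obtain ⟨φ, hφ⟩ := exists_rd (ρ := ρ (l3 i₀ j)) (z := (x : F)) hx
  obtain ⟨c, hc⟩ := C.res x x.2 _ φ hφ
  obtain ⟨b, s, hs0, hb1, hb2, hs1, hs2, hsb⟩ := C.fr c φ hc
  obtain ⟨zb, hzb⟩ := rK_surj H C i₀ j (φ := b) ⟨(mem_Fbar_iff H.red₀).mpr hb1, hb2⟩
  obtain ⟨zs, hzs⟩ := rK_surj H C i₀ j (φ := s) ⟨(mem_Fbar_iff H.red₀).mpr hs1, hs2⟩
  refine ⟨zb, zs, fun h => hs0 ?_, ?_⟩
  · rw [← hzs]
    exact (rK_eq_zero_iff H i₀ j zs).mpr h
  · have e1 : Rd (ρ (l3 i₀ j)) (((zs : E) : F) * (x : F)) b := by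
      have := (rd_rK E ρ u i₀ j zs).mul hφ
      rwa [hzs, hsb] at this
    have e2 : Rd (ρ (l3 i₀ j)) ((zb : E) : F) b := by
      have := rd_rK E ρ u i₀ j zb
      rwa [hzb] at this
    exact e1.sub_lt (H.red _) e2

/-- **the instance of `NS.Vert`.** -/
theorem vert (H : Lvl2 K ρ₀ v ρ α β γ q) (C : ChartK K ρ₀ ρ α γ E₀ E q u₀ u η) (hq : 2 ≤ q)
    (hA : ∀ i, Arch (v i)) (hD : IsDedekindDomain (RP.RR (CTV.Fbar H.red₀) η)) (i₀ : I) :
    NS.Vert (Bu K E v u) (v3 E v i₀) (pK K E v u i₀) where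
  ic := ic
  le_one := fun i z => z.2.2 _
  mem_p := fun _ _ => Iff.rfl
  arch := fun i x hx γ hγ => hA (l3 i₀ i) (x : F) hx γ hγ
  ded := fun j => isDedekindDomain_quot H C hD i₀ j
  frac := fun j x hx => frac H C i₀ j x hx
  ne := fun i j hij hle => by
    obtain ⟨z, hz, hz'⟩ := exists_sep H C hq i₀ i j hij
    exact hz' (hle hz)

/-- hypothesis (KR) of `NS.ns_main`, for `π` a nonzero constant. -/
theorem kr (C : ChartK K ρ₀ ρ α γ E₀ E q u₀ u η) (i₀ : I) (a : K) (ha : a ≠ 0)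
    (π : Bu K E v u) (hπ : ((π : E) : F) = algebraMap K F a) (z : E)
    (h1 : ∃ N : ℕ, ((π : E)) ^ N * z ∈ Bu K E v u) (h2 : ∀ j, v3 E v i₀ j z ≤ 1) :
    z ∈ Bu K E v u := by
  rw [mem_Bu_iff3 C i₀]
  refine ⟨?_, h2⟩
  obtain ⟨N, hN⟩ := h1
  have h3 : IsInt K u ((((π : E)) ^ N * z : E) : F) := hN.1
  rw [Subfield.coe_mul, SubmonoidClass.coe_pow, hπ] at h3
  have haF : algebraMap K F a ≠ 0 := by simpa using ha
  have h4 : (z : F) = algebraMap K F (a⁻¹ ^ N) * (algebraMap K F a ^ N * (z : F)) := by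
    rw [map_pow, map_inv₀, ← mul_assoc, ← mul_pow, inv_mul_cancel₀ haF, one_pow, one_mul]
  rw [h4]
  exact (IsInt.algebraMap _).mul h3

/-- sections over `B_u` are sections over the chart `u` of `F`. -/
theorem lam_subset_II {n : ℕ} {w φ : E} (h : φ ∈ NS.Lam (Bu K E v u) n w) :
    (φ : F) ∈ II K u n (w : F) := by
  have h1 : IsInt K u ((φ ^ n * w : E) : F) := (show φ ^ n * w ∈ Bu K E v u from h).1
  rwa [Subfield.coe_mul, SubmonoidClass.coe_pow] at h1

end Fermat.Agent.CAR.BK
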