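import Fermat.Agent.CAR.BK.ConcRes
import Fermat.Agent.CAR.BK.ConcLift
import Fermat.Agent.CAR.BK.Vert

/-!
# CAR / BK / Conc : THE CONCRETE CHART RINGS  `BC A ζ = B_t`, `BCinf A ζ = B_{1/t}`  of `E = FN(q²M')^I`
and the two instances of `NS.Vert`.
-/

set_option autoImplicit false

open ModularCurve AlgebraicCurve

noncomputable section

namespace Fermat.Agent.CAR.BK

open Fermat.Agent.GR Fermat.Agent.GAL Fermat.Agent.GAL.KL Fermat.Agent.GAL.KLC Fermat.Agent.S24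
open Fermat.Agent.S28 Fermat.Agent.GR.HeckeField Fermat.Agent.TOR Fermat.Agent.TOR.GB
open Fermat.Agent.CAR.FQ2V Fermat.Agent.CAR.FQ2E Fermat.Agent.CAR.FQ2C Fermat.Agent.CAR.ON
open Fermat.Agent.CAR.DESC

variable (M' q : ℕ) [NeZero M'] [NeZero q] (A : ValuationSubring Qb) (ζ : Qbˣ)

/-- the chart ring `B = B_t`. -/
abbrev BC : Subring (EC A (M' * q * q)) := Bu Qb (EC A (M' * q * q)) (vC M' q A ζ) (FQ2C.tC M' q)

/-- the chart ring `B° = B_{1/t}`. -/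
abbrev BCinf : Subring (EC A (M' * q * q)) :=
  Bu Qb (EC A (M' * q * q)) (vC M' q A ζ) (FQ2C.tC M' q)⁻¹

variable {M' q}
variable (hM : AdmLevel M') (hq : q.Prime) (hqM : ¬ q ∣ M') (hA : A.LiesOverPrime q)
  (hζ : IsPrimitiveRoot ζ q)
include hM hq hqM hA hζ

/-- **the chart `(x, t, ξ)`.** -/
theorem chartC : ChartK Qb (rho A M') (rhoC M' q A ζ) (al M' q) (ga M' q) (EC A M')
    (EC A (M' * q * q)) q (xF M') (FQ2C.tC M' q) (xR (kA A) M') where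
  αE := fun _ hc => al_mem_EC A hc
  γE := fun _ hc => ga_mem_EC A hc
  u₀E := xF_mem_EC A M'
  ru := (xDatC A hM hq hqM hA).rx
  Vη := (xDatC A hM hq hqM hA).Vx
  oη := by
    rw [(xDatC A hM hq hqM hA).ox]
    have := (xDatC A hM hq hqM hA).m_pos
    omega
  mdc := fun _ hz i j φ h => mdcC A ζ hq hqM hA hζ hz i j φ h
  res := fun _ hz i φ h => resC A ζ hM hq hqM hA hζ hz i φ h
  ir := fun z i φ hz hv h => irC A ζ hM hq hqM hA hζ z i φ hz hv h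
  lift := fun c φ h hφ => liftC A hM hq hqM hA c φ h hφ
  fr := fun c φ h => frC A hM hq hqM hA c φ h
  intα := fun c h => intαC A hM hq hqM hA c h
  intγ := fun c h => intγC A hM hq hqM hA c h

/-- **the chart `(x⁻¹, t⁻¹, ξ⁻¹)`.** -/
theorem chartC_inv : ChartK Qb (rho A M') (rhoC M' q A ζ) (al M' q) (ga M' q) (EC A M')
    (EC A (M' * q * q)) q (xF M')⁻¹ (FQ2C.tC M' q)⁻¹ (xR (kA A) M')⁻¹ where
  αE := fun _ hc => al_mem_EC A hc
  γE := fun _ hc => ga_mem_EC A hc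
  u₀E := inv_mem (xF_mem_EC A M')
  ru := (xDatC A hM hq hqM hA).rx.inv (isRed A M') (ON.xi_ne_zero (xDatC A hM hq hqM hA))
  Vη := by rw [map_inv₀, (xDatC A hM hq hqM hA).Vx, inv_pow]
  oη := by
    have h0 := ON.xi_ne_zero (xDatC A hM hq hqM hA)
    have h1 : (xR (kA A) M' * (xR (kA A) M')⁻¹).order = 0 := by
      rw [mul_inv_cancel₀ h0, HahnSeries.order_one]
    rw [HahnSeries.order_mul h0 (inv_ne_zero h0), (xDatC A hM hq hqM hA).ox] at h1
    have := (xDatC A hM hq hqM hA).m_pos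
    omega
  mdc := fun _ hz i j φ h => mdcC A ζ hq hqM hA hζ hz i j φ h
  res := fun _ hz i φ h => resC A ζ hM hq hqM hA hζ hz i φ h
  ir := fun z i φ hz hv h => irC_inv A ζ hM hq hqM hA hζ z i φ hz hv h
  lift := fun c φ h hφ => liftC_inv A hM hq hqM hA c φ h hφ
  fr := fun c φ h => frC_inv A hM hq hqM hA c φ h
  intα := fun c h => intαC_inv A hM hq hqM hA c h
  intγ := fun c h => intγC_inv A hM hq hqM hA c h

/-- **`NS.Vert` for `B = B_t`.** -/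
theorem vertC (i₀ : (ZMod q)ˣ) :
    NS.Vert (BC M' q A ζ) (v3 (EC A (M' * q * q)) (vC M' q A ζ) i₀)
      (pK Qb (EC A (M' * q * q)) (vC M' q A ζ) (FQ2C.tC M' q) i₀) :=
  vert (lvl2 A ζ hq hqM hA hζ) (chartC A ζ hM hq hqM hA hζ) hq.two_le (arch_C A ζ hq hA)
    (RP.isDedekindDomain_RC M' q hM hq hqM A hA) i₀

/-- **`NS.Vert` for `B° = B_{1/t}`.** -/
theorem vertC_inv (i₀ : (ZMod q)ˣ) :
    NS.Vert (BCinf M' q A ζ) (v3 (EC A (M' * q * q)) (vC M' q A ζ) i₀)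
      (pK Qb (EC A (M' * q * q)) (vC M' q A ζ) (FQ2C.tC M' q)⁻¹ i₀) :=
  vert (lvl2 A ζ hq hqM hA hζ) (chartC_inv A ζ hM hq hqM hA hζ) hq.two_le (arch_C A ζ hq hA)
    (RP.isDedekindDomain_RCinf M' q hM hq hqM A hA) i₀

end Fermat.Agent.CAR.BK
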