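import Fermat.Agent.CAR.BK.Cnt
import Fermat.Agent.CAR.BK.Conc
import Fermat.Agent.DSC.Teich

/-!
# CAR / BK / ConcCnt : the BK-side inputs of THE COUNT at the concrete level (`EC`, `vC`, `rhoC`, `tC`, `RC A M'`), `ℚ̄`-language.
-/

set_option autoImplicit false

open ModularCurve AlgebraicCurve

noncomputable section

namespace Fermat.Agent.CAR.BK

open Fermat.Agent.GR Fermat.Agent.GAL Fermat.Agent.GAL.KL Fermat.Agent.GAL.KLC Fermat.Agent.S24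
open Fermat.Agent.S28 Fermat.Agent.GR.HeckeField Fermat.Agent.TOR Fermat.Agent.TOR.GB
open Fermat.Agent.CAR.FQ2V Fermat.Agent.CAR.FQ2E Fermat.Agent.CAR.FQ2C Fermat.Agent.CAR.ON
open Fermat.Agent.CAR.DESC

variable {M' q : ℕ} [NeZero M'] [NeZero q] (A : ValuationSubring Qb) (ζ : Qbˣ)

/-- **`cst` / `sc`**: every element of the residue field lifts to an inertia-fixed constant, which reduces to it at ALL indices. -/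
theorem cstC (hq : q.Prime) (hA : A.LiesOverPrime q) (c : kA A) :
    ∃ a : Qb, (∀ τ ∈ A.inertiaSubgroupIn ℚ, τ a = a) ∧
      algebraMap Qb (FN (M' * q * q)) a ∈ EC A (M' * q * q) ∧
      ∀ i, T1.Rd (rhoC M' q A ζ i) (algebraMap Qb (FN (M' * q * q)) a) (HahnSeries.C c) := by
  obtain ⟨a, ha, hr⟩ := DSC.exists_lift_EH_inertia hq hA c
  have hfix := DSC.mem_EH.1 ha
  refine ⟨a, hfix, algebraMap_mem_EC A _ hfix, fun i => ?_⟩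
  rw [FQ2C.rd_iff, (famC M' q ζ i).const]
  exact hr.hasRed

variable (hM : AdmLevel M') (hq : q.Prime) (hqM : ¬ q ∣ M') (hA : A.LiesOverPrime q)
  (hζ : IsPrimitiveRoot ζ q)
include hM hq hqM hA hζ

/-- on `EC` the whole family is controlled by `oo`, `md i₀`, `zr`. -/
theorem le_one_of3C (i₀ : (ZMod q)ˣ) {z : FN (M' * q * q)} (hz : z ∈ EC A (M' * q * q))
    (ho : vC M' q A ζ oo z ≤ 1) (hm : vC M' q A ζ (md i₀) z ≤ 1) (hzr : vC M' q A ζ zr z ≤ 1)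
    (i : ON.Idx (ZMod q)ˣ) : vC M' q A ζ i z ≤ 1 :=
  le_one_of3 (chartC A ζ hM hq hqM hA hζ) i₀ hz ho hm hzr i

/-- **`into`, `intm`, `intz`** (chart `t`). -/
theorem mem_RC_of_rd (i₀ : (ZMod q)ˣ) {z : FN (M' * q * q)} (hz : z ∈ EC A (M' * q * q))
    (hi : IsInt Qb (FQ2C.tC M' q) z) (ho : vC M' q A ζ oo z ≤ 1) (hm : vC M' q A ζ (md i₀) z ≤ 1)
    (hzr : vC M' q A ζ zr z ≤ 1) (i : ON.Idx (ZMod q)ˣ) {φ : LaurentSeries (kA A)}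
    (h : T1.Rd (rhoC M' q A ζ i) z φ) : φ ∈ RP.RC A M' :=
  cnt_mem_RR (lvl2 A ζ hq hqM hA hζ) (chartC A ζ hM hq hqM hA hζ) i₀ hz hi ho hm hzr i h

/-- the same on the chart `1/t` (`intm'`). -/
theorem mem_RCinf_of_rd (i₀ : (ZMod q)ˣ) {z : FN (M' * q * q)} (hz : z ∈ EC A (M' * q * q))
    (hi : IsInt Qb (FQ2C.tC M' q)⁻¹ z) (ho : vC M' q A ζ oo z ≤ 1)
    (hm : vC M' q A ζ (md i₀) z ≤ 1) (hzr : vC M' q A ζ zr z ≤ 1) (i : ON.Idx (ZMod q)ˣ)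
    {φ : LaurentSeries (kA A)} (h : T1.Rd (rhoC M' q A ζ i) z φ) : φ ∈ RP.RCinf A M' :=
  cnt_mem_RR (lvl2 A ζ hq hqM hA hζ) (chartC_inv A ζ hM hq hqM hA hζ) i₀ hz hi ho hm hzr i h

/-- **`so`, `sm`, `sz`, `surjm`, `surjz`** (chart `t`); `j = oo, md (), zr`. -/
theorem exists_rd_of_mem_RC (i₀ : (ZMod q)ˣ) (j : ON.Idx Unit) {φ : LaurentSeries (kA A)}
    (hφ : φ ∈ RP.RC A M') :
    ∃ z : FN (M' * q * q), z ∈ EC A (M' * q * q) ∧ IsInt Qb (FQ2C.tC M' q) z ∧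
      (∀ i, vC M' q A ζ i z ≤ 1) ∧ T1.Rd (rhoC M' q A ζ (l3 i₀ j)) z φ :=
  cnt_surj (lvl2 A ζ hq hqM hA hζ) (chartC A ζ hM hq hqM hA hζ) i₀ j hφ

/-- the same on the chart `1/t` (`surj'`). -/
theorem exists_rd_of_mem_RCinf (i₀ : (ZMod q)ˣ) (j : ON.Idx Unit) {φ : LaurentSeries (kA A)}
    (hφ : φ ∈ RP.RCinf A M') :
    ∃ z : FN (M' * q * q), z ∈ EC A (M' * q * q) ∧ IsInt Qb (FQ2C.tC M' q)⁻¹ z ∧
      (∀ i, vC M' q A ζ i z ≤ 1) ∧ T1.Rd (rhoC M' q A ζ (l3 i₀ j)) z φ :=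
  cnt_surj (lvl2 A ζ hq hqM hA hζ) (chartC_inv A ζ hM hq hqM hA hζ) i₀ j hφ

/-- **`polo`, `polm`, `polz`**. -/
theorem coeff_eq_zero_of_rd (i₀ : (ZMod q)ˣ) {z : FN (M' * q * q)} (hz : z ∈ EC A (M' * q * q))
    (hi : IsInt Qb (FQ2C.tC M' q)⁻¹ z) (ho : vC M' q A ζ oo z ≤ 1)
    (hm : vC M' q A ζ (md i₀) z ≤ 1) (hzr : vC M' q A ζ zr z ≤ 1) (i : ON.Idx (ZMod q)ˣ)
    {φ : LaurentSeries (kA A)} (h : T1.Rd (rhoC M' q A ζ i) z φ) :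
    ∀ n : ℤ, n < 0 → φ.coeff n = 0 :=
  cnt_pol (xDatC A hM hq hqM hA) (chartC_inv A ζ hM hq hqM hA hζ) i₀ hz hi ho hm hzr i h

/-- **the pole bound** (`ro`, `rm`, `rz` of `P1F.Ok`): `expT q i = q*q+1, 1+1, q*q+1`. -/
theorem mem_Cut_of_rd (i₀ : (ZMod q)ˣ) {a : ℕ} {z : FN (M' * q * q)}
    (hz : z ∈ EC A (M' * q * q)) (hL : z ∈ LL Qb (FQ2C.tC M' q) a) (ho : vC M' q A ζ oo z ≤ 1)
    (hm : vC M' q A ζ (md i₀) z ≤ 1) (hzr : vC M' q A ζ zr z ≤ 1) (i : ON.Idx (ZMod q)ˣ)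
    {φ : LaurentSeries (kA A)} (h : T1.Rd (rhoC M' q A ζ i) z φ) :
    φ ∈ DEG.Cut (kA A) ((a * (expT q i * mX M') : ℕ) : ℤ) :=
  cnt_cut (lvl2 A ζ hq hqM hA hζ) (xDatC A hM hq hqM hA) (chartC_inv A ζ hM hq hqM hA hζ) i₀ hz hL
    ho hm hzr i h

end Fermat.Agent.CAR.BK
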