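import Fermat.Agent.CAR.BK.Conc
import Fermat.Agent.CAR.NRM.Inst.Defs

/-!
# CAR / BK / ConcFK : the concrete chart rings for `E := NRM.Inst.FK A N` (chief decision (9): ONE `E`), + (KR) with `π = q`.
-/

set_option autoImplicit false

open ModularCurve AlgebraicCurve

noncomputable section

namespace Fermat.Agent.CAR.BK

open Fermat.Agent.GR Fermat.Agent.GAL Fermat.Agent.GAL.KL Fermat.Agent.GAL.KLC Fermat.Agent.S24
open Fermat.Agent.S28 Fermat.Agent.GR.HeckeField Fermat.Agent.TOR Fermat.Agent.TOR.GB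
open Fermat.Agent.CAR.FQ2V Fermat.Agent.CAR.FQ2E Fermat.Agent.CAR.FQ2C Fermat.Agent.CAR.ON
open Fermat.Agent.CAR.DESC

/-- the two definitions of `F_K` agree. -/
theorem EC_eq_FK (A : ValuationSubring Qb) (N : ℕ) : EC A N = NRM.Inst.FK A N :=
  Subfield.ext fun _ => mem_EC_iff_galF A

/-- `π := (n : Bu ..)` is the constant `n`. -/
theorem coe_natCast_Bu {K F Γ₀ I : Type*} [Field K] [Field F] [Algebra K F]
    [LinearOrderedCommGroupWithZero Γ₀] (E : Subfield F) (v : ON.Idx I → Valuation F Γ₀) (u : F)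
    (n : ℕ) : (((n : Bu K E v u) : E) : F) = algebraMap K F (n : K) := by
  rw [map_natCast]
  rfl

variable (M' q : ℕ) [NeZero M'] [NeZero q] (A : ValuationSubring Qb) (ζ : Qbˣ)

/-- the chart ring `B = B_t ⊆ FK`. -/
abbrev BF : Subring (NRM.Inst.FK A (M' * q * q)) :=
  Bu Qb (NRM.Inst.FK A (M' * q * q)) (vC M' q A ζ) (FQ2C.tC M' q)

/-- the chart ring `B° = B_{1/t} ⊆ FK`. -/
abbrev BFinf : Subring (NRM.Inst.FK A (M' * q * q)) :=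
  Bu Qb (NRM.Inst.FK A (M' * q * q)) (vC M' q A ζ) (FQ2C.tC M' q)⁻¹

variable {M' q}
variable (hM : AdmLevel M') (hq : q.Prime) (hqM : ¬ q ∣ M') (hA : A.LiesOverPrime q)
  (hζ : IsPrimitiveRoot ζ q)
include hM hq hqM hA hζ

/-- **the chart `(x, t, ξ)`.** -/
theorem chartF : ChartK Qb (rho A M') (rhoC M' q A ζ) (al M' q) (ga M' q) (NRM.Inst.FK A M')
    (NRM.Inst.FK A (M' * q * q)) q (xF M') (FQ2C.tC M' q) (xR (kA A) M') := by
  rw [← EC_eq_FK, ← EC_eq_FK]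
  exact chartC A ζ hM hq hqM hA hζ

/-- **the chart `(x⁻¹, t⁻¹, ξ⁻¹)`.** -/
theorem chartF_inv : ChartK Qb (rho A M') (rhoC M' q A ζ) (al M' q) (ga M' q) (NRM.Inst.FK A M')
    (NRM.Inst.FK A (M' * q * q)) q (xF M')⁻¹ (FQ2C.tC M' q)⁻¹ (xR (kA A) M')⁻¹ := by
  rw [← EC_eq_FK, ← EC_eq_FK]
  exact chartC_inv A ζ hM hq hqM hA hζ

/-- **`NS.Vert` for `B = B_t`.** -/
theorem vertF (i₀ : (ZMod q)ˣ) :
    NS.Vert (BF M' q A ζ) (v3 (NRM.Inst.FK A (M' * q * q)) (vC M' q A ζ) i₀)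
      (pK Qb (NRM.Inst.FK A (M' * q * q)) (vC M' q A ζ) (FQ2C.tC M' q) i₀) :=
  vert (lvl2 A ζ hq hqM hA hζ) (chartF A ζ hM hq hqM hA hζ) hq.two_le (arch_C A ζ hq hA)
    (RP.isDedekindDomain_RC M' q hM hq hqM A hA) i₀

/-- **`NS.Vert` for `B° = B_{1/t}`.** -/
theorem vertF_inv (i₀ : (ZMod q)ˣ) :
    NS.Vert (BFinf M' q A ζ) (v3 (NRM.Inst.FK A (M' * q * q)) (vC M' q A ζ) i₀)
      (pK Qb (NRM.Inst.FK A (M' * q * q)) (vC M' q A ζ) (FQ2C.tC M' q)⁻¹ i₀) :=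
  vert (lvl2 A ζ hq hqM hA hζ) (chartF_inv A ζ hM hq hqM hA hζ) hq.two_le (arch_C A ζ hq hA)
    (RP.isDedekindDomain_RCinf M' q hM hq hqM A hA) i₀

/-- (KR) for `B_t`, `π = q` (as an element of the ring: any `π` whose image in `F` is the constant `q`). -/
theorem krF (i₀ : (ZMod q)ˣ) (π : BF M' q A ζ)
    (hπ : ((π : NRM.Inst.FK A (M' * q * q)) : FN (M' * q * q)) = algebraMap Qb _ (q : Qb))
    (z : NRM.Inst.FK A (M' * q * q)) (h1 : ∃ N : ℕ, ((π : NRM.Inst.FK A (M' * q * q))) ^ N * z ∈ BF M' q A ζ)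
    (h2 : ∀ j, v3 (NRM.Inst.FK A (M' * q * q)) (vC M' q A ζ) i₀ j z ≤ 1) : z ∈ BF M' q A ζ :=
  kr (chartF A ζ hM hq hqM hA hζ) i₀ (q : Qb) (Nat.cast_ne_zero.2 hq.ne_zero) π hπ z h1 h2

/-- (KR) for `B_{1/t}`, `π = q`. -/
theorem krF_inv (i₀ : (ZMod q)ˣ) (π : BFinf M' q A ζ)
    (hπ : ((π : NRM.Inst.FK A (M' * q * q)) : FN (M' * q * q)) = algebraMap Qb _ (q : Qb))
    (z : NRM.Inst.FK A (M' * q * q))
    (h1 : ∃ N : ℕ, ((π : NRM.Inst.FK A (M' * q * q))) ^ N * z ∈ BFinf M' q A ζ)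
    (h2 : ∀ j, v3 (NRM.Inst.FK A (M' * q * q)) (vC M' q A ζ) i₀ j z ≤ 1) : z ∈ BFinf M' q A ζ :=
  kr (chartF_inv A ζ hM hq hqM hA hζ) i₀ (q : Qb) (Nat.cast_ne_zero.2 hq.ne_zero) π hπ z h1 h2

end Fermat.Agent.CAR.BK
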