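import Fermat.Agent.CAR.BK.Vert
import Fermat.Agent.CAR.NS.Asm

/-!
# CAR / BK : the chart at infinity `B° = B_(1/t)`, `t = α x * γ x`, in the BK language  (blueprint (S4), (S5))

* `exists_sInf`    : `s = 1/t` as an element of `B°`
* `one_inf`        : hypothesis `ONE` of `NS.chart_inf` (the branches are disjoint at infinity)
* `exists_shift`   : hypothesis `hs` of `NS.chart_inf` (a section `G ≡ 1` on the chart `t` gives a section `≡ s^m` on the chart `1/t`)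
-/

set_option autoImplicit false

open Polynomial ModularCurve AlgebraicCurve

noncomputable section

namespace Fermat.Agent.CAR.BK

open Fermat.Agent.GAL.KL Fermat.Agent.GAL.KLC Fermat.Agent.TOR.T1 Fermat.Agent.CAR.ON
open Fermat.Agent.GAL Fermat.Agent.CAR

variable {K F₀ F k Γ' Γ₀ I : Type*} [Field K] [Field F₀] [Field F] [Algebra K F₀]
  [Algebra K F] [Field k] [LinearOrderedCommGroupWithZero Γ'] [LinearOrderedCommGroupWithZero Γ₀]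
  {v₀ : Valuation F₀ Γ'} {ρ₀ : v₀.integer →+* LaurentSeries k}
  {v : Idx I → Valuation F Γ₀} {ρ : ∀ i, (v i).integer →+* LaurentSeries k}
  {α β γ : F₀ →ₐ[K] F} {q : ℕ} [NeZero q] {E₀ : Subfield F₀} {E : Subfield F}
  {x : F₀} {ξ : LaurentSeries k}

theorem Inf_id1 {L : Type*} [Field L] {ξ : L} (hξ : ξ ≠ 0) (N : ℕ) :
    (ξ / ξ ^ (N + 1)) ^ 2 = ((ξ * ξ)⁻¹) ^ N := by
  have h : ξ / ξ ^ (N + 1) = (ξ ^ N)⁻¹ := by rw [pow_succ, div_mul_cancel_right₀ hξ]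
  rw [h, inv_pow, inv_pow, ← pow_mul, ← pow_two, ← pow_mul, mul_comm]

theorem Inf_id2 {L : Type*} [Field L] {ξ : L} (hξ : ξ ≠ 0) (N : ℕ) :
    (ξ / (ξ ^ (N + 1)) ^ (N + 1)) ^ 1 = ((ξ ^ (N + 1) * ξ)⁻¹) ^ N := by
  have h : (N + 1) * (N + 1) = (N + 1 + 1) * N + 1 := by ring
  rw [pow_one, ← pow_mul, ← pow_succ, inv_pow, ← pow_mul, h, pow_succ, div_mul_cancel_right₀ hξ]

/-- the reductions of `α x`, `γ x` at all indices, as a function of the index. -/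
def Inf_rα (q : ℕ) (ξ : LaurentSeries k) : Idx I → LaurentSeries k
  | none => ξ
  | some none => ξ ^ (q * q)
  | some (some _) => ξ

/-- the reductions of `γ x`. -/
def Inf_rγ (q : ℕ) (ξ : LaurentSeries k) : Idx I → LaurentSeries k
  | none => ξ ^ (q * q)
  | some none => ξ
  | some (some _) => ξ

theorem Inf_VV (hV : qExpand k q ξ = ξ ^ q) : qExpand k q (qExpand k q ξ) = ξ ^ (q * q) := by
  rw [hV, map_pow, hV, ← pow_mul]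

theorem Inf_rd_α (H : Lvl2 K ρ₀ v ρ α β γ q) (hx : Rd ρ₀ x ξ) (hV : qExpand k q ξ = ξ ^ q)
    (i : Idx I) : Rd (ρ i) (α x) (Inf_rα q ξ i) := by
  rcases i with _ | _ | i
  · exact H.ooα x ξ hx
  · have := H.zrα x ξ hx
    rwa [Inf_VV hV] at this
  · exact H.mdα i x ξ hx

theorem Inf_rd_γ (H : Lvl2 K ρ₀ v ρ α β γ q) (hx : Rd ρ₀ x ξ) (hV : qExpand k q ξ = ξ ^ q)
    (i : Idx I) : Rd (ρ i) (γ x) (Inf_rγ q ξ i) := by
  rcases i with _ | _ | i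
  · have := H.ooγ x ξ hx
    rwa [Inf_VV hV] at this
  · exact H.zrγ x ξ hx
  · exact H.mdγ i x ξ hx

omit [NeZero q] in
theorem Inf_rα_ne (hξ : ξ ≠ 0) (i : Idx I) : Inf_rα q ξ i ≠ 0 := by
  rcases i with _ | _ | i
  · exact hξ
  · exact pow_ne_zero _ hξ
  · exact hξ

omit [NeZero q] in
theorem Inf_rγ_ne (hξ : ξ ≠ 0) (i : Idx I) : Inf_rγ q ξ i ≠ 0 := by
  rcases i with _ | _ | i
  · exact pow_ne_zero _ hξ
  · exact hξ
  · exact hξ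

/-- the reduction of `s = 1/t`. -/
theorem Inf_rd_s (H : Lvl2 K ρ₀ v ρ α β γ q) (hx : Rd ρ₀ x ξ) (hξ : ξ ≠ 0)
    (hV : qExpand k q ξ = ξ ^ q) (i : Idx I) :
    Rd (ρ i) (tt α γ x)⁻¹ (Inf_rα q ξ i * Inf_rγ q ξ i)⁻¹ :=
  ((Inf_rd_α H hx hV i).mul (Inf_rd_γ H hx hV i)).inv (H.red i)
    (mul_ne_zero (Inf_rα_ne hξ i) (Inf_rγ_ne hξ i))

theorem Inf_v_t (H : Lvl2 K ρ₀ v ρ α β γ q) (hx : Rd ρ₀ x ξ) (hξ : ξ ≠ 0)
    (hV : qExpand k q ξ = ξ ^ q) (i : Idx I) : v i (tt α γ x)⁻¹ = 1 :=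
  (Inf_rd_s H hx hξ hV i).v_eq_one (H.red i)
    (inv_ne_zero (mul_ne_zero (Inf_rα_ne hξ i) (Inf_rγ_ne hξ i)))

theorem Inf_t_ne (H : Lvl2 K ρ₀ v ρ α β γ q) (hx : Rd ρ₀ x ξ) (hξ : ξ ≠ 0)
    (hV : qExpand k q ξ = ξ ^ q) : tt α γ x ≠ 0 := by
  intro h
  have := Inf_v_t H hx hξ hV (oo : Idx I)
  rw [h, inv_zero, map_zero] at this
  exact zero_ne_one this

/-- `s = 1/t` as an element of `B°`. -/
theorem exists_sInf (H : Lvl2 K ρ₀ v ρ α β γ q) (hαE : α x ∈ E) (hγE : γ x ∈ E) (hx : Rd ρ₀ x ξ)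
    (hξ : ξ ≠ 0) (hV : qExpand k q ξ = ξ ^ q) :
    ∃ s : Bu K E v (tt α γ x)⁻¹, ((s : E) : F) = (tt α γ x)⁻¹ := by
  have hE : (tt α γ x)⁻¹ ∈ E := E.inv_mem (E.mul_mem hαE hγE)
  refine ⟨⟨⟨_, hE⟩, ?_, fun i => (Inf_v_t H hx hξ hV i).le⟩, rfl⟩
  have h : IsInt K (tt α γ x)⁻¹ (aeval (tt α γ x)⁻¹ (X : K[X])) := IsInt.aeval X
  rwa [aeval_X] at h

/-- **(S5) in the BK language: the branches are disjoint at infinity.**  Only non formal input: `(P6)` = `h6`, `h6'`. -/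
theorem one_inf (H : Lvl2 K ρ₀ v ρ α β γ q) (hq : 2 ≤ q) (hαE : α x ∈ E) (hγE : γ x ∈ E)
    (hx : Rd ρ₀ x ξ) (hξ : ξ ≠ 0) (hV : qExpand k q ξ = ξ ^ q)
    (h6 : IsInt K (tt α γ x)⁻¹ (γ x / α x ^ (q * q)))
    (h6' : IsInt K (tt α γ x)⁻¹ (α x / γ x ^ (q * q))) (i₀ : I)
    (V : NS.Vert (Bu K E v (tt α γ x)⁻¹) (v3 E v i₀) (pK K E v (tt α γ x)⁻¹ i₀))
    (s : Bu K E v (tt α γ x)⁻¹) (hs : ((s : E) : F) = (tt α γ x)⁻¹) :
    ∀ P : Ideal (Bu K E v (tt α γ x)⁻¹), P.IsMaximal → s ∈ P → ∀ i j : Idx Unit,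
      pK K E v (tt α γ x)⁻¹ i₀ i ≤ P → pK K E v (tt α γ x)⁻¹ i₀ j ≤ P → i = j := by
  obtain ⟨N, hN⟩ : ∃ N, q * q = N + 1 := ⟨q * q - 1, by
    have : 4 ≤ q * q := by nlinarith
    omega⟩
  have hN0 : 0 < N := by
    have : 4 ≤ q * q := by nlinarith
    omega
  -- reductions of `z₁`, `z₂`
  have r1 : ∀ i : Idx I, Rd (ρ i) (γ x / α x ^ (q * q)) (Inf_rγ q ξ i / Inf_rα q ξ i ^ (q * q)) :=
    fun i => (Inf_rd_γ H hx hV i).div (H.red i) ((Inf_rd_α H hx hV i).pow _)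
      (pow_ne_zero _ (Inf_rα_ne hξ i))
  have r2 : ∀ i : Idx I, Rd (ρ i) (α x / γ x ^ (q * q)) (Inf_rα q ξ i / Inf_rγ q ξ i ^ (q * q)) :=
    fun i => (Inf_rd_α H hx hV i).div (H.red i) ((Inf_rd_γ H hx hV i).pow _)
      (pow_ne_zero _ (Inf_rγ_ne hξ i))
  have rs := Inf_rd_s H hx hξ hV
  have hE1 : γ x / α x ^ (q * q) ∈ E := E.div_mem hγE (E.pow_mem hαE _)
  have hE2 : α x / γ x ^ (q * q) ∈ E := E.div_mem hαE (E.pow_mem hγE _)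
  let z₁ : Bu K E v (tt α γ x)⁻¹ := ⟨⟨_, hE1⟩, h6, fun i => (r1 i).le_one⟩
  let z₂ : Bu K E v (tt α γ x)⁻¹ := ⟨⟨_, hE2⟩, h6', fun i => (r2 i).le_one⟩
  intro P hP hsP i j hi hj
  refine NS.one_branch V (o := oo) (m := md ()) (z := zr) Vert_idx_cases (s := s) (z₁ := z₁)
    (z₂ := z₂) hN0 ?_ ?_ ?_ ?_ ?_ ?_ hP.isPrime hsP i j hi hj
  · show v oo (γ x / α x ^ (q * q) - 1) < 1
    refine (r1 oo).sub_lt (H.red _) ?_
    have : Inf_rγ q ξ (oo : Idx I) / Inf_rα q ξ (oo : Idx I) ^ (q * q) = 1 :=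
      div_self (pow_ne_zero _ hξ)
    rw [this]
    exact Rd.one
  · show v (md i₀) ((γ x / α x ^ (q * q)) ^ 2 - ((s : E) : F) ^ N) < 1
    rw [hs]
    refine ((r1 (md i₀)).pow 2).sub_lt (H.red _) ?_
    have : (Inf_rγ q ξ (md i₀) / Inf_rα q ξ (md i₀) ^ (q * q)) ^ 2
        = ((Inf_rα q ξ (md i₀) * Inf_rγ q ξ (md i₀))⁻¹) ^ N := by
      show (ξ / ξ ^ (q * q)) ^ 2 = ((ξ * ξ)⁻¹) ^ N
      rw [hN]
      exact Inf_id1 hξ N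
    rw [this]
    exact (rs (md i₀)).pow N
  · show v zr ((γ x / α x ^ (q * q)) ^ 1 - ((s : E) : F) ^ N) < 1
    rw [hs]
    refine ((r1 zr).pow 1).sub_lt (H.red _) ?_
    have : (Inf_rγ q ξ (zr : Idx I) / Inf_rα q ξ (zr : Idx I) ^ (q * q)) ^ 1
        = ((Inf_rα q ξ (zr : Idx I) * Inf_rγ q ξ (zr : Idx I))⁻¹) ^ N := by
      show (ξ / (ξ ^ (q * q)) ^ (q * q)) ^ 1 = ((ξ ^ (q * q) * ξ)⁻¹) ^ N
      rw [hN]
      exact Inf_id2 hξ N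
    rw [this]
    exact (rs zr).pow N
  · show v zr (α x / γ x ^ (q * q) - 1) < 1
    refine (r2 zr).sub_lt (H.red _) ?_
    have : Inf_rα q ξ (zr : Idx I) / Inf_rγ q ξ (zr : Idx I) ^ (q * q) = 1 :=
      div_self (pow_ne_zero _ hξ)
    rw [this]
    exact Rd.one
  · show v (md i₀) ((α x / γ x ^ (q * q)) ^ 2 - ((s : E) : F) ^ N) < 1
    rw [hs]
    refine ((r2 (md i₀)).pow 2).sub_lt (H.red _) ?_
    have : (Inf_rα q ξ (md i₀) / Inf_rγ q ξ (md i₀) ^ (q * q)) ^ 2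
        = ((Inf_rα q ξ (md i₀) * Inf_rγ q ξ (md i₀))⁻¹) ^ N := by
      show (ξ / ξ ^ (q * q)) ^ 2 = ((ξ * ξ)⁻¹) ^ N
      rw [hN]
      exact Inf_id1 hξ N
    rw [this]
    exact (rs (md i₀)).pow N
  · show v oo ((α x / γ x ^ (q * q)) ^ 1 - ((s : E) : F) ^ N) < 1
    rw [hs]
    refine ((r2 oo).pow 1).sub_lt (H.red _) ?_
    have : (Inf_rα q ξ (oo : Idx I) / Inf_rγ q ξ (oo : Idx I) ^ (q * q)) ^ 1
        = ((Inf_rα q ξ (oo : Idx I) * Inf_rγ q ξ (oo : Idx I))⁻¹) ^ N := by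
      show (ξ / (ξ ^ (q * q)) ^ (q * q)) ^ 1 = ((ξ * ξ ^ (q * q))⁻¹) ^ N
      rw [hN, mul_comm ξ]
      exact Inf_id2 hξ N
    rw [this]
    exact (rs oo).pow N

/-- **(S4) in the BK language**: a section `G ≡ 1` over the chart `t` gives a section `≡ s^m` over the chart `1/t`. -/
theorem exists_shift (H : Lvl2 K ρ₀ v ρ α β γ q) (hx : Rd ρ₀ x ξ) (hξ : ξ ≠ 0)
    (hV : qExpand k q ξ = ξ ^ q) (i₀ : I) (s : Bu K E v (tt α γ x)⁻¹)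
    (hs : ((s : E) : F) = (tt α γ x)⁻¹) {n : ℕ} (hn : 0 < n) {w : E}
    (hG : ∃ G ∈ NS.Lam (Bu K E v (tt α γ x)) n w, ∀ j, v3 E v i₀ j (G - 1) < 1) :
    ∃ m : ℕ, ∃ G ∈ NS.Lam (Bu K E v (tt α γ x)⁻¹) n w,
      ∀ j, v3 E v i₀ j (G - ((s : E)) ^ m) < 1 := by
  obtain ⟨G, hGL, hG1⟩ := hG
  have hb : G ^ n * w ∈ Bu K E v (tt α γ x) := hGL
  have ht : tt α γ x ≠ 0 := Inf_t_ne H hx hξ hV
  have hb1 : IsInt K ((tt α γ x)⁻¹)⁻¹ ((G ^ n * w : E) : F) := by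
    rw [inv_inv]
    exact hb.1
  obtain ⟨m₀, hm₀⟩ := IsInt.shift (inv_ne_zero ht) hb1
  have hvs : ∀ i, v i ((s : E) : F) = 1 := fun i => by rw [hs]; exact Inf_v_t H hx hξ hV i
  refine ⟨m₀, (s : E) ^ m₀ * G, ?_, fun j => ?_⟩
  · show ((s : E) ^ m₀ * G) ^ n * w ∈ Bu K E v (tt α γ x)⁻¹
    have e : ((s : E) ^ m₀ * G) ^ n * w = (s : E) ^ (m₀ * n) * (G ^ n * w) := by
      rw [mul_pow, ← pow_mul, mul_assoc]
    rw [e]
    refine ⟨?_, fun i => ?_⟩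
    · rw [Subfield.coe_mul, SubmonoidClass.coe_pow, hs]
      exact hm₀ _ (Nat.le_mul_of_pos_right m₀ hn)
    · rw [Subfield.coe_mul, SubmonoidClass.coe_pow, map_mul, map_pow, hvs, one_pow, one_mul]
      exact hb.2 i
  · have e : (s : E) ^ m₀ * G - (s : E) ^ m₀ = (s : E) ^ m₀ * (G - 1) := by ring
    rw [e, map_mul, map_pow, v3_apply, hvs, one_pow, one_mul]
    exact hG1 j

end Fermat.Agent.CAR.BK
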