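import Fermat.Agent.CAR.BK.ConcFK
import Fermat.Agent.CAR.BK.Inf

/-!
# CAR / BK / ConcInf : [INF-C] : `s = 1/t ∈ B°` and hypothesis `ONE` of `NS.chart_inf` / `CAR.Main.top_abs` at the concrete level
(instantiation of helper56's `BK/Inf.lean` at `FQ2C`; both for `E = FK A (M'q²)` and `E = EC A (M'q²)`).
-/

set_option autoImplicit false
set_option maxHeartbeats 400000

open ModularCurve AlgebraicCurve

noncomputable section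

namespace Fermat.Agent.CAR.BK

open Fermat.Agent.GR Fermat.Agent.GAL Fermat.Agent.GAL.KL Fermat.Agent.GAL.KLC Fermat.Agent.S24
open Fermat.Agent.S28 Fermat.Agent.GR.HeckeField Fermat.Agent.TOR Fermat.Agent.TOR.GB
open Fermat.Agent.CAR.FQ2V Fermat.Agent.CAR.FQ2E Fermat.Agent.CAR.FQ2C Fermat.Agent.CAR.ON
open Fermat.Agent.CAR.DESC

variable {M' q : ℕ} [NeZero M'] [NeZero q] (A : ValuationSubring Qb) (ζ : Qbˣ)
  (hM : AdmLevel M') (hq : q.Prime) (hqM : ¬ q ∣ M') (hA : A.LiesOverPrime q)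
  (hζ : IsPrimitiveRoot ζ q)

theorem al_xF_mem_FK : al M' q (xF M') ∈ NRM.Inst.FK A (M' * q * q) := by
  rw [← EC_eq_FK]
  exact al_mem_EC A (xF_mem_EC A M')

theorem ga_xF_mem_FK : ga M' q (xF M') ∈ NRM.Inst.FK A (M' * q * q) := by
  rw [← EC_eq_FK]
  exact ga_mem_EC A (xF_mem_EC A M')

include hM hq hqM hA hζ

/-- `s = 1/t ∈ B°` (`E = FK`). -/
theorem exists_sF : ∃ s : BFinf M' q A ζ,
    ((s : NRM.Inst.FK A (M' * q * q)) : FN (M' * q * q)) = (FQ2C.tC M' q)⁻¹ :=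
  exists_sInf (lvl2 A ζ hq hqM hA hζ) (al_xF_mem_FK A) (ga_xF_mem_FK A)
    (xDatC A hM hq hqM hA).rx (ON.xi_ne_zero (xDatC A hM hq hqM hA)) (xDatC A hM hq hqM hA).Vx

/-- **hypothesis `ONE`** for `B° = BFinf`. -/
theorem oneF (i₀ : (ZMod q)ˣ) (s : BFinf M' q A ζ)
    (hs : ((s : NRM.Inst.FK A (M' * q * q)) : FN (M' * q * q)) = (FQ2C.tC M' q)⁻¹) :
    ∀ P : Ideal (BFinf M' q A ζ), P.IsMaximal → s ∈ P → ∀ i j : ON.Idx Unit,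
      pK Qb (NRM.Inst.FK A (M' * q * q)) (vC M' q A ζ) (FQ2C.tC M' q)⁻¹ i₀ i ≤ P →
      pK Qb (NRM.Inst.FK A (M' * q * q)) (vC M' q A ζ) (FQ2C.tC M' q)⁻¹ i₀ j ≤ P → i = j :=
  one_inf (lvl2 A ζ hq hqM hA hζ) hq.two_le (al_xF_mem_FK A) (ga_xF_mem_FK A)
    (xDatC A hM hq hqM hA).rx (ON.xi_ne_zero (xDatC A hM hq hqM hA)) (xDatC A hM hq hqM hA).Vx
    (BKP.isInt_inv_gaC_div hM hq hqM A hA) (BKP.isInt_inv_alC_div hM hq hqM A hA) i₀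
    (vertF_inv A ζ hM hq hqM hA hζ i₀) s hs

/-- the shift (hypothesis `hs` of `NS.chart_inf`) for `BF → BFinf`. -/
theorem exists_shiftF (i₀ : (ZMod q)ˣ) (s : BFinf M' q A ζ)
    (hs : ((s : NRM.Inst.FK A (M' * q * q)) : FN (M' * q * q)) = (FQ2C.tC M' q)⁻¹)
    {n : ℕ} (hn : 0 < n) {w : NRM.Inst.FK A (M' * q * q)}
    (hG : ∃ G ∈ NS.Lam (BF M' q A ζ) n w,
      ∀ j, v3 (NRM.Inst.FK A (M' * q * q)) (vC M' q A ζ) i₀ j (G - 1) < 1) :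
    ∃ m : ℕ, ∃ G ∈ NS.Lam (BFinf M' q A ζ) n w,
      ∀ j, v3 (NRM.Inst.FK A (M' * q * q)) (vC M' q A ζ) i₀ j
        (G - ((s : NRM.Inst.FK A (M' * q * q))) ^ m) < 1 :=
  exists_shift (lvl2 A ζ hq hqM hA hζ)
    (xDatC A hM hq hqM hA).rx (ON.xi_ne_zero (xDatC A hM hq hqM hA)) (xDatC A hM hq hqM hA).Vx
    i₀ s hs hn hG

/-- `s = 1/t ∈ B°` (`E = EC`). -/
theorem exists_sC : ∃ s : BCinf M' q A ζ,
    ((s : EC A (M' * q * q)) : FN (M' * q * q)) = (FQ2C.tC M' q)⁻¹ :=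
  exists_sInf (lvl2 A ζ hq hqM hA hζ) (al_mem_EC A (xF_mem_EC A M')) (ga_mem_EC A (xF_mem_EC A M'))
    (xDatC A hM hq hqM hA).rx (ON.xi_ne_zero (xDatC A hM hq hqM hA)) (xDatC A hM hq hqM hA).Vx

/-- **hypothesis `ONE`** for `B° = BCinf`. -/
theorem oneC (i₀ : (ZMod q)ˣ) (s : BCinf M' q A ζ)
    (hs : ((s : EC A (M' * q * q)) : FN (M' * q * q)) = (FQ2C.tC M' q)⁻¹) :
    ∀ P : Ideal (BCinf M' q A ζ), P.IsMaximal → s ∈ P → ∀ i j : ON.Idx Unit,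
      pK Qb (EC A (M' * q * q)) (vC M' q A ζ) (FQ2C.tC M' q)⁻¹ i₀ i ≤ P →
      pK Qb (EC A (M' * q * q)) (vC M' q A ζ) (FQ2C.tC M' q)⁻¹ i₀ j ≤ P → i = j :=
  one_inf (lvl2 A ζ hq hqM hA hζ) hq.two_le (al_mem_EC A (xF_mem_EC A M'))
    (ga_mem_EC A (xF_mem_EC A M'))
    (xDatC A hM hq hqM hA).rx (ON.xi_ne_zero (xDatC A hM hq hqM hA)) (xDatC A hM hq hqM hA).Vx
    (BKP.isInt_inv_gaC_div hM hq hqM A hA) (BKP.isInt_inv_alC_div hM hq hqM A hA) i₀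
    (vertC_inv A ζ hM hq hqM hA hζ i₀) s hs

end Fermat.Agent.CAR.BK
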