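import Fermat.Agent.CAR.ON.Defs
import Fermat.Agent.CAR.NS.Defs
import Fermat.Agent.CAR.RP.Defs
import Fermat.Agent.GAL.CTV.WDefs

/-!
# CAR / BK : the concrete chart ring `B ⊆ F_K` and the instance of `NS.Vert`.  Definitions (no sorry).

ABSTRACT SETTING = `ON.Lvl2` (three-level datum `F₀ = F(M')`, `F = F(q²M')`, `α γ : F₀ → F` = `f(τ)`, `f(q²τ)`,
family `v i`, `ρ i`, `i ∈ Idx I`) + two subfields `E₀ ⊆ F₀`, `E ⊆ F` (the elements fixed by the inertia group,
"`K`-rational elements", `K = ℚ̄^I`).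
One chart is a triple `(u₀, u, η) = (x, t, ξ)` or `(x⁻¹, t⁻¹, ξ⁻¹)`, `t = α x * γ x`.

* `Bu K E v u`   : `{z ∈ E | z integral over ℚ̄[u], v i z ≤ 1 for all i}`, a subring of `E`
* `v3 E v i₀ j`  : the three vertical valuations of `E`, `j ∈ Idx Unit` (`oo`, `md ()`, `zr`)
* `pK … j`       : the vertical primes
* `rK … j`       : the reduction maps `Bu → k((Q))`
-/

set_option autoImplicit false

open Polynomial ModularCurve AlgebraicCurve

noncomputable section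

namespace Fermat.Agent.CAR.BK

open Fermat.Agent.GAL.KL Fermat.Agent.GAL.KLC Fermat.Agent.TOR.T1 Fermat.Agent.CAR.ON

variable (K : Type*) {F₀ F k Γ' Γ₀ I : Type*} [Field K] [Field F₀] [Field F] [Algebra K F₀]
  [Algebra K F] [Field k] [LinearOrderedCommGroupWithZero Γ'] [LinearOrderedCommGroupWithZero Γ₀]

/-- `Idx Unit → Idx I`: `oo ↦ oo`, `md () ↦ md i₀`, `zr ↦ zr`. -/
def l3 (i₀ : I) : Idx Unit → Idx I := Option.map (Option.map fun _ => i₀)

@[simp] theorem l3_oo (i₀ : I) : l3 i₀ oo = oo := rfl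
@[simp] theorem l3_zr (i₀ : I) : l3 i₀ zr = zr := rfl
@[simp] theorem l3_md (i₀ : I) (u : Unit) : l3 i₀ (md u) = md i₀ := rfl

/-- the chart ring `B_u ⊆ E`. -/
def Bu (E : Subfield F) (v : Idx I → Valuation F Γ₀) (u : F) : Subring E where
  carrier := {z | IsInt K u (z : F) ∧ ∀ i, v i (z : F) ≤ 1}
  mul_mem' := fun h h' => ⟨h.1.mul h'.1, fun i => by
    rw [Subfield.coe_mul, map_mul]; exact mul_le_one' (h.2 i) (h'.2 i)⟩
  one_mem' := ⟨IsInt.one, fun i => by rw [Subfield.coe_one, map_one]⟩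
  add_mem' := fun h h' => ⟨h.1.add h'.1, fun i => by
    rw [Subfield.coe_add]; exact (Valuation.map_add _ _ _).trans (max_le (h.2 i) (h'.2 i))⟩
  zero_mem' := ⟨IsInt.zero, fun i => by rw [Subfield.coe_zero, map_zero]; exact zero_le⟩
  neg_mem' := fun h => ⟨h.1.neg, fun i => by rw [Subfield.coe_neg, Valuation.map_neg]; exact h.2 i⟩

variable {K}

theorem mem_Bu {E : Subfield F} {v : Idx I → Valuation F Γ₀} {u : F} {z : E} :
    z ∈ Bu K E v u ↔ IsInt K u (z : F) ∧ ∀ i, v i (z : F) ≤ 1 := Iff.rfl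

/-- the three vertical valuations of `E`. -/
def v3 (E : Subfield F) (v : Idx I → Valuation F Γ₀) (i₀ : I) (j : Idx Unit) : Valuation E Γ₀ :=
  (v (l3 i₀ j)).comap E.subtype

@[simp] theorem v3_apply (E : Subfield F) (v : Idx I → Valuation F Γ₀) (i₀ : I) (j : Idx Unit) (z : E) :
    v3 E v i₀ j z = v (l3 i₀ j) (z : F) := rfl

variable (K) in
/-- the vertical primes of `B_u`. -/
def pK (E : Subfield F) (v : Idx I → Valuation F Γ₀) (u : F) (i₀ : I) (j : Idx Unit) :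
    Ideal (Bu K E v u) where
  carrier := {z | v (l3 i₀ j) ((z : E) : F) < 1}
  add_mem' := fun h h' => lt_of_le_of_lt (Valuation.map_add _ _ _) (max_lt h h')
  zero_mem' := by
    show v (l3 i₀ j) (0 : F) < 1
    rw [map_zero]; exact zero_lt_one
  smul_mem' := fun c z h => by
    show v (l3 i₀ j) (((c : E) : F) * ((z : E) : F)) < 1
    rw [map_mul]
    exact lt_of_le_of_lt (mul_le_of_le_one_left' (c.2.2 _)) h

theorem mem_pK {E : Subfield F} {v : Idx I → Valuation F Γ₀} {u : F} {i₀ : I} {j : Idx Unit}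
    {z : Bu K E v u} : z ∈ pK K E v u i₀ j ↔ v3 E v i₀ j (z : E) < 1 := Iff.rfl

variable (K) in
/-- the reduction maps `B_u → k((Q))`. -/
def rK (E : Subfield F) {v : Idx I → Valuation F Γ₀} (ρ : ∀ i, (v i).integer →+* LaurentSeries k)
    (u : F) (i₀ : I) (j : Idx Unit) : Bu K E v u →+* LaurentSeries k :=
  (ρ (l3 i₀ j)).comp
    { toFun := fun z => ⟨((z : E) : F), z.2.2 _⟩
      map_one' := rfl
      map_mul' := fun _ _ => rfl
      map_zero' := rfl
      map_add' := fun _ _ => rfl }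

theorem rd_rK (E : Subfield F) {v : Idx I → Valuation F Γ₀}
    (ρ : ∀ i, (v i).integer →+* LaurentSeries k) (u : F) (i₀ : I) (j : Idx Unit) (z : Bu K E v u) :
    Rd (ρ (l3 i₀ j)) ((z : E) : F) (rK K E ρ u i₀ j z) := ⟨z.2.2 _, rfl⟩

variable (K) in
/-- **the hypotheses on one chart** `(u₀, u, η) = (x, t, ξ)` or `(x⁻¹, t⁻¹, ξ⁻¹)`. -/
structure ChartK {v₀ : Valuation F₀ Γ'} (ρ₀ : v₀.integer →+* LaurentSeries k)
    {v : Idx I → Valuation F Γ₀} (ρ : ∀ i, (v i).integer →+* LaurentSeries k)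
    (α γ : F₀ →ₐ[K] F) (E₀ : Subfield F₀) (E : Subfield F) (q : ℕ) [NeZero q]
    (u₀ : F₀) (u : F) (η : LaurentSeries k) : Prop where
  /-- rationality -/
  αE : ∀ c ∈ E₀, α c ∈ E
  γE : ∀ c ∈ E₀, γ c ∈ E
  u₀E : u₀ ∈ E₀
  /-- the parameter -/
  ru : Rd ρ₀ u₀ η
  Vη : qExpand k q η = η ^ q
  oη : η.order ≠ 0
  /-- on `E` the reduction at a middle index does not depend on the index -/
  mdc : ∀ z ∈ E, ∀ (i j : I) (φ : LaurentSeries k), Rd (ρ (md i)) z φ → Rd (ρ (md j)) z φ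
  /-- the residue fields of `E` are the residue field of level `M'` -/
  res : ∀ z ∈ E, ∀ (i : Idx I) (φ : LaurentSeries k), Rd (ρ i) z φ → ∃ c, Rd ρ₀ c φ
  /-- integrality passes to the reductions -/
  ir : ∀ (z : F) (i : Idx I) (φ : LaurentSeries k), IsInt K u z → (∀ j, v j z ≤ 1) → Rd (ρ i) z φ →
    IsInt k η φ
  /-- rational lifts -/
  lift : ∀ c φ, Rd ρ₀ c φ → IsInt k η φ → ∃ c' ∈ E₀, IsInt K u₀ c' ∧ Rd ρ₀ c' φ
  /-- every element of the residue field is a fraction of elements of the reduced chart ring -/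
  fr : ∀ c φ, Rd ρ₀ c φ → ∃ b s : LaurentSeries k, s ≠ 0 ∧ (∃ c', Rd ρ₀ c' b) ∧ IsInt k η b ∧
    (∃ c', Rd ρ₀ c' s) ∧ IsInt k η s ∧ s * φ = b
  /-- integrality transfer -/
  intα : ∀ c, IsInt K u₀ c → IsInt K u (α c)
  intγ : ∀ c, IsInt K u₀ c → IsInt K u (γ c)

end Fermat.Agent.CAR.BK
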