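import Fermat.Agent.CAR.BK.ConcFK
import Fermat.Agent.CAR.DESC.HG
import Fermat.Agent.GAL.KLC.LocPow

/-!
# CAR / BK / ConcKR : for the concrete chart rings `BC`, `BCinf` (`E = EC A N = DESC.EF I N`) and `BF`, `BFinf` (`E = NRM.Inst.FK A N`):

* `π := (q : B)` : `coe_piC`, `piC_ne_zero`, `v3_q_lt_one` (hypotheses `hπ0`, `hqv` of `NS.chart_main` / `NS.chart_inf`);
* `krC`, `krC_inv` (`krF'`, `krF_inv'`) : hypothesis (KR) in the verbatim shape of `NS.chart_main`, `π = q`;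
* `hgC`, `hgC_inv` (`hgF`, `hgF_inv`) : hypothesis (HG) in the verbatim shape of `NS.chart_main`, `π = q`, for every `w ≠ 0` of `E` with
  `n ∣ ord_P w` at all places `P` of `FN (M' q²)` over `ℚ̄`.
-/

set_option autoImplicit false

open ModularCurve AlgebraicCurve

noncomputable section

namespace Fermat.Agent.CAR.BK

open Fermat.Agent.GR Fermat.Agent.GAL Fermat.Agent.GAL.KL Fermat.Agent.GAL.KLC Fermat.Agent.S24
open Fermat.Agent.S28 Fermat.Agent.GR.HeckeField Fermat.Agent.TOR Fermat.Agent.TOR.GB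
open Fermat.Agent.CAR.FQ2V Fermat.Agent.CAR.FQ2E Fermat.Agent.CAR.FQ2C Fermat.Agent.CAR.ON
open Fermat.Agent.CAR.DESC

variable {M' q : ℕ} [NeZero M'] [NeZero q] (A : ValuationSubring Qb) (ζ : Qbˣ)

/-! ## `π = q` -/

/-- `q` is small for all the valuations of the family. -/
theorem vC_natCast_q_lt_one (hA : A.LiesOverPrime q) (i : FQ2V.Idx q) :
    vC M' q A ζ i (q : FN (M' * q * q)) < 1 :=
  vOf_prime_lt_one A (famC M' q ζ i) hA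

/-- hypothesis `hqv` of `NS.chart_main`, any subfield `E`. -/
theorem v3_q_lt_one (hA : A.LiesOverPrime q) (E : Subfield (FN (M' * q * q))) (i₀ : (ZMod q)ˣ)
    (j : ON.Idx Unit) : v3 E (vC M' q A ζ) i₀ j (q : E) < 1 :=
  vC_natCast_q_lt_one A ζ hA _

/-- hypothesis `hπ0` of `NS.chart_main`, any subfield `E`, any chart. -/
theorem natCast_Bu_ne_zero (hq : q.Prime) (E : Subfield (FN (M' * q * q))) (u : FN (M' * q * q)) :
    ((q : ℕ) : Bu Qb E (vC M' q A ζ) u) ≠ 0 := by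
  intro h
  have h1 := congrArg (fun z : Bu Qb E (vC M' q A ζ) u => ((z : E) : FN (M' * q * q))) h
  have h2 : ((q : ℕ) : FN (M' * q * q)) = 0 := h1
  exact hq.ne_zero (Nat.cast_eq_zero.1 h2)

/-- `π = q` is small, in the shape used by `DESC.hg_Bu` / `FG.hg_Bu`. -/
theorem vC_natCast_Bu_lt_one (hA : A.LiesOverPrime q) (E : Subfield (FN (M' * q * q)))
    (u : FN (M' * q * q)) (i : FQ2V.Idx q) :
    vC M' q A ζ i ((((q : ℕ) : Bu Qb E (vC M' q A ζ) u) : E) : FN (M' * q * q)) < 1 :=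
  vC_natCast_q_lt_one A ζ hA i

/-! ## (HG), abstractly in the chart parameter -/

/-- (HG) for `Bu ℚ̄ (EC A N) vC u`, `u ∈ EC` transcendental, `π = q`. -/
theorem hg_EC (hq : q.Prime) (hA : A.LiesOverPrime q) {u : FN (M' * q * q)}
    (hu : u ∈ EC A (M' * q * q)) (htr : Transcendental Qb u) {n : ℕ} (hn : 0 < n)
    {w : EC A (M' * q * q)} (hw : w ≠ 0)
    (hP : ∀ P : Place Qb (FN (M' * q * q)), (n : ℤ) ∣ P.ord (w : FN (M' * q * q))) :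
    ∃ (N m : ℕ) (φ : Fin m → Fin n → EC A (M' * q * q)),
      (∀ k j, φ k j ∈ NS.Lam (Bu Qb (EC A (M' * q * q)) (vC M' q A ζ) u) n w) ∧
      (∑ k, ∏ j, φ k j) * w
        = (((q : ℕ) : Bu Qb (EC A (M' * q * q)) (vC M' q A ζ) u) : EC A (M' * q * q)) ^ N := by
  have hw' : (w : FN (M' * q * q)) ≠ 0 := fun h => hw (Subtype.ext h)
  exact DESC.hg_Bu (H := IA A) (N := M' * q * q) (v := vC M' q A ζ) (arch_C A ζ hq hA) ⟨u, hu⟩ w
    ((q : ℕ) : Bu Qb (EC A (M' * q * q)) (vC M' q A ζ) u)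
    (vC_natCast_Bu_lt_one A ζ hA _ u) hn hw (fun c => locPow_of_dvd htr hn hw' hP c)

/-- (HG) for `Bu ℚ̄ (FK A N) vC u`. -/
theorem hg_FK (hq : q.Prime) (hA : A.LiesOverPrime q) {u : FN (M' * q * q)}
    (hu : u ∈ NRM.Inst.FK A (M' * q * q)) (htr : Transcendental Qb u) {n : ℕ} (hn : 0 < n)
    {w : NRM.Inst.FK A (M' * q * q)} (hw : w ≠ 0)
    (hP : ∀ P : Place Qb (FN (M' * q * q)), (n : ℤ) ∣ P.ord (w : FN (M' * q * q))) :
    ∃ (N m : ℕ) (φ : Fin m → Fin n → NRM.Inst.FK A (M' * q * q)),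
      (∀ k j, φ k j ∈ NS.Lam (Bu Qb (NRM.Inst.FK A (M' * q * q)) (vC M' q A ζ) u) n w) ∧
      (∑ k, ∏ j, φ k j) * w
        = (((q : ℕ) : Bu Qb (NRM.Inst.FK A (M' * q * q)) (vC M' q A ζ) u) :
            NRM.Inst.FK A (M' * q * q)) ^ N := by
  have key : ∀ (E : Subfield (FN (M' * q * q))), EC A (M' * q * q) = E → u ∈ E → ∀ w : E, w ≠ 0 →
      (∀ P : Place Qb (FN (M' * q * q)), (n : ℤ) ∣ P.ord (w : FN (M' * q * q))) →
      ∃ (N m : ℕ) (φ : Fin m → Fin n → E),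
        (∀ k j, φ k j ∈ NS.Lam (Bu Qb E (vC M' q A ζ) u) n w) ∧
        (∑ k, ∏ j, φ k j) * w = (((q : ℕ) : Bu Qb E (vC M' q A ζ) u) : E) ^ N := by
    rintro E rfl hu w hw hP
    exact hg_EC A ζ hq hA hu htr hn hw hP
  exact key _ (EC_eq_FK A _) hu w hw hP

/-! ## the generic fibre form (input of `FG.hg_Bu`) -/

omit [NeZero M'] [NeZero q] in
/-- generic fibre form of (HG) for `E = EC A N`: `1 = (∑ ∏ φ) w` with `φ ∈ E`, `φ^n w` integral over `ℚ̄[u]`. -/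
theorem hgGen_EC {N : ℕ} [NeZero N] {u : FN N} (hu : u ∈ EC A N) (htr : Transcendental Qb u) {n : ℕ}
    (hn : 0 < n) (w : EC A N) (hw : w ≠ 0)
    (hP : ∀ P : Place Qb (FN N), (n : ℤ) ∣ P.ord (w : FN N)) :
    ∃ (r : ℕ) (φ : Fin r → Fin n → EC A N),
      (∀ k j, (φ k j : FN N) ∈ II Qb u n (w : FN N)) ∧ (∑ k, ∏ j, φ k j) * w = 1 := by
  have hw' : (w : FN N) ≠ 0 := fun h => hw (Subtype.ext h)
  obtain ⟨m, φ, hφ, h⟩ := DESC.exists_sum_prod hn hw' (fun c => locPow_of_dvd htr hn hw' hP c)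
  exact DESC.exists_sum_prod_fixed (H := IA A) ⟨u, hu⟩ w hn φ hφ h

omit [NeZero M'] [NeZero q] in
/-- generic fibre form of (HG) for `E = FK A N`. -/
theorem hgGen_FK {N : ℕ} [NeZero N] {u : FN N} (hu : u ∈ NRM.Inst.FK A N)
    (htr : Transcendental Qb u) {n : ℕ} (hn : 0 < n) (w : NRM.Inst.FK A N) (hw : w ≠ 0)
    (hP : ∀ P : Place Qb (FN N), (n : ℤ) ∣ P.ord (w : FN N)) :
    ∃ (r : ℕ) (φ : Fin r → Fin n → NRM.Inst.FK A N),
      (∀ k j, (φ k j : FN N) ∈ II Qb u n (w : FN N)) ∧ (∑ k, ∏ j, φ k j) * w = 1 := by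
  have key : ∀ (E : Subfield (FN N)), EC A N = E → u ∈ E → ∀ w : E, w ≠ 0 →
      (∀ P : Place Qb (FN N), (n : ℤ) ∣ P.ord (w : FN N)) →
      ∃ (r : ℕ) (φ : Fin r → Fin n → E),
        (∀ k j, (φ k j : FN N) ∈ II Qb u n (w : FN N)) ∧ (∑ k, ∏ j, φ k j) * w = 1 := by
    rintro E rfl hu w hw hP
    exact hgGen_EC A hu htr hn w hw hP
  exact key _ (EC_eq_FK A _) hu w hw hP

/-! ## divisibility of the divisor of `w = h^c a z^n` -/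

/-- `n ∣ div h ⇒ n ∣ div (h^c a z^n)`, and `h^c a z^n ≠ 0`. -/
theorem dvd_ord_of_shape {K F : Type*} [Field K] [Field F] [Algebra K F] {n : ℕ} {h : F}
    (h0 : h ≠ 0) (hord : ∀ P : Place K F, (n : ℤ) ∣ P.ord h) {w : F} {c : ℕ} {a : K} {z : F}
    (ha : a ≠ 0) (hz : z ≠ 0) (hw : w = h ^ c * algebraMap K F a * z ^ n) :
    w ≠ 0 ∧ ∀ P : Place K F, (n : ℤ) ∣ P.ord w := by
  have haF : algebraMap K F a ≠ 0 := (map_ne_zero (algebraMap K F)).2 ha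
  refine ⟨by rw [hw]; exact mul_ne_zero (mul_ne_zero (pow_ne_zero _ h0) haF) (pow_ne_zero _ hz),
    fun P => ?_⟩
  rw [hw, P.ord_mul (mul_ne_zero (pow_ne_zero _ h0) haF) (pow_ne_zero _ hz),
    P.ord_mul (pow_ne_zero _ h0) haF, S24.FF.ord_algebraMap, S24.FF.ord_pow, S24.FF.ord_pow,
    add_zero]
  exact dvd_add (Dvd.dvd.mul_left (hord P) _) (Dvd.intro _ rfl)

variable (hM : AdmLevel M') (hq : q.Prime) (hqM : ¬ q ∣ M') (hA : A.LiesOverPrime q)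
  (hζ : IsPrimitiveRoot ζ q)
include hM hq hqM hA hζ

/-! ## (KR), verbatim shape of `NS.chart_main` -/

/-- (KR) for `BC = B_t`, `π = q`. -/
theorem krC (i₀ : (ZMod q)ˣ) (z : EC A (M' * q * q))
    (h1 : ∃ N : ℕ, (((q : ℕ) : BC M' q A ζ) : EC A (M' * q * q)) ^ N * z ∈ BC M' q A ζ)
    (h2 : ∀ j, v3 (EC A (M' * q * q)) (vC M' q A ζ) i₀ j z ≤ 1) : z ∈ BC M' q A ζ :=
  kr (chartC A ζ hM hq hqM hA hζ) i₀ (q : Qb) (Nat.cast_ne_zero.2 hq.ne_zero) _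
    (coe_natCast_Bu _ _ _ q) z h1 h2

/-- (KR) for `BCinf = B_{1/t}`, `π = q`. -/
theorem krC_inv (i₀ : (ZMod q)ˣ) (z : EC A (M' * q * q))
    (h1 : ∃ N : ℕ, (((q : ℕ) : BCinf M' q A ζ) : EC A (M' * q * q)) ^ N * z ∈ BCinf M' q A ζ)
    (h2 : ∀ j, v3 (EC A (M' * q * q)) (vC M' q A ζ) i₀ j z ≤ 1) : z ∈ BCinf M' q A ζ :=
  kr (chartC_inv A ζ hM hq hqM hA hζ) i₀ (q : Qb) (Nat.cast_ne_zero.2 hq.ne_zero) _
    (coe_natCast_Bu _ _ _ q) z h1 h2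

/-- (KR) for `BF = B_t`, `π = q`. -/
theorem krF' (i₀ : (ZMod q)ˣ) (z : NRM.Inst.FK A (M' * q * q))
    (h1 : ∃ N : ℕ, (((q : ℕ) : BF M' q A ζ) : NRM.Inst.FK A (M' * q * q)) ^ N * z ∈ BF M' q A ζ)
    (h2 : ∀ j, v3 (NRM.Inst.FK A (M' * q * q)) (vC M' q A ζ) i₀ j z ≤ 1) : z ∈ BF M' q A ζ :=
  krF A ζ hM hq hqM hA hζ i₀ _ (coe_natCast_Bu _ _ _ q) z h1 h2

/-- (KR) for `BFinf = B_{1/t}`, `π = q`. -/
theorem krF_inv' (i₀ : (ZMod q)ˣ) (z : NRM.Inst.FK A (M' * q * q))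
    (h1 : ∃ N : ℕ,
      (((q : ℕ) : BFinf M' q A ζ) : NRM.Inst.FK A (M' * q * q)) ^ N * z ∈ BFinf M' q A ζ)
    (h2 : ∀ j, v3 (NRM.Inst.FK A (M' * q * q)) (vC M' q A ζ) i₀ j z ≤ 1) : z ∈ BFinf M' q A ζ :=
  krF_inv A ζ hM hq hqM hA hζ i₀ _ (coe_natCast_Bu _ _ _ q) z h1 h2

/-! ## (HG), verbatim shape of `NS.chart_main` / `NS.chart_inf` -/

/-- **(HG) for `BC = B_t`.** -/
theorem hgC {n : ℕ} (hn : 0 < n) {w : EC A (M' * q * q)} (hw : w ≠ 0)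
    (hP : ∀ P : Place Qb (FN (M' * q * q)), (n : ℤ) ∣ P.ord (w : FN (M' * q * q))) :
    ∃ (N m : ℕ) (φ : Fin m → Fin n → EC A (M' * q * q)),
      (∀ k j, φ k j ∈ NS.Lam (BC M' q A ζ) n w) ∧
      (∑ k, ∏ j, φ k j) * w = (((q : ℕ) : BC M' q A ζ) : EC A (M' * q * q)) ^ N :=
  hg_EC A ζ hq hA (tC_mem_EC A) (transcendental_tC A ζ hM hq hqM hA hζ) hn hw hP

/-- **(HG) for `BCinf = B_{1/t}`.** -/
theorem hgC_inv {n : ℕ} (hn : 0 < n) {w : EC A (M' * q * q)} (hw : w ≠ 0)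
    (hP : ∀ P : Place Qb (FN (M' * q * q)), (n : ℤ) ∣ P.ord (w : FN (M' * q * q))) :
    ∃ (N m : ℕ) (φ : Fin m → Fin n → EC A (M' * q * q)),
      (∀ k j, φ k j ∈ NS.Lam (BCinf M' q A ζ) n w) ∧
      (∑ k, ∏ j, φ k j) * w = (((q : ℕ) : BCinf M' q A ζ) : EC A (M' * q * q)) ^ N :=
  hg_EC A ζ hq hA (inv_mem (tC_mem_EC A))
    (S24.FF.transcendental_inv (transcendental_tC A ζ hM hq hqM hA hζ)) hn hw hP

/-- **(HG) for `BF = B_t`.** -/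
theorem hgF {n : ℕ} (hn : 0 < n) {w : NRM.Inst.FK A (M' * q * q)} (hw : w ≠ 0)
    (hP : ∀ P : Place Qb (FN (M' * q * q)), (n : ℤ) ∣ P.ord (w : FN (M' * q * q))) :
    ∃ (N m : ℕ) (φ : Fin m → Fin n → NRM.Inst.FK A (M' * q * q)),
      (∀ k j, φ k j ∈ NS.Lam (BF M' q A ζ) n w) ∧
      (∑ k, ∏ j, φ k j) * w = (((q : ℕ) : BF M' q A ζ) : NRM.Inst.FK A (M' * q * q)) ^ N :=
  hg_FK A ζ hq hA (EC_eq_FK A _ ▸ tC_mem_EC A) (transcendental_tC A ζ hM hq hqM hA hζ) hn hw hP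

/-- **(HG) for `BFinf = B_{1/t}`.** -/
theorem hgF_inv {n : ℕ} (hn : 0 < n) {w : NRM.Inst.FK A (M' * q * q)} (hw : w ≠ 0)
    (hP : ∀ P : Place Qb (FN (M' * q * q)), (n : ℤ) ∣ P.ord (w : FN (M' * q * q))) :
    ∃ (N m : ℕ) (φ : Fin m → Fin n → NRM.Inst.FK A (M' * q * q)),
      (∀ k j, φ k j ∈ NS.Lam (BFinf M' q A ζ) n w) ∧
      (∑ k, ∏ j, φ k j) * w = (((q : ℕ) : BFinf M' q A ζ) : NRM.Inst.FK A (M' * q * q)) ^ N :=
  hg_FK A ζ hq hA (inv_mem (EC_eq_FK A _ ▸ tC_mem_EC A))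
    (S24.FF.transcendental_inv (transcendental_tC A ζ hM hq hqM hA hζ)) hn hw hP

/-! ## the shape `HGt`, `HGi` of `CAR.Main.pow_of_charts` (`HGp B π n w` unfolded) -/

/-- argument `HGt` of `CAR.Main.pow_of_charts`, `E = EC`, `π = q`. -/
theorem hgtC {n : ℕ} (hn : 0 < n) {h : EC A (M' * q * q)} (h0 : h ≠ 0)
    (hord : ∀ P : Place Qb (FN (M' * q * q)), (n : ℤ) ∣ P.ord (h : FN (M' * q * q)))
    (w : EC A (M' * q * q)) (c : ℕ) (a : Qb) (z : EC A (M' * q * q)) (ha : a ≠ 0) (hz : z ≠ 0)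
    (hw : (w : FN (M' * q * q)) = (h : FN (M' * q * q)) ^ c * algebraMap Qb (FN (M' * q * q)) a *
      (z : FN (M' * q * q)) ^ n) :
    ∃ (N m : ℕ) (φ : Fin m → Fin n → EC A (M' * q * q)),
      (∀ k j, φ k j ∈ NS.Lam (BC M' q A ζ) n w) ∧
      (∑ k, ∏ j, φ k j) * w = (((q : ℕ) : BC M' q A ζ) : EC A (M' * q * q)) ^ N := by
  obtain ⟨hw0, hP⟩ := dvd_ord_of_shape (fun e => h0 (Subtype.ext e)) hord ha
    (fun e => hz (Subtype.ext e)) hw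
  exact hgC A ζ hM hq hqM hA hζ hn (fun e => hw0 (by rw [e]; rfl)) hP

/-- argument `HGi` of `CAR.Main.pow_of_charts`, `E = EC`, `π = q`. -/
theorem hgiC {n : ℕ} (hn : 0 < n) {h : EC A (M' * q * q)} (h0 : h ≠ 0)
    (hord : ∀ P : Place Qb (FN (M' * q * q)), (n : ℤ) ∣ P.ord (h : FN (M' * q * q)))
    (w : EC A (M' * q * q)) (c : ℕ) (a : Qb) (z : EC A (M' * q * q)) (ha : a ≠ 0) (hz : z ≠ 0)
    (hw : (w : FN (M' * q * q)) = (h : FN (M' * q * q)) ^ c * algebraMap Qb (FN (M' * q * q)) a *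
      (z : FN (M' * q * q)) ^ n) :
    ∃ (N m : ℕ) (φ : Fin m → Fin n → EC A (M' * q * q)),
      (∀ k j, φ k j ∈ NS.Lam (BCinf M' q A ζ) n w) ∧
      (∑ k, ∏ j, φ k j) * w = (((q : ℕ) : BCinf M' q A ζ) : EC A (M' * q * q)) ^ N := by
  obtain ⟨hw0, hP⟩ := dvd_ord_of_shape (fun e => h0 (Subtype.ext e)) hord ha
    (fun e => hz (Subtype.ext e)) hw
  exact hgC_inv A ζ hM hq hqM hA hζ hn (fun e => hw0 (by rw [e]; rfl)) hP

/-- argument `HGt` of `CAR.Main.pow_of_charts`, `E = FK`, `π = q`. -/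
theorem hgtF {n : ℕ} (hn : 0 < n) {h : NRM.Inst.FK A (M' * q * q)} (h0 : h ≠ 0)
    (hord : ∀ P : Place Qb (FN (M' * q * q)), (n : ℤ) ∣ P.ord (h : FN (M' * q * q)))
    (w : NRM.Inst.FK A (M' * q * q)) (c : ℕ) (a : Qb) (z : NRM.Inst.FK A (M' * q * q)) (ha : a ≠ 0)
    (hz : z ≠ 0)
    (hw : (w : FN (M' * q * q)) = (h : FN (M' * q * q)) ^ c * algebraMap Qb (FN (M' * q * q)) a *
      (z : FN (M' * q * q)) ^ n) :
    ∃ (N m : ℕ) (φ : Fin m → Fin n → NRM.Inst.FK A (M' * q * q)),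
      (∀ k j, φ k j ∈ NS.Lam (BF M' q A ζ) n w) ∧
      (∑ k, ∏ j, φ k j) * w = (((q : ℕ) : BF M' q A ζ) : NRM.Inst.FK A (M' * q * q)) ^ N := by
  obtain ⟨hw0, hP⟩ := dvd_ord_of_shape (fun e => h0 (Subtype.ext e)) hord ha
    (fun e => hz (Subtype.ext e)) hw
  exact hgF A ζ hM hq hqM hA hζ hn (fun e => hw0 (by rw [e]; rfl)) hP

/-- argument `HGi` of `CAR.Main.pow_of_charts`, `E = FK`, `π = q`. -/
theorem hgiF {n : ℕ} (hn : 0 < n) {h : NRM.Inst.FK A (M' * q * q)} (h0 : h ≠ 0)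
    (hord : ∀ P : Place Qb (FN (M' * q * q)), (n : ℤ) ∣ P.ord (h : FN (M' * q * q)))
    (w : NRM.Inst.FK A (M' * q * q)) (c : ℕ) (a : Qb) (z : NRM.Inst.FK A (M' * q * q)) (ha : a ≠ 0)
    (hz : z ≠ 0)
    (hw : (w : FN (M' * q * q)) = (h : FN (M' * q * q)) ^ c * algebraMap Qb (FN (M' * q * q)) a *
      (z : FN (M' * q * q)) ^ n) :
    ∃ (N m : ℕ) (φ : Fin m → Fin n → NRM.Inst.FK A (M' * q * q)),
      (∀ k j, φ k j ∈ NS.Lam (BFinf M' q A ζ) n w) ∧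
      (∑ k, ∏ j, φ k j) * w = (((q : ℕ) : BFinf M' q A ζ) : NRM.Inst.FK A (M' * q * q)) ^ N := by
  obtain ⟨hw0, hP⟩ := dvd_ord_of_shape (fun e => h0 (Subtype.ext e)) hord ha
    (fun e => hz (Subtype.ext e)) hw
  exact hgF_inv A ζ hM hq hqM hA hζ hn (fun e => hw0 (by rw [e]; rfl)) hP

end Fermat.Agent.CAR.BK
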