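import Fermat.Agent.CAR.BK.ConcRat
import Fermat.Agent.CAR.FQ2.IntRed

/-!
# CAR / BK / ConcRes : the fields `res`, `ir` of `ChartK` at the concrete level (both charts)
-/

set_option autoImplicit false

open ModularCurve AlgebraicCurve

noncomputable section

namespace Fermat.Agent.CAR.BK

open Fermat.Agent.GR Fermat.Agent.GAL Fermat.Agent.GAL.KL Fermat.Agent.GAL.KLC Fermat.Agent.S24
open Fermat.Agent.S28 Fermat.Agent.GR.HeckeField Fermat.Agent.TOR Fermat.Agent.TOR.GB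
open Fermat.Agent.CAR.FQ2V Fermat.Agent.CAR.FQ2E Fermat.Agent.CAR.FQ2C Fermat.Agent.CAR.ON
open Fermat.Agent.CAR.DESC Fermat.Agent.CAR.KLm

variable {M' q : ℕ} [NeZero M'] [NeZero q] (A : ValuationSubring Qb) (ζ : Qbˣ)
  (hM : AdmLevel M') (hq : q.Prime) (hqM : ¬ q ∣ M') (hA : A.LiesOverPrime q)
  (hζ : IsPrimitiveRoot ζ q)
include hM hq hqM hA hζ

/-- **`res`.**  (`rcases i with _ | _ | i`: `res_ooC`, `res_zrC`, `res_mdC` + `mdcC`.) -/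
theorem resC {z : FN (M' * q * q)} (hz : z ∈ EC A (M' * q * q)) (i : ON.Idx (ZMod q)ˣ)
    (φ : LaurentSeries (kA A)) (h : T1.Rd (rhoC M' q A ζ i) z φ) :
    ∃ c, T1.Rd (rho A M') c φ := by
  rcases i with _ | _ | i
  · exact res_ooC A ζ hM hq hqM hA hζ h
  · exact res_zrC A ζ hM hq hqM hA hζ h
  · exact res_mdC A ζ hM hq hqM hA hζ fun c => mdcC A ζ hq hqM hA hζ hz i c φ h

/-- the reduction of `t` at any index is a power of `ξ` (`rd_tC_oo`, `rd_tC_zr`, `rd_tC_md`). -/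
theorem exists_rd_tC (i : ON.Idx (ZMod q)ˣ) :
    ∃ N : ℕ, T1.Rd (rhoC M' q A ζ i) (FQ2C.tC M' q) (xR (kA A) M' ^ N) := by
  rcases i with _ | _ | i
  · exact ⟨_, rd_tC_oo A ζ hM hq hqM hA hζ⟩
  · exact ⟨_, rd_tC_zr A ζ hM hq hqM hA hζ⟩
  · exact ⟨_, rd_tC_md A ζ hM hq hqM hA hζ i⟩

/-- **`ir`, chart `t`.**
PROOF.  `exists_basisC` gives `ONm`, `Spans`; `FQ2.isInt_rdm (setupC ..) _ hON hSp i (isRed_C A ζ i) (ht : Rd .. t (ξ^N)) hz h (NN_le_iff.2 hv)` gives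
`IsInt k (ξ^N) φ`; conclude with `T1.isInt_of_isInt_pow`.  (Instances `Fintype`/`Nonempty (Idx ..)`: as in `ON/Res.lean`.) -/
theorem irC (z : FN (M' * q * q)) (i : ON.Idx (ZMod q)ˣ) (φ : LaurentSeries (kA A))
    (hz : IsInt Qb (FQ2C.tC M' q) z) (hv : ∀ j, vC M' q A ζ j z ≤ 1)
    (h : T1.Rd (rhoC M' q A ζ i) z φ) : IsInt (kA A) (xR (kA A) M') φ := by
  obtain ⟨Em, -, hON, hSp⟩ := exists_basisC A ζ hM hq hqM hA hζ
  obtain ⟨N, ht⟩ := exists_rd_tC A ζ hM hq hqM hA hζ i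
  exact T1.isInt_of_isInt_pow N (FQ2.isInt_rdm (setupC A ζ hM hq hqM hA hζ) _ hON hSp i
    (isRed_C A ζ i) ht hz h (NN_le_iff.2 hv))

/-- **`ir`, chart `t⁻¹`.**  Same with `(setupC ..).inv`, `ONm.inv`, `Spans.inv`, `Rd.inv` (`t⁻¹` reduces to `(ξ^N)⁻¹ = (ξ⁻¹)^N`, `inv_pow`). -/
theorem irC_inv (z : FN (M' * q * q)) (i : ON.Idx (ZMod q)ˣ) (φ : LaurentSeries (kA A))
    (hz : IsInt Qb (FQ2C.tC M' q)⁻¹ z) (hv : ∀ j, vC M' q A ζ j z ≤ 1)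
    (h : T1.Rd (rhoC M' q A ζ i) z φ) : IsInt (kA A) (xR (kA A) M')⁻¹ φ := by
  obtain ⟨Em, -, hON, hSp⟩ := exists_basisC A ζ hM hq hqM hA hζ
  obtain ⟨N, ht⟩ := exists_rd_tC A ζ hM hq hqM hA hζ i
  have S := setupC A ζ hM hq hqM hA hζ
  have hne : xR (kA A) M' ^ N ≠ 0 := by
    intro h0
    rw [h0] at ht
    have h1 := (T1.rd_zero_iff (isRed_C A ζ i)).1 ht
    rw [(S.G i).v_t] at h1
    exact lt_irrefl _ h1
  have ht' := ht.inv (isRed_C A ζ i) hne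
  rw [← inv_pow] at ht'
  exact T1.isInt_of_isInt_pow N (FQ2.isInt_rdm S.inv _ (hON.inv S) (hSp.inv (S.G i).ne_zero) i
    (isRed_C A ζ i) ht' hz h (NN_le_iff.2 hv))

end Fermat.Agent.CAR.BK
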