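import Fermat.Agent.CAR.BK.Red

/-!
# CAR / BK : package BK-2 : `B_u ⧸ pK j ≃ R'`, hence Dedekind
-/

set_option autoImplicit false

open Polynomial ModularCurve AlgebraicCurve

noncomputable section

namespace Fermat.Agent.CAR.BK

open Fermat.Agent.GAL.KL Fermat.Agent.GAL.KLC Fermat.Agent.TOR.T1 Fermat.Agent.CAR.ON
open Fermat.Agent.GAL Fermat.Agent.CAR

variable {K F₀ F k Γ' Γ₀ I : Type*} [Field K] [Field F₀] [Field F] [Algebra K F₀]
  [Algebra K F] [Field k] [LinearOrderedCommGroupWithZero Γ'] [LinearOrderedCommGroupWithZero Γ₀]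
  {v₀ : Valuation F₀ Γ'} {ρ₀ : v₀.integer →+* LaurentSeries k}
  {v : Idx I → Valuation F Γ₀} {ρ : ∀ i, (v i).integer →+* LaurentSeries k}
  {α β γ : F₀ →ₐ[K] F} {q : ℕ} [NeZero q] {E₀ : Subfield F₀} {E : Subfield F}
  {u₀ : F₀} {u : F} {η : LaurentSeries k}

/-- **`B/p_j = R'`.**  PROOF: `(rK j).codRestrict` to the subring `RR` (`rK_mem_RR`) is surjective (`rK_surj`) with kernel `pK j`
(`rK_eq_zero_iff`); `RingHom.quotientKerEquivOfSurjective` + `Ideal.quotEquivOfEq`. -/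
theorem exists_quotEquiv (H : Lvl2 K ρ₀ v ρ α β γ q) (C : ChartK K ρ₀ ρ α γ E₀ E q u₀ u η) (i₀ : I)
    (j : Idx Unit) :
    ∃ e : (Bu K E v u ⧸ pK K E v u i₀ j) ≃+* RP.RR (CTV.Fbar H.red₀) η,
      ∀ z : Bu K E v u, ((e (Ideal.Quotient.mk _ z) : RP.RR (CTV.Fbar H.red₀) η) : LaurentSeries k)
        = rK K E ρ u i₀ j z := by
  classical
  let f : Bu K E v u →+* RP.RR (CTV.Fbar H.red₀) η :=
    (rK K E ρ u i₀ j).codRestrict (RP.RR (CTV.Fbar H.red₀) η) (fun z => rK_mem_RR H C i₀ j z)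
  have hf : Function.Surjective f := by
    rintro ⟨φ, hφ⟩
    obtain ⟨z, hz⟩ := rK_surj H C i₀ j hφ
    exact ⟨z, Subtype.ext hz⟩
  have hker : pK K E v u i₀ j = RingHom.ker f := by
    ext z
    rw [RingHom.mem_ker, ← rK_eq_zero_iff H i₀ j z]
    constructor
    · intro h
      exact Subtype.ext h
    · intro h
      exact congrArg Subtype.val h
  refine ⟨(Ideal.quotEquivOfEq hker).trans (RingHom.quotientKerEquivOfSurjective hf), fun z => ?_⟩
  rfl

/-- transport of `IsDedekindDomain` along a ring isomorphism (search Mathlib: `RingEquiv.isDedekindDomain` or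
`IsDedekindDomain` + `MulEquiv.isField`/`IsNoetherianRing`/`IsIntegrallyClosed.of_equiv`/`Ring.DimensionLEOne`). -/
theorem isDedekindDomain_of_ringEquiv {R S : Type*} [CommRing R] [CommRing S] (e : R ≃+* S)
    [IsDedekindDomain R] : IsDedekindDomain S := by
  have : IsDomain S := e.isDomain_iff.mp inferInstance
  have : IsNoetherianRing S := isNoetherianRing_of_ringEquiv R e
  have : Ring.DimensionLEOne S := Ring.DimensionLEOne.of_ringEquiv e.symm
  have : IsIntegrallyClosed S := IsIntegrallyClosed.of_equiv e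
  exact { }

theorem isDedekindDomain_quot (H : Lvl2 K ρ₀ v ρ α β γ q) (C : ChartK K ρ₀ ρ α γ E₀ E q u₀ u η)
    (hD : IsDedekindDomain (RP.RR (CTV.Fbar H.red₀) η)) (i₀ : I) (j : Idx Unit) :
    IsDedekindDomain (Bu K E v u ⧸ pK K E v u i₀ j) := by
  obtain ⟨e, -⟩ := exists_quotEquiv H C i₀ j
  exact isDedekindDomain_of_ringEquiv e.symm

end Fermat.Agent.CAR.BK
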