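import Fermat.Agent.CAR.BK.Defs

/-!
# CAR / BK : package BK-1 : the reduction maps `rK j : B_u → R' = RP.RR Fbar η` (image, kernel, surjectivity)
-/

set_option autoImplicit false

open Polynomial ModularCurve AlgebraicCurve

noncomputable section

namespace Fermat.Agent.CAR.BK

open Fermat.Agent.GAL.KL Fermat.Agent.GAL.KLC Fermat.Agent.TOR.T1 Fermat.Agent.CAR.ON
open Fermat.Agent.GAL Fermat.Agent.CAR

variable {K F₀ F k Γ' Γ₀ I : Type*} [Field K] [Field F₀] [Field F] [Algebra K F₀]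
  [Algebra K F] [Field k] [LinearOrderedCommGroupWithZero Γ'] [LinearOrderedCommGroupWithZero Γ₀]
  {v₀ : Valuation F₀ Γ'} {ρ₀ : v₀.integer →+* LaurentSeries k}
  {v : Idx I → Valuation F Γ₀} {ρ : ∀ i, (v i).integer →+* LaurentSeries k}
  {α β γ : F₀ →ₐ[K] F} {q : ℕ} [NeZero q] {E₀ : Subfield F₀} {E : Subfield F}
  {u₀ : F₀} {u : F} {η : LaurentSeries k}

/-- dictionary `Rd ρ₀ c φ` ↔ `φ ∈ Fbar`. -/
theorem mem_Fbar_iff (h : IsRed K v₀ ρ₀) {φ : LaurentSeries k} :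
    φ ∈ CTV.Fbar h ↔ ∃ c, Rd ρ₀ c φ := by
  rw [CTV.mem_Fbar]
  constructor
  · rintro ⟨z, hz⟩
    exact ⟨z.1, z.2, hz⟩
  · rintro ⟨c, hc, h'⟩
    exact ⟨⟨c, hc⟩, h'⟩

/-- `α c ∈ B_u` for `c ∈ E₀` integral over `K[u₀]` with `v₀ c ≤ 1`; its three reductions
(`H.ooα`, `H.mdα`, `H.zrα`, `C.intα`, `C.αE`; `Rd.unique` with `rd_rK`). -/
theorem exists_α (H : Lvl2 K ρ₀ v ρ α β γ q) (C : ChartK K ρ₀ ρ α γ E₀ E q u₀ u η) (i₀ : I)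
    {c : F₀} (hc : c ∈ E₀) (hi : IsInt K u₀ c) {φ : LaurentSeries k} (hr : Rd ρ₀ c φ) :
    ∃ z : Bu K E v u, ((z : E) : F) = α c ∧ rK K E ρ u i₀ oo z = φ ∧ rK K E ρ u i₀ (md ()) z = φ ∧
      rK K E ρ u i₀ zr z = qExpand k q (qExpand k q φ) := by
  have hv : ∀ i, v i (α c) ≤ 1 := by
    intro i
    rcases i with _ | _ | i
    · exact (H.ooα c φ hr).le_one
    · exact (H.zrα c φ hr).le_one
    · exact (H.mdα i c φ hr).le_one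
  refine ⟨⟨⟨α c, C.αE c hc⟩, C.intα c hi, hv⟩, rfl, ?_, ?_, ?_⟩
  · exact (rd_rK E ρ u i₀ oo _).unique (H.ooα c φ hr)
  · exact (rd_rK E ρ u i₀ (md ()) _).unique (H.mdα i₀ c φ hr)
  · exact (rd_rK E ρ u i₀ zr _).unique (H.zrα c φ hr)

/-- the same for `γ`. -/
theorem exists_γ (H : Lvl2 K ρ₀ v ρ α β γ q) (C : ChartK K ρ₀ ρ α γ E₀ E q u₀ u η) (i₀ : I)
    {c : F₀} (hc : c ∈ E₀) (hi : IsInt K u₀ c) {φ : LaurentSeries k} (hr : Rd ρ₀ c φ) :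
    ∃ z : Bu K E v u, ((z : E) : F) = γ c ∧ rK K E ρ u i₀ oo z = qExpand k q (qExpand k q φ) ∧
      rK K E ρ u i₀ (md ()) z = φ ∧ rK K E ρ u i₀ zr z = φ := by
  have hv : ∀ i, v i (γ c) ≤ 1 := by
    intro i
    rcases i with _ | _ | i
    · exact (H.ooγ c φ hr).le_one
    · exact (H.zrγ c φ hr).le_one
    · exact (H.mdγ i c φ hr).le_one
  refine ⟨⟨⟨γ c, C.γE c hc⟩, C.intγ c hi, hv⟩, rfl, ?_, ?_, ?_⟩
  · exact (rd_rK E ρ u i₀ oo _).unique (H.ooγ c φ hr)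
  · exact (rd_rK E ρ u i₀ (md ()) _).unique (H.mdγ i₀ c φ hr)
  · exact (rd_rK E ρ u i₀ zr _).unique (H.zrγ c φ hr)

/-- the image of `rK j` lies in the reduced chart ring (`C.res`, `C.ir`). -/
theorem rK_mem_RR (H : Lvl2 K ρ₀ v ρ α β γ q) (C : ChartK K ρ₀ ρ α γ E₀ E q u₀ u η) (i₀ : I)
    (j : Idx Unit) (z : Bu K E v u) : rK K E ρ u i₀ j z ∈ RP.RR (CTV.Fbar H.red₀) η := by
  rw [RP.mem_RR]
  exact ⟨(mem_Fbar_iff H.red₀).2 (C.res _ (z : E).2 (l3 i₀ j) _ (rd_rK E ρ u i₀ j z)),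
    C.ir _ (l3 i₀ j) _ z.2.1 z.2.2 (rd_rK E ρ u i₀ j z)⟩

/-- `rK j` is onto the reduced chart ring (`C.lift`, then `exists_α` for `j = oo, md ()`, `exists_γ` for `j = zr`). -/
theorem rK_surj (H : Lvl2 K ρ₀ v ρ α β γ q) (C : ChartK K ρ₀ ρ α γ E₀ E q u₀ u η) (i₀ : I)
    (j : Idx Unit) {φ : LaurentSeries k} (hφ : φ ∈ RP.RR (CTV.Fbar H.red₀) η) :
    ∃ z : Bu K E v u, rK K E ρ u i₀ j z = φ := by
  rw [RP.mem_RR] at hφ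
  obtain ⟨c, hc⟩ := (mem_Fbar_iff H.red₀).1 hφ.1
  obtain ⟨c', hc'E, hi, hr⟩ := C.lift c φ hc hφ.2
  rcases j with _ | _ | j
  · obtain ⟨z, -, h1, -, -⟩ := exists_α H C i₀ hc'E hi hr
    exact ⟨z, h1⟩
  · obtain ⟨z, -, -, -, h1⟩ := exists_γ H C i₀ hc'E hi hr
    exact ⟨z, h1⟩
  · obtain ⟨z, -, -, h1, -⟩ := exists_α H C i₀ hc'E hi hr
    exact ⟨z, h1⟩

/-- the kernel of `rK j` is `pK j` (`IsRed.ker`). -/
theorem rK_eq_zero_iff (H : Lvl2 K ρ₀ v ρ α β γ q) (i₀ : I) (j : Idx Unit) (z : Bu K E v u) :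
    rK K E ρ u i₀ j z = 0 ↔ z ∈ pK K E v u i₀ j :=
  (H.red (l3 i₀ j)).ker _

/-- on `E`, `v (md i) z ≤ 1` does not depend on `i` (`C.mdc`, `exists_rd`). -/
theorem md_le_one (C : ChartK K ρ₀ ρ α γ E₀ E q u₀ u η) {z : F} (hz : z ∈ E) (i j : I)
    (h : v (md i) z ≤ 1) : v (md j) z ≤ 1 := by
  obtain ⟨φ, hφ⟩ := exists_rd (ρ := ρ (md i)) h
  exact (C.mdc z hz i j φ hφ).le_one

/-- membership in `B_u` can be tested on the three valuations `v3`. -/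
theorem mem_Bu_iff3 (C : ChartK K ρ₀ ρ α γ E₀ E q u₀ u η) (i₀ : I) (z : E) :
    z ∈ Bu K E v u ↔ IsInt K u (z : F) ∧ ∀ j, v3 E v i₀ j z ≤ 1 := by
  rw [mem_Bu]
  constructor
  · rintro ⟨h1, h2⟩
    exact ⟨h1, fun j => h2 (l3 i₀ j)⟩
  · rintro ⟨h1, h2⟩
    refine ⟨h1, fun i => ?_⟩
    rcases i with _ | _ | i
    · exact h2 oo
    · exact h2 zr
    · exact md_le_one C z.2 i₀ i (h2 (md ()))

end Fermat.Agent.CAR.BK
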