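import Fermat.Agent.CAR.BK.Lift
import Fermat.Agent.CAR.BK.ConcRat
import Fermat.Agent.CAR.DESC.Lin

/-!
# CAR / BK : RL-6 : `L(a (t)_∞)` at level `q² M'` is spanned over `ℚ̄` by its inertia-fixed elements of sup norm `≤ 1`
-/

set_option autoImplicit false

open Polynomial ModularCurve AlgebraicCurve

noncomputable section

namespace Fermat.Agent.CAR.BK

open Fermat.Agent.GR Fermat.Agent.GAL Fermat.Agent.GAL.KL Fermat.Agent.GAL.KLC Fermat.Agent.S24
open Fermat.Agent.S28 Fermat.Agent.GR.HeckeField Fermat.Agent.TOR Fermat.Agent.TOR.GB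
open Fermat.Agent.CAR.FQ2V Fermat.Agent.CAR.FQ2E Fermat.Agent.CAR.FQ2C Fermat.Agent.CAR.ON
open Fermat.Agent.CAR.DESC

variable {M' q : ℕ} [NeZero M'] [NeZero q] (A : ValuationSubring Qb) (ζ : Qbˣ)

/-- `q` is small for all the valuations of the family. -/
theorem SpanC_q_lt_one (hA : A.LiesOverPrime q) (i : ON.Idx (ZMod q)ˣ) :
    vC M' q A ζ i (algebraMap Qb (FN (M' * q * q)) (q : Qb)) < 1 := by
  rw [map_natCast]
  exact vOf_prime_lt_one A (famC M' q ζ i) hA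

/-- scaling: a power of `q` makes any element integral for the whole family. -/
theorem exists_pow_q_mul_le (hq : q.Prime) (hA : A.LiesOverPrime q) (z : FN (M' * q * q)) :
    ∃ m : ℕ, ∀ i, vC M' q A ζ i (algebraMap Qb (FN (M' * q * q)) ((q : Qb) ^ m) * z) ≤ 1 := by
  classical
  have h1 : ∀ i : ON.Idx (ZMod q)ˣ, ∃ m : ℕ, ∀ m', m ≤ m' →
      vC M' q A ζ i (algebraMap Qb (FN (M' * q * q)) ((q : Qb) ^ m') * z) ≤ 1 := by
    intro i
    by_cases hz : z = 0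
    · refine ⟨0, fun m' _ => ?_⟩
      subst hz
      rw [mul_zero, map_zero]
      exact zero_le_one
    have hvz : vC M' q A ζ i z ≠ 0 := (Valuation.ne_zero_iff _).2 hz
    obtain ⟨m, hm⟩ := arch_C (M' := M') A ζ hq hA i _ (SpanC_q_lt_one (M' := M') A ζ hA i)
      (vC M' q A ζ i z)⁻¹ (inv_ne_zero hvz)
    refine ⟨m, fun m' hm' => ?_⟩
    rw [map_mul, map_pow, map_pow]
    have h2 : vC M' q A ζ i (algebraMap Qb (FN (M' * q * q)) (q : Qb)) ^ m' ≤
        vC M' q A ζ i (algebraMap Qb (FN (M' * q * q)) (q : Qb)) ^ m :=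
      pow_le_pow_right_of_le_one' (SpanC_q_lt_one A ζ hA i).le hm'
    have h3 := (h2.trans_lt hm).le
    calc _ ≤ (vC M' q A ζ i z)⁻¹ * vC M' q A ζ i z := mul_le_mul_left h3 _
      _ = 1 := inv_mul_cancel₀ hvz
  choose m hm using h1
  have : Fact q.Prime := ⟨hq⟩
  exact ⟨Finset.univ.sup m, fun i => hm i _ (Finset.le_sup (Finset.mem_univ i))⟩

/-- `L(a (t)_∞)` is finite dimensional. -/
theorem finite_LLC (a : ℕ) : FiniteDimensional Qb (LL Qb (FQ2C.tC M' q) a) := by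
  rw [tC_eq_tC, LL_eq_L (BKP.transcendental_tC (M' := M') (q := q)) a]
  infer_instance

/-- `L(a (t)_∞)` is stable under inertia. -/
theorem galF_mem_LLC (a : ℕ) {τ : GQ} (hτ : τ ∈ A.inertiaSubgroupIn ℚ) {w : FN (M' * q * q)}
    (hw : w ∈ LL Qb (FQ2C.tC M' q) a) : galF (M' * q * q) τ w ∈ LL Qb (FQ2C.tC M' q) a := by
  have hfix : galF (M' * q * q) τ (FQ2C.tC M' q) = FQ2C.tC M' q :=
    (mem_EC_iff_galF A).1 (tC_mem_EC A) τ hτ
  have hfixi : galF (M' * q * q) τ (FQ2C.tC M' q)⁻¹ = (FQ2C.tC M' q)⁻¹ := by rw [map_inv₀, hfix]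
  refine ⟨isInt_galF _ τ hfix hw.1, ?_⟩
  have := isInt_galF _ τ hfixi hw.2
  rwa [map_mul, map_pow, hfixi] at this

/-- **RL-6.** -/
theorem span_LatC (hq : q.Prime) (hA : A.LiesOverPrime q) (a : ℕ) :
    LL Qb (FQ2C.tC M' q) a ≤ Submodule.span Qb
      {z | z ∈ EC A (M' * q * q) ∧ z ∈ LL Qb (FQ2C.tC M' q) a ∧ ∀ i, vC M' q A ζ i z ≤ 1} := by
  have hfin := finite_LLC (M' := M') (q := q) a
  set W := LL Qb (FQ2C.tC M' q) a with hW
  set S : Set (FN (M' * q * q)) :=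
    {z | z ∈ EC A (M' * q * q) ∧ z ∈ W ∧ ∀ i, vC M' q A ζ i z ≤ 1} with hS
  have hfin' : Module.Finite Qb (W.map (Lift_incl (M' * q * q))) := inferInstance
  have key := span_fixed (H := ((IA A : Subgroup GQ) : Set GQ)) (W.map (Lift_incl (M' * q * q))) hfin' (by
    rintro τ hτ _ ⟨w, hw, rfl⟩
    exact ⟨galF (M' * q * q) τ w, galF_mem_LLC A a hτ hw, rfl⟩)
  have hinj : Function.Injective (Lift_incl (M' * q * q)) := fun _ _ h => Subtype.ext h
  have hsub : Submodule.span Qb {f | f ∈ W.map (Lift_incl (M' * q * q)) ∧ FixS ((IA A : Subgroup GQ) : Set GQ) f}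
      ≤ (Submodule.span Qb S).map (Lift_incl (M' * q * q)) := by
    rw [Submodule.span_le]
    rintro _ ⟨⟨w, hw, rfl⟩, hfix⟩
    refine ⟨w, ?_, rfl⟩
    obtain ⟨m, hm⟩ := exists_pow_q_mul_le A ζ hq hA w
    have hq0 : ((q : Qb) ^ m) ≠ 0 := pow_ne_zero _ (Nat.cast_ne_zero.2 hq.ne_zero)
    have h1 : algebraMap Qb (FN (M' * q * q)) ((q : Qb) ^ m) * w ∈ S := by
      refine ⟨mul_mem (algebraMap_mem_EC A (M' * q * q) fun τ _ => by rw [map_pow, map_natCast]) hfix, ?_, hm⟩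
      rw [← Algebra.smul_def]
      exact W.smul_mem _ hw
    have h2 : ((q : Qb) ^ m)⁻¹ • (algebraMap Qb (FN (M' * q * q)) ((q : Qb) ^ m) * w) = w := by
      rw [Algebra.smul_def, ← mul_assoc, ← map_mul, inv_mul_cancel₀ hq0, map_one, one_mul]
    rw [← h2]
    exact Submodule.smul_mem _ _ (Submodule.subset_span h1)
  intro z hz
  obtain ⟨z', hz', hzz⟩ := hsub (key ⟨z, hz, rfl⟩)
  rwa [← hinj hzz]

end Fermat.Agent.CAR.BK
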